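import Fermat.Agent.Corollaries.MinModel
import Fermat.Agent.Corollaries.CondLevel

/-!
# Modularity and Tate's theorem in terms of Mathlib's reduction types

For `E : WeierstrassCurve ℚ` and a prime `p` let `E.at p` be a minimal equation of `E` over `ℤ_[p]`
(Mathlib's `WeierstrassCurve.minimal`).

* `isModular_of_reduction`: if `E` has additive reduction at no prime, then `E` is modular.
* `exists_not_hasGoodReduction`: every elliptic curve over `ℚ` has a prime of bad reduction.
-/

set_option autoImplicit false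

noncomputable section

open WeierstrassCurve

namespace Fermat.Agent.Cor.KM

open MinModel

/-- A minimal equation of `E` at `p`. -/
abbrev minAt (E : WeierstrassCurve ℚ) (p : ℕ) [Fact p.Prime] : WeierstrassCurve ℚ_[p] :=
  (E.map (algebraMap ℚ ℚ_[p])).minimal ℤ_[p]

/-- `E` has good or multiplicative reduction at every prime. -/
def Semistable (E : WeierstrassCurve ℚ) : Prop :=
  ∀ (p : ℕ) [Fact p.Prime], ¬ (minAt E p).HasAdditiveReduction ℤ_[p]

variable {p : ℕ} [hp : Fact p.Prime]

/-- The minimal equation at `p` comes from the global one by an integral change of variables. -/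
theorem exists_smul_loc {W : WeierstrassCurve ℤ} {E : WeierstrassCurve ℚ}
    (h : W.IsIntegralModelOf E) : ∃ C : VariableChange ℚ_[p], C • loc p W = minAt E p := by
  obtain ⟨C₁, hC₁⟩ := h
  set C₂ := ((E.map (algebraMap ℚ ℚ_[p])).exists_isMinimal ℤ_[p]).choose with hC₂
  have hmin : minAt E p = C₂ • E.map (algebraMap ℚ ℚ_[p]) := rfl
  have hloc : loc p W = C₁.map (algebraMap ℚ ℚ_[p]) • E.map (algebraMap ℚ ℚ_[p]) := by
    rw [map_variableChange, hC₁, WeierstrassCurve.map_map]
    congr 1
  refine ⟨C₂ * (C₁.map (algebraMap ℚ ℚ_[p]))⁻¹, ?_⟩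
  rw [hloc, ← mul_smul, mul_assoc, inv_mul_cancel, mul_one, hmin]

open IsDedekindDomain.HeightOneSpectrum

local notation "v" => valuation ℚ_[p] (IsDiscreteValuationRing.maximalIdeal ℤ_[p])

theorem valuation_intCast_le (m : ℤ) : v (m : ℚ_[p]) ≤ 1 := by
  have e : (m : ℚ_[p]) = algebraMap ℤ_[p] ℚ_[p] (m : ℤ_[p]) := (PadicInt.coe_intCast _).symm
  rw [e]
  exact valuation_le_one _ _

theorem valuation_intCast_lt_iff (m : ℤ) : v (m : ℚ_[p]) < 1 ↔ (p : ℤ) ∣ m := by
  have e : (m : ℚ_[p]) = algebraMap ℤ_[p] ℚ_[p] (m : ℤ_[p]) := (PadicInt.coe_intCast _).symm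
  rw [e, valuation_lt_one_iff_mem]
  show (m : ℤ_[p]) ∈ IsLocalRing.maximalIdeal ℤ_[p] ↔ _
  rw [IsLocalRing.mem_maximalIdeal, PadicInt.mem_nonunits]
  exact PadicInt.norm_int_lt_one_iff_dvd m

/-- **The `|Δ|`-minimal model of a semistable curve is semistable.** -/
theorem isSemistableModel {W : WeierstrassCurve ℤ} {E : WeierstrassCurve ℚ} (hE : E.Δ ≠ 0)
    (h : IsDiscMinimal W E) (hs : Semistable E) : W.IsSemistableModel := by
  intro p hp hd hc
  have : Fact p.Prime := ⟨hp⟩
  obtain ⟨C, hC⟩ := exists_smul_loc (p := p) h.1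
  have hint : (C • loc p W).IsIntegral ℤ_[p] := by rw [hC]; infer_instance
  have hu := valuation_inv_u_le hE h hint
  refine hs p ?_
  refine (hasAdditiveReduction_iff ℤ_[p] (minAt E p)).mpr ⟨inferInstance, ?_, ?_⟩
  · rw [← hC, variableChange_Δ, map_mul, map_pow]
    refine (mul_le_of_le_one_left' (pow_le_one' hu 12)).trans_lt ?_
    rw [map_Δ]
    exact (valuation_intCast_lt_iff _).mpr hd
  · rw [← hC, variableChange_c₄, map_mul, map_pow]
    refine (mul_le_of_le_one_left' (pow_le_one' hu 4)).trans_lt ?_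
    rw [map_c₄]
    exact (valuation_intCast_lt_iff _).mpr hc

/-- **Every elliptic curve over `ℚ` with good or multiplicative reduction at every prime is
modular.** -/
theorem isModular_of_reduction (E : WeierstrassCurve ℚ) [E.IsElliptic] (h : Semistable E) :
    E.IsModular := by
  have hE : E.Δ ≠ 0 := E.isUnit_Δ.ne_zero
  obtain ⟨W, hW⟩ := exists_isDiscMinimal E
  have h1 := isModularModelOfLevel_conductor (Δ_ne_zero_of_model hE hW.1)
    (isSemistableModel hE hW h)
  exact ⟨W, hW.1, _, W.conductorLevel_pos, h1⟩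

/-- **Tate's theorem**: every elliptic curve over `ℚ` has a prime of bad reduction. -/
theorem exists_not_hasGoodReduction (E : WeierstrassCurve ℚ) [E.IsElliptic] :
    ∃ (p : ℕ) (_ : Fact p.Prime), ¬ (minAt E p).HasGoodReduction ℤ_[p] := by
  have hE : E.Δ ≠ 0 := E.isUnit_Δ.ne_zero
  obtain ⟨W, hW⟩ := exists_isDiscMinimal E
  obtain ⟨q, hq, hd⟩ := exists_prime_dvd_Δ W
  have : Fact q.Prime := ⟨hq⟩
  exact ⟨q, this, fun hg => hW.not_dvd hE hg hd⟩

end Fermat.Agent.Cor.KM
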