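import Fermat.Agent.Corollaries.Mathlib.LocalPoly
import Fermat.Agent.Corollaries.Mathlib.Reduction
import Fermat.Agent.Corollaries.HW.SplitPoly
import Fermat.Agent.Corollaries.HW.Defs

/-!
# The local polynomials of a semistable elliptic curve over `ℚ`

Let `W` be an integral model of `E : WeierstrassCurve ℚ` with `|Δ|` minimal.  Over every copy of
`ℤ_p ⊆ ℚ_p` the equation `W` is minimal, and if `E` is semistable, then Mathlib's local polynomial
of `W` is `1 - a_p T + p T²` at the primes of good reduction and `1 - a_p T` at the other primes,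
where `a_p = ap W p`.
-/

set_option autoImplicit false
set_option linter.unusedSectionVars false

noncomputable section

open WeierstrassCurve IsDedekindDomain.HeightOneSpectrum Polynomial
open IsDiscreteValuationRing (maximalIdeal exists_lift_of_le_one)
open IsLocalRing (ResidueField residue)

namespace Fermat.Agent.Cor.KM

open MinModel

/-! ### The local polynomial does not depend on the equation -/

section Invariance

variable {R : Type*} [CommRing R] [IsDomain R] [IsDiscreteValuationRing R] {K : Type*}
  [Field K] [Algebra R K] [IsFractionRing R K]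

theorem localPolynomial_minimal (W : WeierstrassCurve K) (hΔ : W.Δ ≠ 0) :
    (W.minimal R).localPolynomial R = W.localPolynomial R := by
  set C₀ := (W.exists_isMinimal R).choose with hC₀
  have hmin : W.minimal R = C₀ • W := rfl
  have hΔ' : (W.minimal R).Δ ≠ 0 := by
    rw [hmin, variableChange_Δ]
    exact mul_ne_zero (pow_ne_zero _ (Units.ne_zero _)) hΔ
  rw [localPolynomial_eq hΔ']
  rfl

/-- two minimal equations of the same curve have the same local polynomial. -/
theorem localPolynomial_smul_of_isMinimal {M : WeierstrassCurve K} {C : VariableChange K}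
    [hM : M.IsMinimal R] [hCM : (C • M).IsMinimal R] (hΔ : M.Δ ≠ 0) :
    (C • M).localPolynomial R = M.localPolynomial R := by
  obtain ⟨D, rfl⟩ := exists_change (R := R) (W := M) (C := C) hΔ
  have hΔ' : (D.map (algebraMap R K) • M).Δ ≠ 0 := by
    rw [variableChange_Δ]
    exact mul_ne_zero (pow_ne_zero _ (Units.ne_zero _)) hΔ
  rw [localPolynomial_eq hΔ', localPolynomial_eq hΔ]
  by_cases hg : M.HasGoodReduction R
  · have hg' : (D.map (algebraMap R K) • M).HasGoodReduction R :=
      hasGoodReduction_smul_iff.mpr hg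
    rw [if_pos hg', if_pos hg]
    have hne : (M.reduction R).Δ ≠ 0 :=
      ((hasGoodReduction_iff_isElliptic_reduction R).mp hg).isUnit.ne_zero
    have e : Nat.card ((D.map (algebraMap R K) • M).reduction R).toAffine.Point =
        Nat.card (M.reduction R).toAffine.Point := by
      rw [reduction_smul]
      exact card_point_smul _ _ hne
    rw [e]
  · have hg' : ¬ (D.map (algebraMap R K) • M).HasGoodReduction R := fun h =>
      hg (hasGoodReduction_smul_iff.mp h)
    rw [if_neg hg', if_neg hg]
    by_cases hsp : M.HasSplitMultiplicativeReduction R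
    · rw [if_pos (hasSplit_smul_iff.mpr hsp), if_pos hsp]
    · rw [if_neg fun h => hsp (hasSplit_smul_iff.mp h), if_neg hsp]
      by_cases hm : M.HasMultiplicativeReduction R
      · rw [if_pos (hasMultiplicativeReduction_smul_iff.mpr hm), if_pos hm]
      · rw [if_neg fun h => hm (hasMultiplicativeReduction_smul_iff.mp h), if_neg hm]

/-- **The local polynomial is invariant under changes of variables.** -/
theorem localPolynomial_smul {W : WeierstrassCurve K} (hΔ : W.Δ ≠ 0) (C : VariableChange K) :
    (C • W).localPolynomial R = W.localPolynomial R := by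
  have hΔC : (C • W).Δ ≠ 0 := by
    rw [variableChange_Δ]
    exact mul_ne_zero (pow_ne_zero _ (Units.ne_zero _)) hΔ
  rw [← localPolynomial_minimal (R := R) W hΔ, ← localPolynomial_minimal (R := R) (C • W) hΔC]
  set C₀ := (W.exists_isMinimal R).choose with hC₀
  set C₁ := ((C • W).exists_isMinimal R).choose with hC₁
  have hmin₀ : W.minimal R = C₀ • W := rfl
  have hmin₁ : (C • W).minimal R = (C₁ * C * C₀⁻¹) • W.minimal R := by
    have h1 : (C • W).minimal R = C₁ • C • W := rfl
    rw [h1, hmin₀, mul_smul, mul_smul, ← mul_smul C₀⁻¹, inv_mul_cancel, one_smul]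
  have hΔ₀ : (W.minimal R).Δ ≠ 0 := by
    rw [hmin₀, variableChange_Δ]
    exact mul_ne_zero (pow_ne_zero _ (Units.ne_zero _)) hΔ
  have hm : ((C₁ * C * C₀⁻¹) • W.minimal R).IsMinimal R := by
    rw [← hmin₁]
    infer_instance
  rw [hmin₁]
  exact localPolynomial_smul_of_isMinimal hΔ₀

end Invariance

/-! ### Points under isomorphisms of fields -/

theorem card_point_map {k k' : Type*} [Field k] [Field k'] (σ : k ≃+* k')
    (W : WeierstrassCurve ℤ) :
    Nat.card (W.map (Int.castRingHom k)).toAffine.Point =
      Nat.card (W.map (Int.castRingHom k')).toAffine.Point := by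
  classical
  let f : k →ₐ[ℤ] k' := σ.toRingHom.toIntAlgHom
  let g : k' →ₐ[ℤ] k := σ.symm.toRingHom.toIntAlgHom
  have h1 : Function.Injective (Affine.Point.map (W' := W.toAffine) f) :=
    Affine.Point.map_injective f
  have h2 : Function.Surjective (Affine.Point.map (W' := W.toAffine) f) := by
    intro P
    refine ⟨Affine.Point.map (W' := W.toAffine) g P, ?_⟩
    rw [Affine.Point.map_map]
    cases P with
    | zero => rfl
    | some x y h =>
      rw [Affine.Point.map_some]
      congr 1
      · exact σ.apply_symm_apply x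
      · exact σ.apply_symm_apply y
  exact Nat.card_congr (Equiv.ofBijective _ ⟨h1, h2⟩)

/-! ### Copies of `ℤ_p ⊆ ℚ_p` -/

/-- Compatible isomorphisms of `R ⊆ K` with `ℤ_p ⊆ ℚ_p`. -/
structure PadicIso (R K : Type*) [CommRing R] [Field K] [Algebra R K] (p : ℕ) [Fact p.Prime] where
  /-- the isomorphism of the fields -/
  φ : K ≃+* ℚ_[p]
  /-- the isomorphism of the rings -/
  e : R ≃+* ℤ_[p]
  comm : ∀ x : R, φ (algebraMap R K x) = (e x : ℚ_[p])

section Local

variable {R : Type*} [CommRing R] [IsDomain R] [IsDiscreteValuationRing R] {K : Type*}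
  [Field K] [Algebra R K] [IsFractionRing R K] {p : ℕ} [hp : Fact p.Prime]

namespace PadicIso

theorem mem_range_iff (I : PadicIso R K p) (x : K) :
    x ∈ (algebraMap R K).range ↔ ‖I.φ x‖ ≤ 1 := by
  constructor
  · rintro ⟨a, rfl⟩
    rw [I.comm]
    exact PadicInt.norm_le_one _
  · intro h
    refine ⟨I.e.symm ⟨I.φ x, h⟩, I.φ.injective ?_⟩
    rw [I.comm, RingEquiv.apply_symm_apply]

/-- the residue field. -/
def res (I : PadicIso R K p) : ResidueField R ≃+* ZMod p :=
  (IsLocalRing.ResidueField.mapEquiv I.e).trans PadicInt.residueField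

theorem card_residueField (I : PadicIso R K p) : Nat.card (ResidueField R) = p := by
  rw [Nat.card_congr I.res.toEquiv, Nat.card_zmod]

theorem intCast_mem_maximalIdeal_iff (I : PadicIso R K p) (m : ℤ) :
    (m : R) ∈ IsLocalRing.maximalIdeal R ↔ (p : ℤ) ∣ m := by
  rw [← IsLocalRing.residue_eq_zero_iff, map_intCast,
    ← map_eq_zero_iff I.res I.res.injective, map_intCast, ZMod.intCast_zmod_eq_zero_iff_dvd]

theorem valuation_intCast_lt_iff (I : PadicIso R K p) (m : ℤ) :
    valuation K (maximalIdeal R) (m : K) < 1 ↔ (p : ℤ) ∣ m := by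
  have e : (m : K) = algebraMap R K (m : R) := (map_intCast _ _).symm
  rw [e, valuation_lt_one_iff_mem]
  exact I.intCast_mem_maximalIdeal_iff m

theorem valuation_intCast_eq_one_iff (I : PadicIso R K p) (m : ℤ) :
    valuation K (maximalIdeal R) (m : K) = 1 ↔ ¬ (p : ℤ) ∣ m := by
  rw [← I.valuation_intCast_lt_iff]
  have h : valuation K (maximalIdeal R) (m : K) ≤ 1 := by
    have e : (m : K) = algebraMap R K (m : R) := (map_intCast _ _).symm
    rw [e]
    exact valuation_le_one _ _
  constructor
  · intro h1
    rw [h1]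
    exact lt_irrefl _
  · intro h1
    exact le_antisymm h (not_lt.mp h1)

end PadicIso

variable (R K) in
/-- `W` over `K`. -/
abbrev ov (W : WeierstrassCurve ℤ) : WeierstrassCurve K := W.map (Int.castRingHom K)

instance isIntegral_ov (W : WeierstrassCurve ℤ) : (ov K W).IsIntegral R := by
  refine ⟨W.map (Int.castRingHom R), ?_⟩
  show W.map (Int.castRingHom K) = (W.map (Int.castRingHom R)).map (algebraMap R K)
  rw [WeierstrassCurve.map_map,
    RingHom.ext_int ((algebraMap R K).comp (Int.castRingHom R)) (Int.castRingHom K)]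

theorem integralModel_ov (W : WeierstrassCurve ℤ) :
    (ov K W).integralModel R = W.map (Int.castRingHom R) := by
  apply WeierstrassCurve.map_injective (IsFractionRing.injective R K)
  show ((ov K W).integralModel R).map (algebraMap R K) =
    (W.map (Int.castRingHom R)).map (algebraMap R K)
  rw [map_integralModel, WeierstrassCurve.map_map,
    RingHom.ext_int ((algebraMap R K).comp (Int.castRingHom R)) (Int.castRingHom K)]

theorem reduction_ov (W : WeierstrassCurve ℤ) [(ov K W).IsMinimal R] :
    (ov K W).reduction R = W.map (Int.castRingHom (ResidueField R)) := by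
  rw [reduction, integralModel_ov, WeierstrassCurve.map_map,
    RingHom.ext_int ((residue R).comp (Int.castRingHom R)) (Int.castRingHom (ResidueField R))]

variable {W : WeierstrassCurve ℤ} {E : WeierstrassCurve ℚ}

theorem PadicIso.valuation_inv_u_le (I : PadicIso R K p) (hE : E.Δ ≠ 0) (h : IsDiscMinimal W E)
    {C : VariableChange K} (hC : (C • ov K W).IsIntegral R) :
    valuation K (maximalIdeal R) (((C.u)⁻¹ : Kˣ) : K) ≤ 1 := by
  have hloc : (ov K W).map (I.φ : K →+* ℚ_[p]) = loc p W := by
    rw [WeierstrassCurve.map_map,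
      RingHom.ext_int ((I.φ : K →+* ℚ_[p]).comp (Int.castRingHom K)) (Int.castRingHom ℚ_[p])]
  have h1 : Coeffs (PadicInt.subring p) (C.map (I.φ : K →+* ℚ_[p]) • loc p W) := by
    rw [← hloc, map_variableChange]
    have h2 := coeffs_of_isIntegral' hC
    constructor
    · exact (I.mem_range_iff _).mp h2.a₁
    · exact (I.mem_range_iff _).mp h2.a₂
    · exact (I.mem_range_iff _).mp h2.a₃
    · exact (I.mem_range_iff _).mp h2.a₄
    · exact (I.mem_range_iff _).mp h2.a₆
  have h3 : 1 ≤ ‖I.φ (C.u : K)‖ := h.one_le_norm hE h1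
  apply valuation_le_one_of_mem_range
  rw [I.mem_range_iff, Units.val_inv_eq_inv_val, map_inv₀, norm_inv]
  exact inv_le_one_of_one_le₀ h3

/-- `W` is minimal over every copy of `ℤ_p`. -/
theorem PadicIso.isMinimal (I : PadicIso R K p) (hE : E.Δ ≠ 0) (h : IsDiscMinimal W E) :
    (ov K W).IsMinimal R := by
  refine ⟨⟨?_, fun C hC _ => ?_⟩⟩
  · show ((1 : VariableChange K) • ov K W).IsIntegral R
    rw [one_smul]
    infer_instance
  · have hC' : (C • ov K W).IsIntegral R := hC
    show valuation_Δ_aux R (C • ov K W) ≤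
      valuation_Δ_aux R ((1 : VariableChange K) • ov K W)
    rw [one_smul, ← Subtype.coe_le_coe, valuation_Δ_aux_eq_of_isIntegral,
      valuation_Δ_aux_eq_of_isIntegral, variableChange_Δ, map_mul, map_pow]
    exact mul_le_of_le_one_left' (pow_le_one' (I.valuation_inv_u_le hE h hC') 12)

open HW (ap)

/-- **The local polynomial** in terms of an equation with good or multiplicative reduction. -/
theorem PadicIso.localPolynomial_ov_of (I : PadicIso R K p) (hE : E.Δ ≠ 0)
    (h : IsDiscMinimal W E) (hs : (p : ℤ) ∣ W.Δ → ¬ (p : ℤ) ∣ W.c₄) :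
    (ov K W).localPolynomial R =
      1 - C (ap W p) * X + (if (p : ℤ) ∣ W.Δ then 0 else C (p : ℤ) * X ^ 2) := by
  have hmin := I.isMinimal hE h
  have hW : W.Δ ≠ 0 := Δ_ne_zero_of_model hE h.1
  have hcast : ∀ m : ℤ, Int.castRingHom K m = (m : K) := fun m => rfl
  have hinj : Function.Injective (I.φ : K → ℚ_[p]) := I.φ.injective
  have hchar : CharZero K := (I.φ : K →+* ℚ_[p]).charZero
  have hΔK : (ov K W).Δ ≠ 0 := by
    rw [map_Δ, hcast]
    exact_mod_cast hW
  have hcard : Nat.card ((ov K W).reduction R).toAffine.Point =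
      Nat.card (W.reductionMod p).toAffine.Point := by
    rw [reduction_ov]
    exact card_point_map I.res W
  have hap : W.apOfModel p = (p : ℤ) + 1 - (Nat.card (W.reductionMod p).toAffine.Point : ℤ) := by
    rw [WeierstrassCurve.apOfModel, WeierstrassCurve.traceOfFrobenius, Nat.card_zmod]
    rfl
  rw [localPolynomial_eq hΔK, I.card_residueField]
  by_cases hd : (p : ℤ) ∣ W.Δ
  · have hc₄ : ¬ (p : ℤ) ∣ W.c₄ := hs hd
    have hv1 : valuation K (maximalIdeal R) (ov K W).Δ < 1 := by
      rw [map_Δ, hcast]
      exact (I.valuation_intCast_lt_iff _).mpr hd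
    have hv2 : valuation K (maximalIdeal R) (ov K W).c₄ = 1 := by
      rw [map_c₄, hcast]
      exact (I.valuation_intCast_eq_one_iff _).mpr hc₄
    have hng : ¬ (ov K W).HasGoodReduction R := by
      rw [hasGoodReduction_iff]
      exact fun h1 => hv1.ne h1.2
    have hm : (ov K W).HasMultiplicativeReduction R := by
      rw [hasMultiplicativeReduction_iff]
      exact ⟨hmin, hv1, hv2⟩
    rw [if_neg hng, if_pos hd, add_zero]
    have hfin : Finite (ResidueField R) := Finite.of_equiv _ I.res.symm.toEquiv
    have hred : ∀ m : ℤ, Int.castRingHom (ResidueField R) m = 0 ↔ (p : ℤ) ∣ m := by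
      intro m
      rw [eq_intCast, ← map_eq_zero_iff I.res I.res.injective, map_intCast,
        ZMod.intCast_zmod_eq_zero_iff_dvd]
    have hrΔ : ((ov K W).reduction R).Δ = 0 := by
      rw [reduction_ov, map_Δ]
      exact (hred _).mpr hd
    have hrc : ((ov K W).reduction R).c₄ ≠ 0 := by
      rw [reduction_ov, map_c₄]
      exact fun h0 => hc₄ ((hred _).mp h0)
    rw [ap, if_pos hd, hap]
    by_cases hsp : (slopePoly ((ov K W).reduction R)).Splits
    · rw [if_pos (hasSplit_iff.mpr ⟨hm, hsp⟩)]
      have h1 := (HW.splits_iff_card hrΔ hrc).mp hsp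
      rw [hcard, I.card_residueField] at h1
      have h2 : (p : ℤ) + 1 - (Nat.card (W.reductionMod p).toAffine.Point : ℤ) - 1 = 1 := by
        omega
      rw [h2, C_1, one_mul]
    · rw [if_neg (fun h0 => hsp (hasSplit_iff.mp h0).2), if_pos hm]
      have h1 := (HW.not_splits_iff_card hrΔ hrc).mp hsp
      rw [hcard, I.card_residueField] at h1
      have h2 : (p : ℤ) + 1 - (Nat.card (W.reductionMod p).toAffine.Point : ℤ) - 1 = -1 := by
        omega
      rw [h2, C_neg, C_1]
      ring
  · have hg : (ov K W).HasGoodReduction R := by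
      rw [hasGoodReduction_iff]
      refine ⟨hmin, ?_⟩
      rw [map_Δ, hcast]
      exact (I.valuation_intCast_eq_one_iff _).mpr hd
    rw [if_pos hg, if_neg hd, ap, if_neg hd, hap, hcard]

/-- **The local polynomial of a semistable curve.** -/
theorem PadicIso.localPolynomial_ov (I : PadicIso R K p) (hE : E.Δ ≠ 0) (h : IsDiscMinimal W E)
    (hs : W.IsSemistableModel) : (ov K W).localPolynomial R =
      1 - C (ap W p) * X + (if (p : ℤ) ∣ W.Δ then 0 else C (p : ℤ) * X ^ 2) :=
  I.localPolynomial_ov_of hE h (hs p hp.out)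

/-- Additive reduction. -/
theorem PadicIso.localPolynomial_ov_add (I : PadicIso R K p) (hE : E.Δ ≠ 0)
    (h : IsDiscMinimal W E) (hd : (p : ℤ) ∣ W.Δ) (hc₄ : (p : ℤ) ∣ W.c₄) :
    (ov K W).localPolynomial R = 1 := by
  have hmin := I.isMinimal hE h
  have hW : W.Δ ≠ 0 := Δ_ne_zero_of_model hE h.1
  have hcast : ∀ m : ℤ, Int.castRingHom K m = (m : K) := fun m => rfl
  have hchar : CharZero K := (I.φ : K →+* ℚ_[p]).charZero
  have hΔK : (ov K W).Δ ≠ 0 := by
    rw [map_Δ, hcast]
    exact_mod_cast hW
  have hv1 : valuation K (maximalIdeal R) (ov K W).Δ < 1 := by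
    rw [map_Δ, hcast]
    exact (I.valuation_intCast_lt_iff _).mpr hd
  have hv2 : valuation K (maximalIdeal R) (ov K W).c₄ < 1 := by
    rw [map_c₄, hcast]
    exact (I.valuation_intCast_lt_iff _).mpr hc₄
  have hng : ¬ (ov K W).HasGoodReduction R := by
    rw [hasGoodReduction_iff]
    exact fun h1 => hv1.ne h1.2
  have hnm : ¬ (ov K W).HasMultiplicativeReduction R := by
    rw [hasMultiplicativeReduction_iff]
    exact fun h1 => hv2.ne h1.2.2
  rw [localPolynomial_eq hΔK, if_neg hng, if_neg fun h1 => hnm (hasSplit_iff.mp h1).1, if_neg hnm]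

/-- The local polynomial of a curve with a model of good reduction, minimal or not elsewhere. -/
theorem PadicIso.localPolynomial_ov_good (I : PadicIso R K p) (hd : ¬ (p : ℤ) ∣ W.Δ) :
    (ov K W).localPolynomial R = 1 - C (W.apOfModel p) * X + C (p : ℤ) * X ^ 2 := by
  have hcast : ∀ m : ℤ, Int.castRingHom K m = (m : K) := fun m => rfl
  have hchar : CharZero K := (I.φ : K →+* ℚ_[p]).charZero
  have hW : W.Δ ≠ 0 := fun h0 => hd (h0 ▸ dvd_zero _)
  have hΔK : (ov K W).Δ ≠ 0 := by
    rw [map_Δ, hcast]
    exact_mod_cast hW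
  have hv : valuation K (maximalIdeal R) (ov K W).Δ = 1 := by
    rw [map_Δ, hcast]
    exact (I.valuation_intCast_eq_one_iff _).mpr hd
  have hmin : (ov K W).IsMinimal R := by
    refine ⟨⟨?_, fun C hC _ => ?_⟩⟩
    · show ((1 : VariableChange K) • ov K W).IsIntegral R
      rw [one_smul]
      infer_instance
    · have hC' : (C • ov K W).IsIntegral R := hC
      show valuation_Δ_aux R (C • ov K W) ≤
        valuation_Δ_aux R ((1 : VariableChange K) • ov K W)
      rw [one_smul, ← Subtype.coe_le_coe, valuation_Δ_aux_eq_of_isIntegral,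
        valuation_Δ_aux_eq_of_isIntegral, hv]
      obtain ⟨r, hr⟩ := Δ_integral_of_isIntegral R (C • ov K W)
      rw [← hr]
      exact valuation_le_one _ _
  have hg : (ov K W).HasGoodReduction R := by
    rw [hasGoodReduction_iff]
    exact ⟨hmin, hv⟩
  have hcard : Nat.card ((ov K W).reduction R).toAffine.Point =
      Nat.card (W.reductionMod p).toAffine.Point := by
    rw [reduction_ov]
    exact card_point_map I.res W
  have hap : W.apOfModel p = (p : ℤ) + 1 - (Nat.card (W.reductionMod p).toAffine.Point : ℤ) := by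
    rw [WeierstrassCurve.apOfModel, WeierstrassCurve.traceOfFrobenius, Nat.card_zmod]
    rfl
  rw [localPolynomial_eq hΔK, I.card_residueField, if_pos hg, hap, hcard]

/-- **The local polynomial of a semistable curve**, in terms of any equation over `ℚ`. -/
theorem PadicIso.localPolynomial_eq_ap (I : PadicIso R K p) (hE : E.Δ ≠ 0)
    (h : IsDiscMinimal W E) (hs : W.IsSemistableModel) (ψ : ℚ →+* K) :
    (E.map ψ).localPolynomial R =
      1 - C (ap W p) * X + (if (p : ℤ) ∣ W.Δ then 0 else C (p : ℤ) * X ^ 2) := by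
  obtain ⟨C₁, hC₁⟩ := h.1
  have e : ov K W = C₁.map ψ • E.map ψ := by
    rw [map_variableChange, hC₁, WeierstrassCurve.map_map,
      RingHom.ext_int (ψ.comp (Int.castRingHom ℚ)) (Int.castRingHom K)]
  have hΔ : (E.map ψ).Δ ≠ 0 := by
    rw [map_Δ]
    exact (map_ne_zero ψ).mpr hE
  rw [← I.localPolynomial_ov hE h hs, e, localPolynomial_smul hΔ]

end Local

end Fermat.Agent.Cor.KM
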