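import Mathlib.NumberTheory.ArithmeticFunction.LFunction

/-!
# The values of an Euler product at the powers of a prime

For a family of local factors `f i` in the variable `q i ^ (-s)`, with distinct primes `q i`, the value of
Mathlib's `ArithmeticFunction.eulerProduct` at `q i ^ k` is the `k`-th coefficient of `f i`, and its value at a
power of a prime which is not one of the `q i` is `0`.
-/

set_option autoImplicit false

noncomputable section

open Filter

namespace Fermat.Agent.Cor.KM

open ArithmeticFunction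

variable {ι R : Type*} [CommRing R]

/-- a factor without terms at the powers of `p` does not change the values at the powers of `p` -/
theorem mul_apply_prime_pow {p : ℕ} (hp : p.Prime) {g : ArithmeticFunction R} (G : ArithmeticFunction R)
    (h1 : g 1 = 1) (h0 : ∀ u, u ≠ 0 → g (p ^ u) = 0) (k : ℕ) : (g * G) (p ^ k) = G (p ^ k) := by
  rw [mul_apply, Finset.sum_eq_single (1, p ^ k)]
  · rw [h1, one_mul]
  · rintro ⟨a, b⟩ hab hne
    obtain ⟨h2, -⟩ := Nat.mem_divisorsAntidiagonal.mp hab
    obtain ⟨u, -, rfl⟩ := (Nat.dvd_prime_pow hp).mp (Dvd.intro _ h2)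
    rcases eq_or_ne u 0 with rfl | hu
    · exact (hne (by simpa using h2)).elim
    · simp only [h0 u hu, zero_mul]
  · intro h
    exact (h (Nat.mem_divisorsAntidiagonal.mpr ⟨one_mul _, pow_ne_zero _ hp.ne_zero⟩)).elim

/-- a local factor at `q` has no terms at the powers of another prime -/
theorem ofPowerSeries_apply_other {p q : ℕ} (hp : p.Prime) (hq : q.Prime) (hpq : p ≠ q)
    (f : PowerSeries R) {u : ℕ} (hu : u ≠ 0) : ofPowerSeries q f (p ^ u) = 0 := by
  rw [ofPowerSeries_apply hq.one_lt, Function.extend_apply', Pi.zero_apply]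
  rintro ⟨v, hv⟩
  have hv : q ^ v = p ^ u := hv
  have h1 : p ∣ q ^ v := hv ▸ dvd_pow_self p hu
  exact hpq ((Nat.prime_dvd_prime_iff_eq hp hq).mp (hp.dvd_of_dvd_pow h1))

/-- a finite product of local factors at other primes has no terms at the powers of `p` -/
theorem prod_apply_other (q : ι → ℕ) (hq : ∀ i, (q i).Prime) (f : ι → PowerSeries R)
    (hf : ∀ i, (f i).constantCoeff = 1) {p : ℕ} (hp : p.Prime) (s : Finset ι)
    (hs : ∀ i ∈ s, q i ≠ p) (k : ℕ) :
    (∏ i ∈ s, ofPowerSeries (q i) (f i)) (p ^ k) = (1 : ArithmeticFunction R) (p ^ k) := by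
  classical
  induction s using Finset.induction_on with
  | empty => rw [Finset.prod_empty]
  | insert i s hi ih =>
    rw [Finset.prod_insert hi, mul_apply_prime_pow hp]
    · exact ih fun j hj => hs j (Finset.mem_insert_of_mem hj)
    · rw [ofPowerSeries_apply_one, hf]
    · intro u hu
      exact ofPowerSeries_apply_other hp (hq i) (hs i (Finset.mem_insert_self i s)).symm _ hu

/-- **the Euler product at the powers of `q i`** -/
theorem eulerProduct_apply_pow (q : ι → ℕ) [Northcott q] (hq : ∀ i, (q i).Prime)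
    (hinj : Function.Injective q) (f : ι → PowerSeries R) (hf : ∀ i, (f i).constantCoeff = 1)
    (i : ι) (k : ℕ) :
    eulerProduct (fun i => ofPowerSeries (q i) (f i)) (q i ^ k) = (f i).coeff k := by
  classical
  obtain ⟨s, hs, hi⟩ := ((tendsTo_eulerProduct_ofPowerSeries q f hf (q i ^ k)).and
    (eventually_ge_atTop {i})).exists
  have hi : i ∈ s := hi (Finset.mem_singleton_self i)
  have hne : ∀ j ∈ s.erase i, q j ≠ q i := fun j hj h => Finset.ne_of_mem_erase hj (hinj h)
  rw [← hs, ← Finset.mul_prod_erase s _ hi, mul_comm, mul_apply_prime_pow (hq i)]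
  · exact ofPowerSeries_apply_pow (hq i).one_lt _ _
  · have h := prod_apply_other q hq f hf (hq i) (s.erase i) hne 0
    rwa [pow_zero, one_one] at h
  · intro u hu
    rw [prod_apply_other q hq f hf (hq i) (s.erase i) hne u, one_apply_ne]
    exact (Nat.one_lt_pow hu (hq i).one_lt).ne'

/-- the Euler product at a power of a prime which is not one of the `q i` -/
theorem eulerProduct_apply_pow_other (q : ι → ℕ) [Northcott q] (hq : ∀ i, (q i).Prime)
    (f : ι → PowerSeries R) (hf : ∀ i, (f i).constantCoeff = 1) {p : ℕ} (hp : p.Prime)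
    (hne : ∀ i, q i ≠ p) {k : ℕ} (hk : k ≠ 0) :
    eulerProduct (fun i => ofPowerSeries (q i) (f i)) (p ^ k) = 0 := by
  obtain ⟨s, hs⟩ := (tendsTo_eulerProduct_ofPowerSeries q f hf (p ^ k)).exists
  rw [← hs, prod_apply_other q hq f hf hp s (fun i _ => hne i) k, one_apply_ne]
  exact (Nat.one_lt_pow hk hp.one_lt).ne'

theorem isMultiplicative_eulerProduct_ofPowerSeries (q : ι → ℕ) (hq : ∀ i, (q i).Prime)
    (f : ι → PowerSeries R) (hf : ∀ i, (f i).constantCoeff = 1) :
    IsMultiplicative (eulerProduct fun i => ofPowerSeries (q i) (f i)) :=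
  isMultiplicative_eulerProduct _ fun i =>
    isMultiplicative_ofPowerSeries_of_isPrimePow _ (hq i).isPrimePow _ (hf i)

end Fermat.Agent.Cor.KM
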