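import Mathlib.RingTheory.PowerSeries.Inverse
import Mathlib.NumberTheory.ArithmeticFunction.Defs
import Fermat.Agent.HeckeEigen.Forms

/-!
# Multiplicative arithmetic functions with the Euler factors of an eigenform
-/

set_option autoImplicit false

noncomputable section

open CongruenceSubgroup ModularFormClass UpperHalfPlane

namespace Fermat.Agent.Cor.KM

section PowerSeries

variable {A : Type*} [CommRing A] (a b : A)

/-- The inverse of `1 - a T + b T²`. -/
def invPS : PowerSeries A :=
  PowerSeries.invOfUnit (1 - PowerSeries.C a * PowerSeries.X +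
    PowerSeries.C b * PowerSeries.X ^ 2) 1

theorem invPS_mul : (1 - PowerSeries.C a * PowerSeries.X +
    PowerSeries.C b * PowerSeries.X ^ 2) * invPS a b = 1 :=
  PowerSeries.mul_invOfUnit _ 1 (by simp)

theorem invPS_eq : invPS a b = 1 + PowerSeries.C a * (PowerSeries.X * invPS a b) -
    PowerSeries.C b * (PowerSeries.X * (PowerSeries.X * invPS a b)) := by
  have h := invPS_mul a b
  linear_combination h

theorem coeff_invPS_zero : (invPS a b).coeff 0 = 1 := by
  rw [invPS_eq]
  simp

theorem coeff_invPS_one : (invPS a b).coeff 1 = a := by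
  rw [invPS_eq, map_sub, map_add, PowerSeries.coeff_C_mul, PowerSeries.coeff_C_mul,
    PowerSeries.coeff_succ_X_mul 0, PowerSeries.coeff_succ_X_mul 0,
    PowerSeries.coeff_zero_X_mul, coeff_invPS_zero]
  simp [PowerSeries.coeff_one]

theorem coeff_invPS_add_two (k : ℕ) : (invPS a b).coeff (k + 2) =
    a * (invPS a b).coeff (k + 1) - b * (invPS a b).coeff k := by
  conv_lhs => rw [invPS_eq]
  rw [map_sub, map_add, PowerSeries.coeff_C_mul, PowerSeries.coeff_C_mul,
    PowerSeries.coeff_succ_X_mul (k + 1), PowerSeries.coeff_succ_X_mul (k + 1),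
    PowerSeries.coeff_succ_X_mul k, PowerSeries.coeff_one, if_neg (by omega), zero_add]

end PowerSeries

open FermatAgent.HeckeEigen in
/-- **A multiplicative function with the Euler factors of an eigenform is the sequence of its
coefficients.** -/
theorem eq_qCoeff {N : ℕ} {f : CuspForm (Gamma0 N) 2} (hf : f.IsNormalizedEigenform)
    {F : ArithmeticFunction ℤ} (hF : F.IsMultiplicative) {a : ℕ → ℤ}
    (ha : ∀ p : ℕ, p.Prime → qCoeff f p = (a p : ℂ))
    (hp : ∀ p : ℕ, p.Prime → ∀ k : ℕ,
      F (p ^ k) = (invPS (a p) (if p ∣ N then 0 else (p : ℤ))).coeff k) (n : ℕ) :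
    (F n : ℂ) = qCoeff f n := by
  have hpow : ∀ p : ℕ, p.Prime → ∀ k : ℕ, (F (p ^ k) : ℂ) = qCoeff f (p ^ k) ∧
      (F (p ^ (k + 1)) : ℂ) = qCoeff f (p ^ (k + 1)) := by
    intro p hpp k
    induction k with
    | zero =>
      refine ⟨?_, ?_⟩
      · rw [hp p hpp, coeff_invPS_zero, pow_zero, hf.qCoeff_one, Int.cast_one]
      · rw [hp p hpp, coeff_invPS_one, zero_add, pow_one, ha p hpp]
    | succ k ih =>
      refine ⟨ih.2, ?_⟩
      rw [hp p hpp, coeff_invPS_add_two, ← hp p hpp, ← hp p hpp]
      by_cases hd : p ∣ N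
      · rw [if_pos hd, zero_mul, sub_zero, hf.qCoeff_prime_pow_of_dvd p k hpp hd, ha p hpp,
          ← ih.2]
        push_cast
        ring
      · rw [if_neg hd, hf.qCoeff_prime_pow_of_not_dvd p k hpp hd, ha p hpp, ← ih.2, ← ih.1]
        push_cast
        ring
  induction n using Nat.recOnPosPrimePosCoprime with
  | prime_pow p k hpp _ => exact (hpow p hpp k).1
  | zero => rw [ArithmeticFunction.map_zero, Int.cast_zero, qCoeff_at_zero]
  | one => rw [hF.1, hf.qCoeff_one, Int.cast_one]
  | coprime m n _ _ hmn hm hn =>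
    rw [hF.2 hmn, hf.qCoeff_mul_of_coprime m n hmn, ← hm, ← hn, Int.cast_mul]

end Fermat.Agent.Cor.KM
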