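import Mathlib.NumberTheory.Padics.HeightOneSpectrum
import Mathlib.AlgebraicGeometry.EllipticCurve.LFunction
import Fermat.Agent.Corollaries.Mathlib.Adic
import Fermat.Agent.Corollaries.Mathlib.EulerAt
import Fermat.Agent.Corollaries.Mathlib.FormCoeff
import Fermat.Agent.Corollaries.HW.StripFinal

/-!
# Mathlib's `L`-function of a semistable elliptic curve over `ℚ`

Mathlib defines `WeierstrassCurve.LFunction` over a number field as the Euler product of the local
factors over the completions at the primes of the ring of integers.  For a semistable curve over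
`ℚ` we compute the factors (`localPowerSeries_eq`) and show that the coefficients of the
`L`-function are those of the newform (`LFunction_eq_qCoeff`).
-/

set_option autoImplicit false

noncomputable section

open WeierstrassCurve IsDedekindDomain NumberField ArithmeticFunction
open CongruenceSubgroup ModularFormClass UpperHalfPlane
open Rat.HeightOneSpectrum

namespace Fermat.Agent.Cor.KM

open MinModel
open HW (ap)

/-- The prime number of a prime ideal of the ring of integers of `ℚ`. -/
abbrev pr (v : HeightOneSpectrum (𝓞 ℚ)) : ℕ := (primesEquiv v : Nat.Primes)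

instance fact_pr (v : HeightOneSpectrum (𝓞 ℚ)) : Fact (pr v).Prime := ⟨(primesEquiv v).2⟩

/-- Mathlib's isomorphisms of the completions of `ℚ` with `ℚ_p`. -/
def padicIso (v : HeightOneSpectrum (𝓞 ℚ)) :
    PadicIso (v.adicCompletionIntegers ℚ) (v.adicCompletion ℚ) (pr v) where
  φ := (adicCompletion.padicEquiv v).toAlgEquiv.toRingEquiv
  e := (adicCompletionIntegers.padicIntEquiv v).toAlgEquiv.toRingEquiv
  comm _ := rfl

theorem pr_injective : Function.Injective pr := fun _ _ h =>
  primesEquiv.injective (Subtype.ext h)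

instance northcott_pr : Northcott pr := by
  rw [northcott_iff_tendsto]
  exact pr_injective.tendsto_cofinite.trans Nat.cofinite_eq_atTop.le

theorem exists_pr {p : ℕ} (hp : p.Prime) : ∃ v, pr v = p :=
  ⟨primesEquiv.symm ⟨p, hp⟩, by rw [pr, Equiv.apply_symm_apply]⟩

variable {W : WeierstrassCurve ℤ} {E : WeierstrassCurve ℚ}

/-- **The local factors of the `L`-function.** -/
theorem localPowerSeries_eq (hE : E.Δ ≠ 0) (h : IsDiscMinimal W E) (hs : W.IsSemistableModel)
    (v : HeightOneSpectrum (𝓞 ℚ)) :
    (E.baseChange (v.adicCompletion ℚ)).localPowerSeries (v.adicCompletionIntegers ℚ) =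
      invPS (ap W (pr v)) (if ((pr v : ℕ) : ℤ) ∣ W.Δ then 0 else ((pr v : ℕ) : ℤ)) := by
  have h1 := (padicIso v).localPolynomial_eq_ap hE h hs (algebraMap ℚ (v.adicCompletion ℚ))
  rw [localPowerSeries]
  show PowerSeries.invOfUnit (((E.map (algebraMap ℚ (v.adicCompletion ℚ))).localPolynomial
    (v.adicCompletionIntegers ℚ) : Polynomial ℤ) : PowerSeries ℤ) 1 = _
  rw [h1, invPS]
  congr 1
  split_ifs <;> simp only [Polynomial.coe_add, Polynomial.coe_sub, Polynomial.coe_mul,
    Polynomial.coe_C, Polynomial.coe_X, Polynomial.coe_one, Polynomial.coe_pow,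
    Polynomial.coe_zero, _root_.map_zero, zero_mul]

theorem LFunction_eq (hE : E.Δ ≠ 0) (h : IsDiscMinimal W E) (hs : W.IsSemistableModel) :
    E.LFunction = eulerProduct fun v : HeightOneSpectrum (𝓞 ℚ) =>
      ofPowerSeries (pr v) (invPS (ap W (pr v))
        (if ((pr v : ℕ) : ℤ) ∣ W.Δ then 0 else ((pr v : ℕ) : ℤ))) := by
  rw [LFunction]
  congr 1
  funext v
  rw [localEulerFactor, (padicIso v).card_residueField, localPowerSeries_eq hE h hs]

theorem constantCoeff_invPS {A : Type*} [CommRing A] (a b : A) :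
    (invPS a b).constantCoeff = 1 := by
  rw [← PowerSeries.coeff_zero_eq_constantCoeff, coeff_invPS_zero]

theorem isMultiplicative_LFunction (hE : E.Δ ≠ 0) (h : IsDiscMinimal W E)
    (hs : W.IsSemistableModel) : E.LFunction.IsMultiplicative := by
  rw [LFunction_eq hE h hs]
  exact isMultiplicative_eulerProduct_ofPowerSeries _ (fun v => (primesEquiv v).2) _
    fun v => constantCoeff_invPS _ _

theorem LFunction_apply_pow (hE : E.Δ ≠ 0) (h : IsDiscMinimal W E) (hs : W.IsSemistableModel)
    {p : ℕ} (hp : p.Prime) (k : ℕ) : E.LFunction (p ^ k) =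
      (invPS (ap W p) (if (p : ℤ) ∣ W.Δ then 0 else (p : ℤ))).coeff k := by
  obtain ⟨v, rfl⟩ := exists_pr hp
  rw [LFunction_eq hE h hs]
  exact eulerProduct_apply_pow pr (fun v => (primesEquiv v).2) pr_injective
    (fun v => invPS (ap W (pr v)) (if ((pr v : ℕ) : ℤ) ∣ W.Δ then 0 else ((pr v : ℕ) : ℤ)))
    (fun v => constantCoeff_invPS _ _) v k

/-- **The coefficients of Mathlib's `L`-function are those of the newform.** -/
theorem LFunction_eq_qCoeff (hE : E.Δ ≠ 0) (h : IsDiscMinimal W E) (hs : W.IsSemistableModel)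
    {f : CuspForm (Gamma0 W.conductorLevel) 2} (hf : f.IsNormalizedEigenform)
    (ha : ∀ p : ℕ, p.Prime → qCoeff f p = (ap W p : ℂ)) (n : ℕ) :
    (E.LFunction n : ℂ) = qCoeff f n := by
  refine eq_qCoeff hf (isMultiplicative_LFunction hE h hs) ha (fun p hp k => ?_) n
  rw [LFunction_apply_pow hE h hs hp]
  have h1 := W.prime_dvd_conductorLevel_iff (Δ_ne_zero_of_model hE h.1) hp
  by_cases hd : p ∣ W.conductorLevel
  · rw [if_pos hd, if_pos (h1.mp hd)]
  · rw [if_neg hd, if_neg fun h2 => hd (h1.mpr h2)]

theorem LFunction_prime (hE : E.Δ ≠ 0) (h : IsDiscMinimal W E) (hs : W.IsSemistableModel)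
    {p : ℕ} (hp : p.Prime) : E.LFunction p = ap W p := by
  have h1 := LFunction_apply_pow hE h hs hp 1
  rwa [pow_one, coeff_invPS_one] at h1

end Fermat.Agent.Cor.KM
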