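import Fermat.Agent.Corollaries.Mathlib.HasseF
import Fermat.Agent.Corollaries.Mathlib.LFun
import Fermat.Agent.Oldforms.Basic

/-!
# Mathlib's `L`-function of an arbitrary elliptic curve over `ℚ`

No hypothesis on the reduction.

* `LFunction_smul`: over every number field, `E.LFunction` is invariant under changes of variables;
* `isMultiplicative_LFunction'`, `LFunction_eq_apOfModel`: `E.LFunction` is multiplicative, and
  `E.LFunction p = p + 1 - #W(𝔽_p)` for every equation `W` over `ℤ` of `E` and every prime `p` not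
  dividing its discriminant;
* `abs_LFunction_le'`: `|E.LFunction n| ≤ d(n) √n`;
* `lseriesSummable`, `hasProd_LSeries`, `LSeries_ne_zero`: for `re s > 3/2` the series converges
  absolutely, is equal to its Euler product and is not zero;
* `isModular_iff`: `E` is modular if and only if there is a normalised eigenform of weight two with
  the coefficients of `E.LFunction` at almost all primes.
-/

set_option autoImplicit false

noncomputable section

open WeierstrassCurve IsDedekindDomain NumberField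
open CongruenceSubgroup ModularFormClass
open UpperHalfPlane hiding I
open Rat.HeightOneSpectrum

namespace Fermat.Agent.Cor.KM

open MinModel
open HW (ap)

/-- **Mathlib's `L`-function is invariant under changes of variables**, over every number field. -/
theorem LFunction_smul {K : Type*} [Field K] [NumberField K] {W : WeierstrassCurve K}
    (hΔ : W.Δ ≠ 0) (C : VariableChange K) : (C • W).LFunction = W.LFunction := by
  rw [LFunction, LFunction]
  refine congrArg ArithmeticFunction.eulerProduct (funext fun v => ?_)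
  have e : (C • W).baseChange (v.adicCompletion K) =
      C.map (algebraMap K (v.adicCompletion K)) • W.baseChange (v.adicCompletion K) :=
    (map_variableChange _ _ _).symm
  have hΔ' : (W.baseChange (v.adicCompletion K)).Δ ≠ 0 := by
    show (W.map (algebraMap K (v.adicCompletion K))).Δ ≠ 0
    rw [map_Δ]
    exact (map_ne_zero _).mpr hΔ
  rw [localEulerFactor, localEulerFactor, localPowerSeries, localPowerSeries, e,
    localPolynomial_smul hΔ']

section Local

variable {R : Type*} [CommRing R] [IsDomain R] [IsDiscreteValuationRing R] {K : Type*}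
  [Field K] [Algebra R K] [IsFractionRing R K]

theorem localPolynomial_map_eq {W : WeierstrassCurve ℤ} {E : WeierstrassCurve ℚ} (hE : E.Δ ≠ 0)
    (h : W.IsIntegralModelOf E) (ψ : ℚ →+* K) :
    (E.map ψ).localPolynomial R = (ov K W).localPolynomial R := by
  obtain ⟨C₁, hC₁⟩ := h
  have e : ov K W = C₁.map ψ • E.map ψ := by
    rw [map_variableChange, hC₁, WeierstrassCurve.map_map,
      RingHom.ext_int (ψ.comp (Int.castRingHom ℚ)) (Int.castRingHom K)]
  have hΔ : (E.map ψ).Δ ≠ 0 := by
    rw [map_Δ]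
    exact (map_ne_zero ψ).mpr hE
  rw [e, localPolynomial_smul hΔ]

end Local

variable {W : WeierstrassCurve ℤ} {E : WeierstrassCurve ℚ}

/-- the coefficient `a_p`, `W` minimal -/
def aE (W : WeierstrassCurve ℤ) (p : ℕ) : ℤ :=
  if (p : ℤ) ∣ W.Δ ∧ (p : ℤ) ∣ W.c₄ then 0 else ap W p

/-- the coefficient of `T²` -/
def bE (W : WeierstrassCurve ℤ) (p : ℕ) : ℤ := if (p : ℤ) ∣ W.Δ then 0 else p

open Polynomial in
theorem localPolynomial_eq_aE (hE : E.Δ ≠ 0) (h : IsDiscMinimal W E)
    (v : HeightOneSpectrum (𝓞 ℚ)) :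
    (E.baseChange (v.adicCompletion ℚ)).localPolynomial (v.adicCompletionIntegers ℚ) =
      1 - C (aE W (pr v)) * X + C (bE W (pr v)) * X ^ 2 := by
  have h1 := localPolynomial_map_eq (R := v.adicCompletionIntegers ℚ) hE h.1
    (algebraMap ℚ (v.adicCompletion ℚ))
  refine h1.trans ?_
  by_cases hb : ((pr v : ℕ) : ℤ) ∣ W.Δ ∧ ((pr v : ℕ) : ℤ) ∣ W.c₄
  · rw [(padicIso v).localPolynomial_ov_add hE h hb.1 hb.2, aE, bE, if_pos hb, if_pos hb.1]
    simp
  · rw [(padicIso v).localPolynomial_ov_of hE h fun h2 h3 => hb ⟨h2, h3⟩, aE, bE, if_neg hb]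
    split_ifs <;> simp

theorem LFunction_eq' (hE : E.Δ ≠ 0) (h : IsDiscMinimal W E) :
    E.LFunction = ArithmeticFunction.eulerProduct fun v : HeightOneSpectrum (𝓞 ℚ) =>
      ArithmeticFunction.ofPowerSeries (pr v) (invPS (aE W (pr v)) (bE W (pr v))) := by
  rw [LFunction]
  refine congrArg ArithmeticFunction.eulerProduct (funext fun v => ?_)
  rw [localEulerFactor, (padicIso v).card_residueField, localPowerSeries,
    localPolynomial_eq_aE hE h, invPS]
  congr 2
  simp only [Polynomial.coe_add, Polynomial.coe_sub, Polynomial.coe_mul,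
    Polynomial.coe_C, Polynomial.coe_X, Polynomial.coe_one, Polynomial.coe_pow]

theorem abs_aE_le {p : ℕ} (hΔ : W.Δ ≠ 0) (hp : p.Prime) (hd : (p : ℤ) ∣ W.Δ) : |aE W p| ≤ 1 := by
  rw [aE]
  split_ifs with h
  · simp
  · rw [ap, if_pos hd]
    rcases HW.apOfModel_sub_one ⟨hp, hd, fun hc => h ⟨hd, hc⟩, hΔ⟩ with h1 | h1 <;> simp [h1]

/-- **The `L`-function of every elliptic curve over `ℚ`.** -/
theorem isHasseFun (hE : E.Δ ≠ 0) (h : IsDiscMinimal W E) :
    IsHasseFun E.LFunction (aE W) (bE W) := by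
  have hΔ := Δ_ne_zero_of_model hE h.1
  refine ⟨?_, fun p hp k => ?_, fun p hp => ?_⟩
  · rw [LFunction_eq' hE h]
    exact isMultiplicative_eulerProduct_ofPowerSeries _ (fun v => (primesEquiv v).2) _
      fun v => constantCoeff_invPS _ _
  · obtain ⟨v, rfl⟩ := exists_pr hp
    rw [LFunction_eq' hE h]
    exact eulerProduct_apply_pow pr (fun v => (primesEquiv v).2) pr_injective
      (fun v => invPS (aE W (pr v)) (bE W (pr v))) (fun v => constantCoeff_invPS _ _) v k
  · by_cases hd : (p : ℤ) ∣ W.Δ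
    · have h1 : ‖(aE W p : ℂ)‖ ≤ 1 := by
        rw [Complex.norm_intCast]
        exact_mod_cast abs_aE_le hΔ hp hd
      have h2 : (1 : ℝ) ≤ √p := by
        rw [Real.one_le_sqrt]
        exact_mod_cast hp.one_lt.le
      exact ⟨aE W p, 0, h1.trans h2, by rw [norm_zero]; exact Real.sqrt_nonneg _,
        add_zero _, by rw [mul_zero, bE, if_pos hd, Int.cast_zero]⟩
    · have h1 : ((W.apOfModel p : ℤ) : ℝ) ^ 2 ≤ 4 * (p : ℝ) := by
        exact_mod_cast HW.apOfModel_sq_le hp hd
      obtain ⟨α, β, hα, hβ, h2, h3⟩ := HW.exists_roots h1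
      refine ⟨α, β, hα, hβ, ?_, ?_⟩
      · rw [h2, aE, if_neg fun h => hd h.1, ap, if_neg hd]
        push_cast
        rfl
      · rw [h3, bE, if_neg hd]
        push_cast
        rfl

/-! ### Statements for an arbitrary elliptic curve over `ℚ` -/

section Curve

variable (E) [E.IsElliptic]

/-- **Multiplicativity.** -/
theorem isMultiplicative_LFunction' : E.LFunction.IsMultiplicative := by
  obtain ⟨W, hW⟩ := exists_isDiscMinimal E
  exact (isHasseFun E.isUnit_Δ.ne_zero hW).mult

/-- **The Hasse bound** `|a_n| ≤ d(n) √n` for all `n`. -/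
theorem abs_LFunction_le' (n : ℕ) : |(E.LFunction n : ℝ)| ≤ n.divisors.card * √n := by
  obtain ⟨W, hW⟩ := exists_isDiscMinimal E
  have h1 := (isHasseFun E.isUnit_Δ.ne_zero hW).norm_le n
  rwa [Complex.norm_intCast] at h1

/-- **Absolute convergence** of Mathlib's `L`-series for `re s > 3/2`. -/
theorem lseriesSummable {s : ℂ} (hs : 3 / 2 < s.re) :
    LSeriesSummable (fun n => (E.LFunction n : ℂ)) s := by
  obtain ⟨W, hW⟩ := exists_isDiscMinimal E
  exact (isHasseFun E.isUnit_Δ.ne_zero hW).lseriesSummable hs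

/-- **The Euler product** of Mathlib's `L`-series for `re s > 3/2`; `W` is an equation of `E` over
`ℤ` with `|Δ|` minimal. -/
theorem hasProd_LSeries {W : WeierstrassCurve ℤ} (hW : IsDiscMinimal W E) {s : ℂ}
    (hs : 3 / 2 < s.re) : HasProd (fun p : Nat.Primes =>
      (1 - aE W p * (p : ℂ) ^ (-s) + bE W p * (p : ℂ) ^ (-(2 * s)))⁻¹) (E.LSeries s) :=
  (isHasseFun E.isUnit_Δ.ne_zero hW).hasProd hs

/-- **No zeros** for `re s > 3/2`. -/
theorem LSeries_ne_zero {s : ℂ} (hs : 3 / 2 < s.re) : E.LSeries s ≠ 0 := by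
  obtain ⟨W, hW⟩ := exists_isDiscMinimal E
  exact (isHasseFun E.isUnit_Δ.ne_zero hW).lseries_ne_zero hs

variable {E}

/-- **The coefficients at the primes of good reduction**: `E.LFunction p = p + 1 - #W(𝔽_p)` for
every equation `W` of `E` over `ℤ` and every prime `p` not dividing its discriminant. -/
theorem LFunction_eq_apOfModel {W : WeierstrassCurve ℤ} (h : W.IsIntegralModelOf E) {p : ℕ}
    (hp : p.Prime) (hd : ¬ (p : ℤ) ∣ W.Δ) : E.LFunction p = W.apOfModel p := by
  have hE : E.Δ ≠ 0 := E.isUnit_Δ.ne_zero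
  obtain ⟨W₀, hW₀⟩ := exists_isDiscMinimal E
  have hF := isHasseFun hE hW₀
  rw [hF.apply_prime hp]
  obtain ⟨v, rfl⟩ := exists_pr hp
  have h1 := localPolynomial_eq_aE hE hW₀ v
  have h2 := localPolynomial_map_eq (R := v.adicCompletionIntegers ℚ) hE h
    (algebraMap ℚ (v.adicCompletion ℚ))
  rw [(padicIso v).localPolynomial_ov_good hd] at h2
  have h3 := h1.symm.trans h2
  have h4 := congrArg (fun P : Polynomial ℤ => P.coeff 1) h3
  simpa [Polynomial.coeff_X, Polynomial.coeff_one] using h4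

/-- **Modularity in terms of Mathlib's `L`-function**: `E` is modular if and only if there is a
normalised eigenform of weight two whose coefficients at almost all primes are those of
`E.LFunction`. -/
theorem isModular_iff : E.IsModular ↔ ∃ N : ℕ, 0 < N ∧ ∃ f : CuspForm (Gamma0 N) 2,
    f.IsNormalizedEigenform ∧ ∃ S : Finset ℕ, ∀ p : ℕ, p.Prime → p ∉ S →
      qCoeff f p = (E.LFunction p : ℂ) := by
  have hE : E.Δ ≠ 0 := E.isUnit_Δ.ne_zero
  constructor
  · rintro ⟨W, h, N, hN, f, hf, ha⟩
    refine ⟨N, hN, f, hf, W.Δ.natAbs.primeFactors ∪ N.primeFactors, fun p hp hpS => ?_⟩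
    rw [Finset.mem_union, not_or] at hpS
    have h1 : ¬ (p : ℤ) ∣ W.Δ := fun h' => hpS.1 (Nat.mem_primeFactors.mpr
      ⟨hp, Int.natCast_dvd.mp h', Int.natAbs_ne_zero.mpr (Δ_ne_zero_of_model hE h)⟩)
    have h2 : ¬ p ∣ N := fun h' => hpS.2 (Nat.mem_primeFactors.mpr ⟨hp, h', hN.ne'⟩)
    rw [ha p hp h1 h2, LFunction_eq_apOfModel h hp h1]
  · rintro ⟨N, hN, f, hf, S, ha⟩
    obtain ⟨W, h⟩ := exists_integralModel E
    set M : ℕ := N * ∏ p ∈ S.filter Nat.Prime, p with hM
    have hP0 : (∏ p ∈ S.filter Nat.Prime, p) ≠ 0 := Finset.prod_ne_zero_iff.mpr fun p hp =>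
      (Finset.mem_filter.mp hp).2.ne_zero
    have hM0 : M ≠ 0 := mul_ne_zero hN.ne' hP0
    have : NeZero M := ⟨hM0⟩
    obtain ⟨g, hg, hgf⟩ := Oldforms.exists_eigenform_raise (N := M) (dvd_mul_right N _) f hf
    refine ⟨W, h, M, Nat.pos_of_ne_zero hM0, g, hg, fun p hp hgood hpM => ?_⟩
    have hpS : p ∉ S := fun h' => hpM ((Finset.dvd_prod_of_mem (fun p => p)
      (Finset.mem_filter.mpr ⟨h', hp⟩)).trans (dvd_mul_left _ N))
    rw [hgf p hp fun h' => absurd h' hpM, ha p hp hpS, LFunction_eq_apOfModel h hp hgood]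

end Curve

end Fermat.Agent.Cor.KM
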