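import Mathlib.NumberTheory.LegendreSymbol.JacobiSymbol
import Mathlib.NumberTheory.DirichletCharacter.Basic

/-!
# The Jacobi symbol as a primitive Dirichlet character
-/

set_option autoImplicit false

noncomputable section

open scoped NumberTheorySymbols

namespace Fermat.Agent.Cor.KM

variable (m : ℕ) [NeZero m]

/-- The Dirichlet character `a ↦ (a / m)` modulo `m`. -/
def jchar : DirichletCharacter ℂ m where
  toFun a := ((jacobiSym (a.val : ℤ) m : ℤ) : ℂ)
  map_one' := by
    rw [ZMod.val_one_eq_one_mod, Int.natCast_mod, ← jacobiSym.mod_left, Nat.cast_one,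
      jacobiSym.one_left, Int.cast_one]
  map_mul' a b := by
    rw [ZMod.val_mul, Int.natCast_mod, ← jacobiSym.mod_left, Nat.cast_mul, jacobiSym.mul_left,
      Int.cast_mul]
  map_nonunit' a ha := by
    have h : jacobiSym (a.val : ℤ) m = 0 := by
      rw [jacobiSym.eq_zero_iff_not_coprime, Int.gcd_natCast_natCast]
      intro h1
      apply ha
      rw [← ZMod.natCast_zmod_val a]
      exact (ZMod.isUnit_iff_coprime _ _).mpr h1
    rw [h, Int.cast_zero]

theorem jchar_intCast (z : ℤ) : jchar m (z : ZMod m) = ((jacobiSym z m : ℤ) : ℂ) := by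
  change ((jacobiSym (((z : ZMod m).val : ℕ) : ℤ) m : ℤ) : ℂ) = _
  rw [ZMod.val_intCast, ← jacobiSym.mod_left]

theorem jchar_natCast (n : ℕ) : jchar m (n : ZMod m) = ((jacobiSym n m : ℤ) : ℂ) := by
  have h := jchar_intCast m n
  rwa [Int.cast_natCast] at h

theorem jchar_isQuadratic : MulChar.IsQuadratic (jchar m) := by
  intro a
  obtain ⟨z, rfl⟩ := ZMod.intCast_surjective a
  rw [jchar_intCast]
  rcases jacobiSym.trichotomy z m with h | h | h <;> rw [h]
  · left
    norm_num
  · right
    left
    norm_num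
  · right
    right
    norm_num

/-- For `m` odd and squarefree the character is primitive. -/
theorem jchar_isPrimitive (hodd : Odd m) (hsq : Squarefree m) : (jchar m).IsPrimitive := by
  rw [DirichletCharacter.isPrimitive_def]
  by_contra hne
  have hm0 : m ≠ 0 := NeZero.ne m
  have hfm : (jchar m).conductor ∣ m := (jchar m).conductor_dvd_level
  have hfac : (jchar m).FactorsThrough (jchar m).conductor := (jchar m).factorsThrough_conductor
  rw [DirichletCharacter.factorsThrough_iff_ker_unitsMap hfm] at hfac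
  obtain ⟨g, hg⟩ := hfm
  have hg1 : g ≠ 1 := by
    rintro rfl
    rw [mul_one] at hg
    exact hne hg.symm
  obtain ⟨p, hp, hpg⟩ := Nat.exists_prime_and_dvd hg1
  have hpF : Fact p.Prime := ⟨hp⟩
  obtain ⟨r, hr⟩ := hpg
  obtain ⟨n, hn⟩ : ∃ n, n = (jchar m).conductor * r := ⟨_, rfl⟩
  have hm : m = p * n := by
    rw [hg, hr, hn]
    ring
  have hn0 : n ≠ 0 := by
    rintro rfl
    rw [mul_zero] at hm
    exact hm0 hm
  have : NeZero n := ⟨hn0⟩
  have hp2 : p ≠ 2 := by
    rintro rfl
    rw [Nat.odd_iff] at hodd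
    omega
  have hcop : p.Coprime n := by
    rw [hm] at hsq
    exact (Nat.squarefree_mul_iff.mp hsq).1
  obtain ⟨a, ha⟩ := FiniteField.exists_nonsquare (F := ZMod p) (by
    rw [ZMod.ringChar_zmod_n]
    exact hp2)
  obtain ⟨z, hz1, hz2⟩ := Nat.chineseRemainder hcop a.val 1
  have hzp : ((z : ℤ) : ZMod p) = a := by
    rw [Int.cast_natCast, ← ZMod.natCast_zmod_val a]
    exact (ZMod.natCast_eq_natCast_iff _ _ _).mpr hz1
  have h1 : jacobiSym z p = -1 := by
    rw [← jacobiSym.legendreSym.to_jacobiSym, legendreSym.eq_neg_one_iff, hzp]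
    exact ha
  have h2 : jacobiSym z n = 1 := by
    have h3 : (z : ℤ) % n = 1 % n := by
      have h4 := Int.natCast_modEq_iff.mpr hz2
      rw [Nat.cast_one] at h4
      exact h4
    rw [jacobiSym.mod_left, h3, ← jacobiSym.mod_left, jacobiSym.one_left]
  have h3 : jchar m (z : ZMod m) = -1 := by
    have h4 : jacobiSym z m = -1 := by
      have h5 : jacobiSym z (p * n) = -1 := by
        rw [jacobiSym.mul_right, h1, h2, mul_one]
      rwa [← hm] at h5
    rw [jchar_natCast, h4]
    norm_num
  have hu : IsUnit (z : ZMod m) := by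
    by_contra h4
    rw [MulChar.map_nonunit _ h4] at h3
    norm_num at h3
  obtain ⟨u, hu⟩ := hu
  have h4 : u ∈ (ZMod.unitsMap ((jchar m).conductor_dvd_level)).ker := by
    rw [MonoidHom.mem_ker]
    apply Units.ext
    rw [ZMod.unitsMap_def, Units.coe_map, hu]
    change ZMod.castHom (jchar m).conductor_dvd_level (ZMod (jchar m).conductor) (z : ZMod m) = 1
    rw [map_natCast]
    have h5 : z ≡ 1 [MOD (jchar m).conductor] := hz2.of_dvd ⟨r, hn⟩
    have h6 := (ZMod.natCast_eq_natCast_iff _ _ _).mpr h5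
    rwa [Nat.cast_one] at h6
  have h5 := hfac h4
  rw [MonoidHom.mem_ker] at h5
  have h6 := congrArg (Units.val) h5
  rw [MulChar.coe_toUnitHom, hu, h3] at h6
  norm_num at h6

end Fermat.Agent.Cor.KM
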