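import Fermat.Agent.Corollaries.Mathlib.TwistL
import Fermat.Agent.Corollaries.Mathlib.JacChar
import Fermat.Agent.Corollaries.HW.TwistFE

/-!
# The functional equation of the quadratic twists of a semistable elliptic curve

Let `W` be a semistable equation over `ℤ` of the elliptic curve `E` of conductor `N`, and `d ≡ 1`
modulo `4` squarefree. Mathlib's `L`-series of the twist `E^d` continues to an entire function; if
`d` is prime to `N` the completed function `(N d²)^(s/2) (2π)^(-s) Γ(s) L(E^d, s)` is entire and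
satisfies the functional equation with the sign `w(E) (-N / |d|)`.
-/

set_option autoImplicit false

noncomputable section

open WeierstrassCurve Complex

namespace Fermat.Agent.Cor.KM

open HW (ap rootNumber)
open HW.Twist (IsTwist eulerPolyTw)
open Twist (quadTwist)
open Fermat.Agent.ECRed (IsMultAt)

variable {W : WeierstrassCurve ℤ} {d : ℤ}

theorem roots_semistable (hΔ : W.Δ ≠ 0) (p : ℕ) (hp : p.Prime) :
    ∃ α β : ℂ, ‖α‖ ≤ √p ∧ ‖β‖ ≤ √p ∧ α + β = aE W p ∧ α * β = bE W p := by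
  by_cases hd : (p : ℤ) ∣ W.Δ
  · have h1 : ‖(aE W p : ℂ)‖ ≤ 1 := by
      rw [Complex.norm_intCast]
      exact_mod_cast abs_aE_le hΔ hp hd
    have h2 : (1 : ℝ) ≤ √p := by
      rw [Real.one_le_sqrt]
      exact_mod_cast hp.one_lt.le
    exact ⟨aE W p, 0, h1.trans h2, by rw [norm_zero]; exact Real.sqrt_nonneg _,
      add_zero _, by rw [mul_zero, bE, if_pos hd, Int.cast_zero]⟩
  · have h1 : ((W.apOfModel p : ℤ) : ℝ) ^ 2 ≤ 4 * (p : ℝ) := by
      exact_mod_cast HW.apOfModel_sq_le hp hd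
    obtain ⟨α, β, hα, hβ, h2, h3⟩ := HW.exists_roots h1
    refine ⟨α, β, hα, hβ, ?_, ?_⟩
    · rw [h2, aE, if_neg fun h => hd h.1, ap, if_neg hd]
      push_cast
      rfl
    · rw [h3, bE, if_neg hd]
      push_cast
      rfl

theorem norm_jacobi_le (z : ℤ) (m : ℕ) : ‖((jacobiSym z m : ℤ) : ℂ)‖ ≤ 1 := by
  rcases jacobiSym.trichotomy z m with h | h | h <;> rw [h] <;> norm_num

/-- The `L`-function of the twist. -/
theorem isHasseFun_quadTwist (hΔ : W.Δ ≠ 0) (hW : W.IsSemistableModel) (hd4 : d % 4 = 1)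
    (hsq : Squarefree d) :
    IsHasseFun (quadTwist (W.map (Int.castRingHom ℚ)) (d : ℚ)).LFunction
      (fun p => jacobiSym p d.natAbs * aE W p) (fun p => jacobiSym p d.natAbs ^ 2 * bE W p) := by
  obtain ⟨h1, h2⟩ := values_of_eulerProduct (a := fun p => jacobiSym p d.natAbs * aE W p)
    (b := fun p => jacobiSym p d.natAbs ^ 2 * bE W p) (LFunction_quadTwist_euler hΔ hW hd4 hsq)
  refine ⟨h1, h2, fun p hp => ?_⟩
  obtain ⟨α, β, hα, hβ, h3, h4⟩ := roots_semistable hΔ p hp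
  have hj := norm_jacobi_le p d.natAbs
  refine ⟨(jacobiSym p d.natAbs : ℂ) * α, (jacobiSym p d.natAbs : ℂ) * β, ?_, ?_, ?_, ?_⟩
  · rw [norm_mul]
    exact (mul_le_of_le_one_left (norm_nonneg _) hj).trans hα
  · rw [norm_mul]
    exact (mul_le_of_le_one_left (norm_nonneg _) hj).trans hβ
  · rw [← mul_add, h3]
    push_cast
    rfl
  · rw [show (jacobiSym p d.natAbs : ℂ) * α * ((jacobiSym p d.natAbs : ℂ) * β) =
      (jacobiSym p d.natAbs : ℂ) ^ 2 * (α * β) by ring, h4]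
    push_cast
    rfl

theorem eulerPolyTw_eq (hW : W.IsSemistableModel) [NeZero d.natAbs] {p : ℕ} (hp : p.Prime)
    (s : ℂ) : eulerPolyTw W (jchar d.natAbs) p s =
      1 - ((jacobiSym p d.natAbs * aE W p : ℤ) : ℂ) * (p : ℂ) ^ (-s) +
        ((jacobiSym p d.natAbs ^ 2 * bE W p : ℤ) : ℂ) * (p : ℂ) ^ (-(2 * s)) := by
  have hp0 : (p : ℂ) ≠ 0 := by exact_mod_cast hp.ne_zero
  have ha : aE W p = ap W p := by
    rw [aE]
    exact if_neg fun h => hW p hp h.1 h.2
  rw [eulerPolyTw, jchar_natCast, ha, bE]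
  by_cases hd : (p : ℤ) ∣ W.Δ
  · rw [if_pos hd, if_pos hd]
    push_cast
    ring
  · rw [if_neg hd, if_neg hd, sub_eq_add_neg 1 (2 * s), cpow_add _ _ hp0, cpow_one]
    push_cast
    ring

/-- For `re s > 3/2` Mathlib's `L`-series of `E^d` is the `L`-function of `W` twisted by the
character `(· / |d|)`. -/
theorem LSeries_eq_of_isTwist (hΔ : W.Δ ≠ 0) (hW : W.IsSemistableModel) (hd4 : d % 4 = 1)
    (hsq : Squarefree d) [NeZero d.natAbs] {L : ℂ → ℂ} (hL : IsTwist W (jchar d.natAbs) L) {s : ℂ}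
    (hs : 3 / 2 < s.re) : (quadTwist (W.map (Int.castRingHom ℚ)) (d : ℚ)).LSeries s = L s := by
  have h1 := (isHasseFun_quadTwist hΔ hW hd4 hsq).hasProd hs
  have h2 := hL.2 s hs
  have h3 : (fun p : Nat.Primes => (eulerPolyTw W (jchar d.natAbs) p s)⁻¹) =
      fun p : Nat.Primes => (1 - ((jacobiSym (p : ℕ) d.natAbs * aE W p : ℤ) : ℂ) *
        ((p : ℕ) : ℂ) ^ (-s) + ((jacobiSym (p : ℕ) d.natAbs ^ 2 * bE W p : ℤ) : ℂ) *
          ((p : ℕ) : ℂ) ^ (-(2 * s)))⁻¹ :=
    funext fun p => congrArg (·⁻¹) (eulerPolyTw_eq hW p.2 s)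
  rw [h3] at h2
  exact h1.unique h2

/-- **The `L`-series of a quadratic twist is entire.** -/
theorem exists_entire_quadTwist (hΔ : W.Δ ≠ 0) (hW : W.IsSemistableModel) (hd4 : d % 4 = 1)
    (hsq : Squarefree d) : ∃ L : ℂ → ℂ, Differentiable ℂ L ∧ ∀ s : ℂ, 3 / 2 < s.re →
      (quadTwist (W.map (Int.castRingHom ℚ)) (d : ℚ)).LSeries s = L s := by
  have : NeZero d.natAbs := ⟨Int.natAbs_ne_zero.mpr hsq.ne_zero⟩
  obtain ⟨L, hL, -⟩ := HW.Twist.exists_isTwist hΔ hW (jchar d.natAbs)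
  exact ⟨L, hL.1, fun s hs => LSeries_eq_of_isTwist hΔ hW hd4 hsq hL hs⟩

/-- **The functional equation of the quadratic twists.** Let `W` be a semistable equation over `ℤ`
of the elliptic curve `E`, `N` its conductor, `w` its root number, and `d ≡ 1` modulo `4`
squarefree and prime to `N`.  Mathlib's `L`-series of `E^d` continues to an entire function `L`;
the function `Λ(s) = (N d²)^(s/2) (2π)^(-s) Γ(s) L(s)` is entire, and
`Λ(2 - s) = w (-N / |d|) Λ(s)`. -/
theorem functional_equation_quadTwist (hΔ : W.Δ ≠ 0) (hW : W.IsSemistableModel)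
    (hd4 : d % 4 = 1) (hsq : Squarefree d) (hN : W.conductorLevel.Coprime d.natAbs) :
    ∃ L Λ : ℂ → ℂ, Differentiable ℂ L ∧ Differentiable ℂ Λ ∧
      (∀ s : ℂ, 3 / 2 < s.re →
        (quadTwist (W.map (Int.castRingHom ℚ)) (d : ℚ)).LSeries s = L s) ∧
      (∀ s : ℂ, 0 < s.re → Λ s = ((W.conductorLevel * d.natAbs ^ 2 : ℕ) : ℂ) ^ (s / 2) *
        ((2 * (Real.pi : ℂ)) ^ (-s) * Gamma s * L s)) ∧
      ∀ s : ℂ, Λ (2 - s) =
        (rootNumber W : ℂ) * ((jacobiSym (-(W.conductorLevel : ℤ)) d.natAbs : ℤ) : ℂ) * Λ s := by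
  have : NeZero d.natAbs := ⟨Int.natAbs_ne_zero.mpr hsq.ne_zero⟩
  obtain ⟨L, hL, -⟩ := HW.Twist.exists_isTwist hΔ hW (jchar d.natAbs)
  have hodd : Odd d.natAbs := Nat.odd_iff.mpr (by omega)
  have hsq' : Squarefree d.natAbs := Int.squarefree_natAbs.mpr hsq
  obtain ⟨Λ, h1, h2, h3⟩ := HW.Twist.quad_functional_equation hΔ hW hN
    (jchar_isPrimitive d.natAbs hodd hsq') (jchar_isQuadratic d.natAbs) hL
  refine ⟨L, Λ, hL.1, h1, fun s hs => LSeries_eq_of_isTwist hΔ hW hd4 hsq hL hs, h2, fun s => ?_⟩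
  rw [h3, ← jchar_intCast]
  push_cast
  rfl

/-- **Parity**: the order of vanishing at `s = 1` of the continuation of the `L`-series of `E^d`
is even if and only if `w (-N / |d|) = 1`. -/
theorem parity_quadTwist (hΔ : W.Δ ≠ 0) (hW : W.IsSemistableModel)
    (hd4 : d % 4 = 1) (hsq : Squarefree d) (hN : W.conductorLevel.Coprime d.natAbs)
    {L : ℂ → ℂ} (hL : Differentiable ℂ L) (h : ∀ s : ℂ, 3 / 2 < s.re →
      (quadTwist (W.map (Int.castRingHom ℚ)) (d : ℚ)).LSeries s = L s) :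
    rootNumber W * jacobiSym (-(W.conductorLevel : ℤ)) d.natAbs =
      (-1) ^ analyticOrderNatAt L 1 := by
  have : NeZero d.natAbs := ⟨Int.natAbs_ne_zero.mpr hsq.ne_zero⟩
  obtain ⟨L', hL', -⟩ := HW.Twist.exists_isTwist hΔ hW (jchar d.natAbs)
  have hodd : Odd d.natAbs := Nat.odd_iff.mpr (by omega)
  have hsq' : Squarefree d.natAbs := Int.squarefree_natAbs.mpr hsq
  have h1 : L = L' := by
    have a₁ : AnalyticOnNhd ℂ L Set.univ := fun z _ => hL.analyticAt z
    have a₂ : AnalyticOnNhd ℂ L' Set.univ := fun z _ => hL'.1.analyticAt z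
    refine a₁.eq_of_eventuallyEq a₂ (z₀ := 3) ?_
    have hopen : {s : ℂ | 3 / 2 < s.re} ∈ nhds (3 : ℂ) :=
      (isOpen_lt continuous_const Complex.continuous_re).mem_nhds (by norm_num)
    filter_upwards [hopen] with z hz
    rw [← h z hz, LSeries_eq_of_isTwist hΔ hW hd4 hsq hL' hz]
  subst h1
  have h2 := HW.Twist.quad_parity hΔ hW hN (jchar_isPrimitive d.natAbs hodd hsq')
    (jchar_isQuadratic d.natAbs) hL'
  have h3 : jchar d.natAbs (-(W.conductorLevel : ZMod d.natAbs)) =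
      ((jacobiSym (-(W.conductorLevel : ℤ)) d.natAbs : ℤ) : ℂ) := by
    rw [← jchar_intCast]
    push_cast
    rfl
  rw [h3] at h2
  exact_mod_cast h2

end Fermat.Agent.Cor.KM
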