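import Fermat.Agent.Corollaries.Mathlib.Model
import Fermat.Agent.Corollaries.Mathlib.TwistFE
import Fermat.Agent.Corollaries.BSD.Full
import Fermat.Agent.Corollaries.BSD.RankOne

/-!
# The rank part of the conjecture of Birch and Swinnerton-Dyer in Mathlib's terms

The results of the block BSD for Mathlib's `L`-series of a curve over `ℚ`.
-/

set_option autoImplicit false

noncomputable section

open WeierstrassCurve CongruenceSubgroup ModularFormClass Complex

namespace Fermat.Agent.Cor.KM

open MinModel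
open HW (ap rootNumber IsHasseWeil)

/-- `L` is an entire continuation of Mathlib's `L`-series of `E`. -/
structure IsEntireL (E : WeierstrassCurve ℚ) (L : ℂ → ℂ) : Prop where
  differentiable : Differentiable ℂ L
  eq : ∀ s : ℂ, 3 / 2 < s.re → E.LSeries s = L s

theorem IsEntireL.unique {E : WeierstrassCurve ℚ} {L L' : ℂ → ℂ} (h : IsEntireL E L)
    (h' : IsEntireL E L') : L = L' := by
  have a₁ : AnalyticOnNhd ℂ L Set.univ := fun z _ => h.differentiable.analyticAt z
  have a₂ : AnalyticOnNhd ℂ L' Set.univ := fun z _ => h'.differentiable.analyticAt z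
  refine a₁.eq_of_eventuallyEq a₂ (z₀ := 3) ?_
  have hopen : {s : ℂ | 3 / 2 < s.re} ∈ nhds (3 : ℂ) :=
    (isOpen_lt continuous_const Complex.continuous_re).mem_nhds (by norm_num)
  filter_upwards [hopen] with z hz
  rw [← h.eq z hz, h'.eq z hz]

section Model

variable {W : WeierstrassCurve ℤ} {E : WeierstrassCurve ℚ}

theorem aE_eq_ap (hW : W.IsSemistableModel) {p : ℕ} (hp : p.Prime) : aE W p = ap W p :=
  if_neg fun h => hW p hp h.1 h.2

/-- The coefficients for an arbitrary semistable equation. -/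
theorem LFunction_map_eq_qCoeff (hΔ : W.Δ ≠ 0) (hW : W.IsSemistableModel)
    {f : CuspForm (Gamma0 W.conductorLevel) 2} (hf : f.IsNormalizedEigenform)
    (ha : ∀ p : ℕ, p.Prime → qCoeff f p = (ap W p : ℂ)) (n : ℕ) :
    ((W.map (Int.castRingHom ℚ)).LFunction n : ℂ) = qCoeff f n := by
  obtain ⟨hm, hv⟩ := values_of_eulerProduct (a := aE W) (b := bE W)
    (LFunction_semistable_euler hΔ hW)
  refine eq_qCoeff hf hm ha (fun p hp k => ?_) n
  rw [hv p hp k, aE_eq_ap hW hp, bE]
  have h1 := W.prime_dvd_conductorLevel_iff hΔ hp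
  by_cases hd : p ∣ W.conductorLevel
  · rw [if_pos hd, if_pos (h1.mp hd)]
  · rw [if_neg hd, if_neg fun h2 => hd (h1.mpr h2)]

/-- The Hasse-Weil `L`-function of a semistable equation of `E` is the continuation of Mathlib's
`L`-series of `E`. -/
theorem isEntireL_of_isHasseWeil (hE : E.Δ ≠ 0) (h : W.IsIntegralModelOf E)
    (hW : W.IsSemistableModel) {L : ℂ → ℂ} (hL : IsHasseWeil W L) : IsEntireL E L := by
  have hΔ := Δ_ne_zero_of_model hE h
  obtain ⟨C, hC⟩ := h
  have e : (W.map (Int.castRingHom ℚ)).LFunction = E.LFunction := by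
    rw [← hC, LFunction_smul hE]
  obtain ⟨f, ⟨hf, ha⟩, -⟩ := HW.existsUnique_newform_ap hΔ hW
  refine ⟨hL.1, fun s hs => ?_⟩
  have hcoe : (fun n => (E.LFunction n : ℂ)) = qCoeff f := by
    rw [← e]
    exact funext fun n => LFunction_map_eq_qCoeff hΔ hW hf.1 ha n
  have h1 : E.LSeries s = LSeries (qCoeff f) s := by
    rw [← hcoe]
    rfl
  rw [h1, hL.unique (HW.isHasseWeil hΔ hf ha)]
  exact HW.lseries_eq_of_hasse hf.1 (HW.isHasse hΔ hf ha) hs

end Model

/-- **The rank part of the conjecture of Birch and Swinnerton-Dyer for all semistable elliptic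
curves over `ℚ` of conductor at most `21`**, for Mathlib's `L`-series: the group of rational points
is finite, the series has exactly one entire continuation `L`, `L(1) ≠ 0`, and the order of
vanishing of `L` at `1` is the rank. -/
theorem bsd_of_isConductor (E : WeierstrassCurve ℚ) [E.IsElliptic] (h : Semistable E) {N : ℕ}
    (hN : IsConductor E N) (h21 : N ≤ 21) :
    Finite E.toAffine.Point ∧ ∃ L : ℂ → ℂ, IsEntireL E L ∧ (∀ L' : ℂ → ℂ, IsEntireL E L' → L' = L) ∧
      L 1 ≠ 0 ∧ analyticOrderNatAt L 1 = Module.finrank ℤ E.toAffine.Point := by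
  have hE : E.Δ ≠ 0 := E.isUnit_Δ.ne_zero
  obtain ⟨W, hW⟩ := exists_isDiscMinimal E
  have hs := isSemistableModel hE hW h
  have hΔ := Δ_ne_zero_of_model hE hW.1
  obtain rfl := hN.eq (isConductor_conductorLevel hE hW)
  obtain ⟨hfin, L, hL, -, h1, h2⟩ := BSD.bsd_all_rat hW.1 hΔ hs h21
  have hL' := isEntireL_of_isHasseWeil hE hW.1 hs hL
  exact ⟨hfin, L, hL', fun L' h' => h'.unique hL', h1, h2⟩

/-- A semistable elliptic curve over `ℚ` with infinitely many rational points has conductor
greater than `21`. -/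
theorem lt_of_infinite (E : WeierstrassCurve ℚ) [E.IsElliptic] (h : Semistable E) {N : ℕ}
    (hN : IsConductor E N) (hinf : Infinite E.toAffine.Point) : 21 < N := by
  by_contra h1
  have h2 := (bsd_of_isConductor E h hN (not_lt.mp h1)).1
  exact not_finite E.toAffine.Point

/-- **The order of vanishing at `s = 1` for all semistable elliptic curves over `ℚ` of conductor at
most `50`**: it is `0` if the number of primes of split multiplicative reduction is odd, and `1` if
it is even. -/
theorem analyticOrder_of_isConductor (E : WeierstrassCurve ℚ) [E.IsElliptic] (h : Semistable E)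
    {N : ℕ} (hN : IsConductor E N) (h50 : N ≤ 50) {L : ℂ → ℂ} (hL : IsEntireL E L) :
    analyticOrderNatAt L 1 = if Odd {p : ℕ | ∃ _ : Fact p.Prime,
      (minAt E p).HasSplitMultiplicativeReduction ℤ_[p]}.ncard then 0 else 1 := by
  have hE : E.Δ ≠ 0 := E.isUnit_Δ.ne_zero
  obtain ⟨L', -, w, hL', -, hs', -, -, hw, hiff⟩ := hasseWeil E h hN
  have e1 : L = L' := hL.unique ⟨hL', fun s hs => (hs' s hs).2.1⟩
  rw [← e1] at hw
  obtain ⟨W, hW⟩ := exists_isDiscMinimal E
  have hs := isSemistableModel hE hW h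
  have hΔ := Δ_ne_zero_of_model hE hW.1
  obtain rfl := hN.eq (isConductor_conductorLevel hE hW)
  obtain ⟨L₀, hL₀, -⟩ := HW.existsUnique_isHasseWeil hΔ hs
  have e2 : L = L₀ := hL.unique (isEntireL_of_isHasseWeil hE hW.1 hs hL₀)
  have h3 := HW.analyticOrderNatAt_eq hΔ hs hL₀ h50
  rw [← e2] at h3
  split_ifs with hodd
  · rw [hiff.mpr hodd] at hw
    split_ifs at h3 with h4
    · exact h3
    · rw [h3] at hw
      norm_num at hw
  · split_ifs at h3 with h4
    · rw [h3, pow_zero] at hw
      exact absurd (hiff.mp hw) hodd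
    · exact h3

/-- **A curve of rank one**: for `E : y² + x y = x³ - x` (conductor `65`) Mathlib's `L`-series has
exactly one entire continuation `L`; it has a simple zero at `s = 1`, and the group of rational
points has rank one. -/
theorem bsd_E65 : ∃ L : ℂ → ℂ, IsEntireL BSD.One.E65 L ∧
    (∀ L' : ℂ → ℂ, IsEntireL BSD.One.E65 L' → L' = L) ∧ analyticOrderNatAt L 1 = 1 ∧
      Module.finrank ℤ BSD.One.E65.toAffine.Point = 1 := by
  obtain ⟨L, hL, -, h1, h2⟩ := BSD.One.bsd65
  have hE : BSD.One.E65.Δ ≠ 0 := by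
    rw [map_Δ, eq_intCast]
    exact Int.cast_ne_zero.mpr BSD.One.Δ_W65_ne
  have hL' := isEntireL_of_isHasseWeil hE (isIntegralModelOf_map _) BSD.One.isSemistable65 hL
  exact ⟨L, hL', fun L' h' => h'.unique hL', h1, h2.symm.trans h1⟩

end Fermat.Agent.Cor.KM
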