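import Fermat.Agent.Corollaries.Mathlib.BSDSmall
import Fermat.Agent.Corollaries.BSD.Rank37
import Fermat.Agent.Corollaries.BSD.Rank43

/-!
# The rank part of the conjecture of Birch and Swinnerton-Dyer for `37a` and `43a`

In Mathlib's words: for `E : y² + y = x³ - x` (conductor `37`) and `E : y² + y = x³ + x²`
(conductor `43`) Mathlib's `L`-series has an entire continuation, with a simple zero at `s = 1`, and
the rank of `E(ℚ)` is one.
-/

set_option autoImplicit false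

noncomputable section

open WeierstrassCurve Complex

namespace Fermat.Agent.Cor.KM

open MinModel

/-- The continuation of Mathlib's `L`-series of a semistable equation over `ℤ`. -/
theorem exists_continuation_of_model {W : WeierstrassCurve ℤ} (hΔ : W.Δ ≠ 0)
    (hW : W.IsSemistableModel) : ∃ L : ℂ → ℂ, Differentiable ℂ L ∧ HW.IsHasseWeil W L ∧
      ∀ s : ℂ, 3 / 2 < s.re → (W.map (Int.castRingHom ℚ)).LSeries s = L s := by
  have := isElliptic_map hΔ
  have hs := semistable_of_model hΔ hW (isIntegralModelOf_map W)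
  obtain ⟨L, Λ, w, hL, -, hsum, -⟩ := hasseWeil (W.map (Int.castRingHom ℚ)) hs
    (isConductor_of_model hΔ hW (isIntegralModelOf_map W))
  have h : ∀ s : ℂ, 3 / 2 < s.re → (W.map (Int.castRingHom ℚ)).LSeries s = L s :=
    fun s hs => (hsum s hs).2.1
  exact ⟨L, hL, isHasseWeil_of_LSeries hΔ hW hL h, h⟩

theorem map_E37 : HW.E37.map (Int.castRingHom ℚ) = ⟨0, 0, 1, -1, 0⟩ := by
  ext <;> simp [HW.E37]

theorem map_E43 : HW.E43.map (Int.castRingHom ℚ) = ⟨0, 1, 1, 0, 0⟩ := by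
  ext <;> simp [HW.E43]

/-- **Birch and Swinnerton-Dyer (rank part) for `y² + y = x³ - x`.** -/
theorem bsd_37a : ∃ L : ℂ → ℂ, Differentiable ℂ L ∧
    (∀ s : ℂ, 3 / 2 < s.re → (⟨0, 0, 1, -1, 0⟩ : WeierstrassCurve ℚ).LSeries s = L s) ∧
    analyticOrderNatAt L 1 = 1 ∧
    Module.finrank ℤ (⟨0, 0, 1, -1, 0⟩ : WeierstrassCurve ℚ).toAffine.Point = 1 := by
  rw [← map_E37]
  obtain ⟨L, hL, hHW, h⟩ := exists_continuation_of_model (by decide) BSD.R37.semistable37
  exact ⟨L, hL, h, HW.order_37a hHW, BSD.R37.finrank_E37⟩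

/-- **Birch and Swinnerton-Dyer (rank part) for `y² + y = x³ + x²`.** -/
theorem bsd_43a : ∃ L : ℂ → ℂ, Differentiable ℂ L ∧
    (∀ s : ℂ, 3 / 2 < s.re → (⟨0, 1, 1, 0, 0⟩ : WeierstrassCurve ℚ).LSeries s = L s) ∧
    analyticOrderNatAt L 1 = 1 ∧
    Module.finrank ℤ (⟨0, 1, 1, 0, 0⟩ : WeierstrassCurve ℚ).toAffine.Point = 1 := by
  rw [← map_E43]
  obtain ⟨L, hL, hHW, h⟩ := exists_continuation_of_model (by decide) BSD.R43.semistable43
  exact ⟨L, hL, h, HW.order_43a hHW, BSD.R43.finrank_E43⟩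

end Fermat.Agent.Cor.KM

end
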