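import Fermat.Agent.Corollaries.Mathlib.Zeros
import Fermat.Agent.Corollaries.Mathlib.TwistFE
import Fermat.Agent.Corollaries.BSD.Full

/-!
# The rank part of the conjecture of Birch and Swinnerton-Dyer in Mathlib's words

For every semistable elliptic curve `E` over `ℚ` of conductor at most `21`: the entire continuation
`L` of Mathlib's `L`-series of `E` does not vanish at `s = 1`, the group `E(ℚ)` is finite, and the
order of vanishing at `s = 1` is the rank.
-/

set_option autoImplicit false

noncomputable section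

open WeierstrassCurve Complex

namespace Fermat.Agent.Cor.KM

open MinModel

variable {E : WeierstrassCurve ℚ} [E.IsElliptic] {L : ℂ → ℂ}

/-- **The rank part of the conjecture of Birch and Swinnerton-Dyer for the semistable elliptic curves
over `ℚ` of conductor at most `21`.** -/
theorem bsd_of_conductor_le (hE : Semistable E) {N : ℕ} (hN : IsConductor E N) (h21 : N ≤ 21)
    (hL : Differentiable ℂ L) (h : ∀ s : ℂ, 3 / 2 < s.re → E.LSeries s = L s) :
    Finite E.toAffine.Point ∧ L 1 ≠ 0 ∧
      analyticOrderNatAt L 1 = Module.finrank ℤ E.toAffine.Point := by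
  obtain ⟨W, hΔ, hW, hm, hHW⟩ := exists_isHasseWeil_of_eq hE hL h
  obtain rfl := hN.eq (isConductor_of_model hΔ hW hm.1)
  obtain ⟨h1, L', hL', hu, h2, h3⟩ := BSD.bsd_all_rat hm.1 hΔ hW h21
  rw [hu L hHW]
  exact ⟨h1, h2, h3⟩

/-- The continuation exists, so there is a statement without a choice of it. -/
theorem exists_bsd_of_conductor_le (hE : Semistable E) {N : ℕ} (hN : IsConductor E N)
    (h21 : N ≤ 21) : Finite E.toAffine.Point ∧ ∃ L : ℂ → ℂ, Differentiable ℂ L ∧
      (∀ s : ℂ, 3 / 2 < s.re → E.LSeries s = L s) ∧ L 1 ≠ 0 ∧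
      analyticOrderNatAt L 1 = Module.finrank ℤ E.toAffine.Point := by
  obtain ⟨L, Λ, w, hL, -, hsum, -⟩ := hasseWeil E hE hN
  have h : ∀ s : ℂ, 3 / 2 < s.re → E.LSeries s = L s := fun s hs => (hsum s hs).2.1
  obtain ⟨h1, h2, h3⟩ := bsd_of_conductor_le hE hN h21 hL h
  exact ⟨h1, L, hL, h, h2, h3⟩

/-- A semistable elliptic curve over `ℚ` with infinitely many rational points has conductor larger
than `21`. -/
theorem lt_conductor_of_infinite (hE : Semistable E) {N : ℕ} (hN : IsConductor E N)
    (h : Infinite E.toAffine.Point) : 21 < N := by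
  by_contra hcon
  have := (exists_bsd_of_conductor_le hE hN (not_lt.mp hcon)).1
  exact not_finite E.toAffine.Point

/-- For a semistable equation `W` over `ℤ` the continuation of Mathlib's `L`-series of `W` over `ℚ`
is the Hasse-Weil `L`-function of `W`. -/
theorem isHasseWeil_of_LSeries {W : WeierstrassCurve ℤ} (hΔ : W.Δ ≠ 0) (hW : W.IsSemistableModel)
    (hL : Differentiable ℂ L)
    (h : ∀ s : ℂ, 3 / 2 < s.re → (W.map (Int.castRingHom ℚ)).LSeries s = L s) :
    HW.IsHasseWeil W L := by
  obtain ⟨h1, h2⟩ := values_of_eulerProduct (LFunction_semistable_euler hΔ hW)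
  have hF : IsHasseFun (W.map (Int.castRingHom ℚ)).LFunction (aE W) (bE W) :=
    ⟨h1, h2, fun p hp => roots_semistable hΔ p hp⟩
  refine ⟨hL, fun s hs => ?_⟩
  have hs' : 3 / 2 < s.re := by linarith
  rw [← h s hs']
  refine (hF.hasProd hs').congr_fun fun p => ?_
  have hp0 : ((p : ℕ) : ℂ) ≠ 0 := by exact_mod_cast p.2.ne_zero
  have ha : aE W p = HW.ap W p := by
    rw [aE]
    exact if_neg fun h => hW p p.2 h.1 h.2
  rw [HW.eulerPoly, ha, bE]
  by_cases hd : ((p : ℕ) : ℤ) ∣ W.Δ
  · rw [if_pos hd, if_pos hd]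
    push_cast
    ring
  · rw [if_neg hd, if_neg hd, sub_eq_add_neg 1 (2 * s), cpow_add _ _ hp0, cpow_one]
    push_cast
    ring

end Fermat.Agent.Cor.KM

end
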