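import Fermat.Agent.Corollaries.Mathlib.SmallN
import Fermat.Agent.Corollaries.HW.InfTwistPar

/-!
# Twists of Mathlib's `L`-function of a semistable elliptic curve by Dirichlet characters

`E` semistable over `ℚ`, `χ` a Dirichlet character modulo `m`; `L(E, χ, s)` is the entire
continuation of `∑ χ(n) a_n n^(-s)`, `a_n` the coefficients of Mathlib's `L`-function of `E`:
existence, the functional equation, non-vanishing at `s = 1`.
-/

set_option autoImplicit false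

noncomputable section

open WeierstrassCurve Complex

namespace Fermat.Agent.Cor.KM

open MinModel
open HW (ap)
open ZMod (stdAddChar)

variable {E : WeierstrassCurve ℚ} {m : ℕ} [NeZero m]

/-- `L` is the entire continuation of `∑ χ(n) a_n n^(-s)`, `a_n` the coefficients of Mathlib's
`L`-function of `E`. -/
def IsTwistL (E : WeierstrassCurve ℚ) {m : ℕ} (χ : DirichletCharacter ℂ m) (L : ℂ → ℂ) : Prop :=
  Differentiable ℂ L ∧ ∀ s : ℂ, 3 / 2 < s.re →
    LSeries (fun n => χ n * (E.LFunction n : ℂ)) s = L s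

variable [E.IsElliptic]

theorem isTwistL_iff {W : WeierstrassCurve ℤ} (hm : IsDiscMinimal W E) (hW : W.IsSemistableModel)
    (χ : DirichletCharacter ℂ m) {L : ℂ → ℂ} : IsTwistL E χ L ↔ HW.Twist.IsTwist W χ L := by
  have hE : E.Δ ≠ 0 := E.isUnit_Δ.ne_zero
  have hΔ := Δ_ne_zero_of_model hE hm.1
  obtain ⟨f, ⟨hf, ha⟩, -⟩ := HW.existsUnique_newform_ap hΔ hW
  have hH := HW.isHasse hΔ hf ha
  obtain ⟨L₀, hL₀, hLs⟩ := HW.Twist.exists_entire_of_hasse hf.1 hH χ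
  have hcoe := LFunction_eq_qCoeff hE hm hW hf.1 ha
  have hpoly : ∀ (p : Nat.Primes) (s : ℂ),
      HW.Twist.twPoly f χ p s = HW.Twist.eulerPolyTw W χ p s := by
    intro p s
    rw [HW.Twist.twPoly, HW.Twist.eulerPolyTw, ha p p.2]
    congr 1
    exact if_congr (W.prime_dvd_conductorLevel_iff hΔ p.2) rfl rfl
  have hT : HW.Twist.IsTwist W χ L₀ :=
    ⟨hL₀, fun s hs => by simpa only [hpoly] using (hLs s hs).2⟩
  have hser : ∀ s : ℂ, 3 / 2 < s.re → LSeries (fun n => χ n * (E.LFunction n : ℂ)) s = L₀ s := by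
    intro s hs
    refine HasSum.tsum_eq ((hLs s hs).1.congr_fun fun n => ?_)
    rcases eq_or_ne n 0 with rfl | hn
    · rw [LSeries.term_zero, FermatAgent.HeckeEigen.qCoeff_at_zero, mul_zero, zero_div]
    · rw [LSeries.term_of_ne_zero hn, hcoe n]
  constructor
  · rintro ⟨hL, h⟩
    have h1 : L = L₀ := by
      have a₁ : AnalyticOnNhd ℂ L Set.univ := fun z _ => hL.analyticAt z
      have a₂ : AnalyticOnNhd ℂ L₀ Set.univ := fun z _ => hL₀.analyticAt z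
      refine a₁.eq_of_eventuallyEq a₂ (z₀ := 3) ?_
      have hopen : {s : ℂ | 3 / 2 < s.re} ∈ nhds (3 : ℂ) :=
        (isOpen_lt continuous_const Complex.continuous_re).mem_nhds (by norm_num)
      filter_upwards [hopen] with z hz
      rw [← h z hz, hser z hz]
    rw [h1]
    exact hT
  · intro h
    rw [h.unique hT]
    exact ⟨hL₀, hser⟩

theorem exists_minimal_semistable (hE : Semistable E) :
    ∃ W : WeierstrassCurve ℤ, IsDiscMinimal W E ∧ W.IsSemistableModel ∧ W.Δ ≠ 0 := by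
  have hE0 : E.Δ ≠ 0 := E.isUnit_Δ.ne_zero
  obtain ⟨W, hW⟩ := exists_isDiscMinimal E
  exact ⟨W, hW, isSemistableModel hE0 hW hE, Δ_ne_zero_of_model hE0 hW.1⟩

/-- **The twisted `L`-functions are entire** and have no zeros with `re s > 3/2`. -/
theorem exists_isTwistL (hE : Semistable E) (χ : DirichletCharacter ℂ m) :
    ∃ L : ℂ → ℂ, IsTwistL E χ L ∧ ∀ s : ℂ, 3 / 2 < s.re → L s ≠ 0 := by
  obtain ⟨W, hm, hW, hΔ⟩ := exists_minimal_semistable hE
  obtain ⟨L, hL, h⟩ := HW.Twist.exists_isTwist hΔ hW χ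
  exact ⟨L, (isTwistL_iff hm hW χ).mpr hL, h⟩

/-- **The functional equation of the twisted `L`-functions** of a semistable elliptic curve over
`ℚ` of conductor `N`: `χ` primitive modulo `m`, `m` prime to `N`. The functions
`Λ(χ, s) = (N m²)^(s/2) (2π)^(-s) Γ(s) L(E, χ, s)` are entire and
`Λ(χ, 2 - s) = w χ(N) g(χ)² / m * Λ(χ⁻¹, s)`, `w = 1` if the number of primes of split
multiplicative reduction is odd and `w = -1` if it is even. -/
theorem functional_equation_charTwist (hE : Semistable E) {N : ℕ} (hN : IsConductor E N)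
    (hNm : N.Coprime m) {χ : DirichletCharacter ℂ m} (hχ : χ.IsPrimitive) {L L' : ℂ → ℂ}
    (hL : IsTwistL E χ L) (hL' : IsTwistL E χ⁻¹ L') :
    ∃ Λ Λ' : ℂ → ℂ, Differentiable ℂ Λ ∧ Differentiable ℂ Λ' ∧
      (∀ s : ℂ, 0 < s.re → Λ s = ((N * m ^ 2 : ℕ) : ℂ) ^ (s / 2) *
        ((2 * (Real.pi : ℂ)) ^ (-s) * Gamma s * L s)) ∧
      (∀ s : ℂ, 0 < s.re → Λ' s = ((N * m ^ 2 : ℕ) : ℂ) ^ (s / 2) *
        ((2 * (Real.pi : ℂ)) ^ (-s) * Gamma s * L' s)) ∧
      ∀ s : ℂ, Λ (2 - s) = ((-1) ^ (numSplit E + 1) : ℂ) * χ N * gaussSum χ stdAddChar ^ 2 / m *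
        Λ' s := by
  obtain ⟨W, hm, hW, hΔ⟩ := exists_minimal_semistable hE
  obtain rfl := hN.eq (isConductor_of_model hΔ hW hm.1)
  rw [isTwistL_iff hm hW] at hL hL'
  obtain ⟨Λ, Λ', h1, h2, h3, h4, h5⟩ :=
    HW.Twist.twist_functional_equation hΔ hW hNm hχ hL hL'
  refine ⟨Λ, Λ', h1, h2, h3, h4, fun s => ?_⟩
  have hw : ((HW.rootNumber W : ℤ) : ℂ) = (-1) ^ (numSplit E + 1) := by
    obtain ⟨L', -, -, -, -, -, hw, -, -⟩ := HW.hasseWeil hΔ hW
    rcases hw with h | h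
    · have h6 := (rootNumber_eq_one_iff_odd hm hW).mp h
      rw [h, h6.add_one.neg_one_pow, Int.cast_one]
    · have h6 : ¬ Odd (numSplit E) := by
        rw [← rootNumber_eq_one_iff_odd hm hW, h]
        norm_num
      rw [h, (Nat.not_odd_iff_even.mp h6).add_one.neg_one_pow]
      norm_num
  rw [h5 s, hw]

/-- **Non-vanishing of twists** (any rank): for every `B` there is a prime `p > B` of good ordinary
reduction with an even `χ ≠ 1` modulo `p`, and such a prime with an odd `χ`, such that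
`L(E, χ, 1) ≠ 0`. -/
theorem exists_charTwist_ne_zero (hE : Semistable E) (B : ℕ) :
    (∃ (p : ℕ) (_ : Fact p.Prime), B < p ∧ (minAt E p).HasGoodReduction ℤ_[p] ∧
      ¬ (p : ℤ) ∣ E.LFunction p ∧ ∃ χ : DirichletCharacter ℂ p, χ ≠ 1 ∧ χ.Even ∧
        ∀ L : ℂ → ℂ, IsTwistL E χ L → L 1 ≠ 0) ∧
    (∃ (p : ℕ) (_ : Fact p.Prime), B < p ∧ (minAt E p).HasGoodReduction ℤ_[p] ∧
      ¬ (p : ℤ) ∣ E.LFunction p ∧ ∃ χ : DirichletCharacter ℂ p, χ.Odd ∧
        ∀ L : ℂ → ℂ, IsTwistL E χ L → L 1 ≠ 0) := by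
  have hE0 : E.Δ ≠ 0 := E.isUnit_Δ.ne_zero
  obtain ⟨W, hm, hW, hΔ⟩ := exists_minimal_semistable hE
  obtain ⟨⟨p, hp, h1, h2, h3, χ, h4, h5, h6⟩, ⟨q, hq, g1, g2, g3, ψ, g4, g5⟩⟩ :=
    HW.Per.exists_twist_parity hΔ hW B
  refine ⟨⟨p, hp, h1, (hasGoodReduction_minAt_iff hE0 hm).mpr h2, ?_, χ, h4, h5, fun L hL =>
    h6 L ?_⟩, ⟨q, hq, g1, (hasGoodReduction_minAt_iff hE0 hm).mpr g2, ?_, ψ, g4, fun L hL =>
    g5 L ?_⟩⟩
  · rwa [LFunction_prime hE0 hm hW hp.out]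
  · have : NeZero p := ⟨hp.out.ne_zero⟩
    exact (isTwistL_iff hm hW χ).mp hL
  · rwa [LFunction_prime hE0 hm hW hq.out]
  · have : NeZero q := ⟨hq.out.ne_zero⟩
    exact (isTwistL_iff hm hW ψ).mp hL

/-- **Almost all twists of `p`-power order and conductor do not vanish at `1`** (a case of Rohrlich's
theorem) if `L(E, 1) ≠ 0` and `p ≠ 2` is a prime of good ordinary reduction. -/
theorem charTwist_ne_zero_of_ne_zero (hE : Semistable E) {L₀ : ℂ → ℂ} (hL₀ : Differentiable ℂ L₀)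
    (h : ∀ s : ℂ, 3 / 2 < s.re → E.LSeries s = L₀ s) (h0 : L₀ 1 ≠ 0) (p : ℕ)
    [hp : Fact p.Prime] (hp2 : p ≠ 2) (hgood : (minAt E p).HasGoodReduction ℤ_[p])
    (hord : ¬ (p : ℤ) ∣ E.LFunction p) :
    ∃ n₀ : ℕ, ∀ n ≥ n₀, ∀ χ : DirichletCharacter ℂ (p ^ (n + 1)), χ.IsPrimitive →
      (∃ k, orderOf χ = p ^ k) → ∀ L : ℂ → ℂ, IsTwistL E χ L → L 1 ≠ 0 := by
  have hE0 : E.Δ ≠ 0 := E.isUnit_Δ.ne_zero
  obtain ⟨W, hΔ, hW, hm, hHW⟩ := exists_isHasseWeil_of_eq hE hL₀ h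
  rw [LFunction_prime hE0 hm hW hp.out] at hord
  obtain ⟨n₀, hn₀⟩ := HW.Per.nonvanishing hΔ hW hHW h0 p hp2
    ((hasGoodReduction_minAt_iff hE0 hm).mp hgood) hord
  exact ⟨n₀, fun n hn χ hχ hk L hL => hn₀ n hn χ hχ hk L ((isTwistL_iff hm hW χ).mp hL)⟩

end Fermat.Agent.Cor.KM

end
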