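import Fermat.Agent.Corollaries.Mathlib.All

/-!
# The continuation of Mathlib's `L`-series of a modular elliptic curve over `ℚ`

No hypothesis on the reduction: if `E` is modular, then Mathlib's `E.LSeries` has a meromorphic
continuation to `ℂ`, which is holomorphic for `re s > 1/2`.  In particular the value and the order
of vanishing at `s = 1` are defined.
-/

set_option autoImplicit false

noncomputable section

open WeierstrassCurve CongruenceSubgroup ModularFormClass Complex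
open UpperHalfPlane hiding I

namespace Fermat.Agent.Cor.KM

open MinModel

namespace IsHasseFun

variable {F : ArithmeticFunction ℤ} {a b : ℕ → ℤ} (h : IsHasseFun F a b)

include h

/-- The polynomial factors have no zeros for `re s > 1/2`. -/
theorem poly_ne_zero_of_half {s : ℂ} (hs : 1 / 2 < s.re) {p : ℕ} (hp : p.Prime) :
    1 - a p * (p : ℂ) ^ (-s) + b p * (p : ℂ) ^ (-(2 * s)) ≠ 0 := by
  obtain ⟨α, β, hα, hβ, hsum, hprod⟩ := h.roots p hp
  have hp0 : (p : ℂ) ≠ 0 := by exact_mod_cast hp.ne_zero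
  have hpR : (0 : ℝ) < (p : ℝ) := by exact_mod_cast hp.pos
  have hp1 : (1 : ℝ) < (p : ℝ) := by exact_mod_cast hp.one_lt
  have hlt : √p * (p : ℝ) ^ (-s.re) < 1 := by
    rw [Real.sqrt_eq_rpow, ← Real.rpow_add hpR]
    exact Real.rpow_lt_one_of_one_lt_of_neg hp1 (by linarith)
  have key : ∀ γ : ℂ, ‖γ‖ ≤ √p → 1 - γ * (p : ℂ) ^ (-s) ≠ 0 := by
    intro γ hγ h0
    have h1 : γ * (p : ℂ) ^ (-s) = 1 := (sub_eq_zero.mp h0).symm
    have h2 : ‖γ * (p : ℂ) ^ (-s)‖ < 1 := by
      rw [norm_mul, norm_natCast_cpow_of_pos hp.pos, neg_re]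
      exact (mul_le_mul_of_nonneg_right hγ (Real.rpow_nonneg hpR.le _)).trans_lt hlt
    rw [h1, norm_one] at h2
    exact lt_irrefl _ h2
  have e : 1 - a p * (p : ℂ) ^ (-s) + b p * (p : ℂ) ^ (-(2 * s)) =
      (1 - α * (p : ℂ) ^ (-s)) * (1 - β * (p : ℂ) ^ (-s)) := by
    have e2 : (p : ℂ) ^ (-(2 * s)) = (p : ℂ) ^ (-s) * (p : ℂ) ^ (-s) := by
      rw [← cpow_add _ _ hp0]
      congr 1
      ring
    rw [e2, ← hsum, ← hprod]
    ring
  rw [e]
  exact mul_ne_zero (key α hα) (key β hβ)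

/-- The series is holomorphic for `re s > 3/2`. -/
theorem analyticOnNhd : AnalyticOnNhd ℂ (LSeries fun n => (F n : ℂ)) {s : ℂ | 3 / 2 < s.re} := by
  have habs : LSeries.abscissaOfAbsConv (fun n => (F n : ℂ)) ≤ ((3 / 2 : ℝ) : EReal) := by
    refine LSeries.abscissaOfAbsConv_le_of_forall_lt_LSeriesSummable fun y hy => ?_
    exact h.lseriesSummable (by simpa using hy)
  refine (LSeries_analyticOnNhd _).mono fun z hz => ?_
  exact lt_of_le_of_lt habs (EReal.coe_lt_coe_iff.mpr hz)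

end IsHasseFun

/-- the polynomial factor as an entire function -/
def polyFun (a b : ℤ) (p : ℕ) (s : ℂ) : ℂ := 1 - a * (p : ℂ) ^ (-s) + b * (p : ℂ) ^ (-(2 * s))

theorem differentiable_polyFun (a b : ℤ) {p : ℕ} (hp : p.Prime) :
    Differentiable ℂ (polyFun a b p) := by
  have hp0 : (p : ℂ) ≠ 0 := by exact_mod_cast hp.ne_zero
  have h1 : Differentiable ℂ fun s : ℂ => (p : ℂ) ^ (-s) :=
    differentiable_id.neg.const_cpow (Or.inl hp0)
  have h2 : Differentiable ℂ fun s : ℂ => (p : ℂ) ^ (-(2 * s)) :=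
    (differentiable_id.const_mul 2).neg.const_cpow (Or.inl hp0)
  exact ((differentiable_const _).sub (h1.const_mul _)).add (h2.const_mul _)

theorem differentiable_formPoly {N : ℕ} (f : CuspForm (Gamma0 N) 2) {p : ℕ} (hp : p.Prime) :
    Differentiable ℂ (HW.formPoly f p) := by
  have hp0 : (p : ℂ) ≠ 0 := by exact_mod_cast hp.ne_zero
  have h1 : Differentiable ℂ fun s : ℂ => (p : ℂ) ^ (-s) :=
    differentiable_id.neg.const_cpow (Or.inl hp0)
  have h2 : Differentiable ℂ fun s : ℂ => (p : ℂ) ^ (1 - 2 * s) :=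
    ((differentiable_const _).sub (differentiable_id.const_mul 2)).const_cpow (Or.inl hp0)
  unfold HW.formPoly
  refine ((differentiable_const _).sub (h1.const_mul _)).add ?_
  by_cases hpN : p ∣ N
  · simp only [if_pos hpN]
    exact differentiable_const _
  · simp only [if_neg hpN]
    exact h2

/-- **Continuation**: for every modular elliptic curve `E` over `ℚ`, Mathlib's `E.LSeries` has a
meromorphic continuation to `ℂ`, which is holomorphic in the half plane `re s > 1/2`. -/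
theorem exists_continuation_of_isModular (E : WeierstrassCurve ℚ) [E.IsElliptic]
    (hmod : E.IsModular) : ∃ L : ℂ → ℂ, (∀ s : ℂ, MeromorphicAt L s) ∧
      (∀ s : ℂ, 1 / 2 < s.re → AnalyticAt ℂ L s) ∧ ∀ s : ℂ, 3 / 2 < s.re → E.LSeries s = L s := by
  classical
  have hE : E.Δ ≠ 0 := E.isUnit_Δ.ne_zero
  obtain ⟨W, hW⟩ := exists_isDiscMinimal E
  have hΔ := Δ_ne_zero_of_model hE hW.1
  have hF := isHasseFun hE hW
  obtain ⟨N, hN, f, hf, S, ha⟩ := isModular_iff.mp hmod
  have : NeZero N := ⟨hN.ne'⟩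
  -- the exceptional primes
  set T₀ : Finset ℕ := (S ∪ W.Δ.natAbs.primeFactors ∪ N.primeFactors).filter Nat.Prime with hT₀
  set T : Finset Nat.Primes := T₀.attach.image
    (fun p => ⟨p.1, (Finset.mem_filter.mp p.2).2⟩) with hT
  have hmemT : ∀ p : Nat.Primes, p ∉ T → (p : ℕ) ∉ S ∧ ¬ ((p : ℕ) : ℤ) ∣ W.Δ ∧ ¬ (p : ℕ) ∣ N := by
    intro p hp
    have h0 : (p : ℕ) ∉ T₀ := by
      intro h1
      apply hp
      rw [hT, Finset.mem_image]
      exact ⟨⟨(p : ℕ), h1⟩, Finset.mem_attach _ _, rfl⟩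
    have h1 : (p : ℕ) ∉ S ∪ W.Δ.natAbs.primeFactors ∪ N.primeFactors := fun h2 =>
      h0 (Finset.mem_filter.mpr ⟨h2, p.2⟩)
    rw [Finset.mem_union, Finset.mem_union, not_or, not_or] at h1
    refine ⟨h1.1.1, fun h2 => h1.1.2 (Nat.mem_primeFactors.mpr
      ⟨p.2, Int.natCast_dvd.mp h2, Int.natAbs_ne_zero.mpr hΔ⟩), fun h2 =>
      h1.2 (Nat.mem_primeFactors.mpr ⟨p.2, h2, hN.ne'⟩)⟩
  have heq : ∀ (p : Nat.Primes) (s : ℂ), p ∉ T →
      HW.formPoly f p s = polyFun (aE W p) (bE W p) p s := by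
    intro p s hp
    obtain ⟨h1, h2, h3⟩ := hmemT p hp
    have hp0 : ((p : ℕ) : ℂ) ≠ 0 := by exact_mod_cast p.2.ne_zero
    have h4 : qCoeff f p = (aE W p : ℂ) := by
      rw [ha p p.2 h1, hF.apply_prime p.2]
    rw [HW.formPoly, polyFun, if_neg h3, h4, bE, if_neg h2, sub_eq_add_neg 1 (2 * s),
      cpow_add _ _ hp0, cpow_one]
    push_cast
    rfl
  set L : ℂ → ℂ := fun s => ModularForm.L two_pos f s *
    ∏ p ∈ T, (HW.formPoly f p s * (polyFun (aE W p) (bE W p) p s)⁻¹) with hL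
  have hdL := CuspForm.differentiable_L two_pos f
  have hmer : ∀ s : ℂ, MeromorphicAt L s := by
    intro s
    refine (hdL.analyticAt s).meromorphicAt.mul (MeromorphicAt.fun_prod fun p _ => ?_)
    exact ((differentiable_formPoly f p.2).analyticAt s).meromorphicAt.mul
      ((differentiable_polyFun _ _ p.2).analyticAt s).meromorphicAt.inv
  have han : ∀ s : ℂ, 1 / 2 < s.re → AnalyticAt ℂ L s := by
    intro s hs
    refine (hdL.analyticAt s).mul (Finset.analyticAt_fun_prod _ fun p _ => ?_)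
    exact ((differentiable_formPoly f p.2).analyticAt s).mul
      (((differentiable_polyFun _ _ p.2).analyticAt s).inv (hF.poly_ne_zero_of_half hs p.2))
  have h2 : ∀ s : ℂ, 2 < s.re → E.LSeries s = L s := by
    intro s hs
    have h3 := hF.hasProd (s := s) (by linarith)
    have h4 := HW.hasProd_L hf hs
    have h5 : HasProd (fun p : Nat.Primes =>
        HW.formPoly f p s * (polyFun (aE W p) (bE W p) p s)⁻¹)
        (∏ p ∈ T, (HW.formPoly f p s * (polyFun (aE W p) (bE W p) p s)⁻¹)) := by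
      refine hasProd_prod_of_ne_finset_one fun p hp => ?_
      rw [heq p s hp]
      exact mul_inv_cancel₀ (hF.poly_ne_zero_of_half (by linarith) p.2)
    have h6 := h4.mul h5
    have h7 : (fun p : Nat.Primes => (HW.formPoly f p s)⁻¹ *
        (HW.formPoly f p s * (polyFun (aE W p) (bE W p) p s)⁻¹)) =
        fun p : Nat.Primes => (1 - aE W p * (p : ℂ) ^ (-s) + bE W p * (p : ℂ) ^ (-(2 * s)))⁻¹ := by
      funext p
      rw [inv_mul_cancel_left₀ (HW.formPoly_ne_zero hf hs p)]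
      rfl
    rw [h7] at h6
    exact h3.unique h6
  refine ⟨L, hmer, han, fun s hs => ?_⟩
  have hU : IsPreconnected {s : ℂ | 3 / 2 < s.re} := (convex_halfSpace_re_gt (3 / 2)).isPreconnected
  have h3 : (3 : ℂ) ∈ {s : ℂ | 3 / 2 < s.re} := by
    rw [Set.mem_ofPred_eq]
    norm_num
  have hev : E.LSeries =ᶠ[nhds 3] L := by
    have hopen : {s : ℂ | 2 < s.re} ∈ nhds (3 : ℂ) :=
      (isOpen_lt continuous_const Complex.continuous_re).mem_nhds (by norm_num)
    filter_upwards [hopen] with z hz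
    exact h2 z hz
  have hanE : AnalyticOnNhd ℂ E.LSeries {s : ℂ | 3 / 2 < s.re} := hF.analyticOnNhd
  exact hanE.eqOn_of_preconnected_of_eventuallyEq
    (fun z hz => han z (by rw [Set.mem_ofPred_eq] at hz; linarith)) hU h3 hev hs

end Fermat.Agent.Cor.KM
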