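import Fermat.Agent.Corollaries.Mathlib.Model
import Fermat.Agent.Corollaries.Eta.LValue

/-!
# Mathlib's `L`-function of the elliptic curves of conductor `11`, `14`, `15`

For every semistable elliptic curve `E` over `ℚ` of conductor `N = 11, 14, 15` the `n`-th
coefficient of Mathlib's `E.LFunction` is, for all `n`, the coefficient of `qⁿ` in the eta product
`q ∏ (1 - qⁿ)² (1 - q¹¹ⁿ)²`, `q ∏ (1 - qⁿ)(1 - q²ⁿ)(1 - q⁷ⁿ)(1 - q¹⁴ⁿ)`,
`q ∏ (1 - qⁿ)(1 - q³ⁿ)(1 - q⁵ⁿ)(1 - q¹⁵ⁿ)`.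
-/

set_option autoImplicit false

noncomputable section

open WeierstrassCurve CongruenceSubgroup ModularFormClass
open UpperHalfPlane hiding I

namespace Fermat.Agent.Cor.KM

open MinModel
open HW (ap)
open Eta (etaPoly IsEtaLevel W11 W14 W15)

/-- **Eichler's theorem for Mathlib's `L`-function**: all coefficients, for every semistable
elliptic curve over `ℚ` of conductor `11`, `14`, `15`. -/
theorem LFunction_eq_coeff (E : WeierstrassCurve ℚ) [E.IsElliptic] (h : Semistable E) {N r : ℕ}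
    (hN : IsConductor E N) (hr : IsEtaLevel N r) {M n : ℕ} (hn : n ≤ M + 1) :
    E.LFunction n = (etaPoly N r M).coeff n := by
  have hN0 : NeZero N := ⟨by rcases hr with ⟨rfl, -⟩ | ⟨rfl, -⟩ | ⟨rfl, -⟩ <;> norm_num⟩
  obtain ⟨f, ⟨hf, ha⟩, -⟩ := existsUnique_newform E h hN
  have h1 := (Eta.eq_etaProd hr f hf.1.qCoeff_one).2 M n hn
  rw [← ha n] at h1
  exact_mod_cast h1

/-- **The `L`-value at the centre is positive**: for a semistable elliptic curve `E` over `ℚ` of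
conductor `11`, `14`, `15` the entire continuation `L` of Mathlib's `E.LSeries` has `L(x) > 0` for
every real `x > 0`; in particular `L(1) > 0`. -/
theorem exists_continuation_pos (E : WeierstrassCurve ℚ) [E.IsElliptic] (h : Semistable E)
    {N : ℕ} (hN : IsConductor E N) (h3 : N = 11 ∨ N = 14 ∨ N = 15) :
    ∃ L : ℂ → ℂ, Differentiable ℂ L ∧ (∀ s : ℂ, 3 / 2 < s.re → E.LSeries s = L s) ∧
      ∀ x : ℝ, 0 < x → ∃ y : ℝ, 0 < y ∧ L x = y := by
  have hE : E.Δ ≠ 0 := E.isUnit_Δ.ne_zero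
  obtain ⟨W, hW⟩ := exists_isDiscMinimal E
  have hs := isSemistableModel hE hW h
  have hΔ := Δ_ne_zero_of_model hE hW.1
  obtain rfl := hN.eq (isConductor_conductorLevel hE hW)
  obtain ⟨L, hL, -⟩ := HW.existsUnique_isHasseWeil hΔ hs
  exact ⟨L, hL.1, fun s hs2 => LSeries_eq_of_isHasseWeil hE hW hs hL hs2,
    fun x hx => Eta.L_pos hΔ hs h3 hL hx⟩

/-- The `L`-function of a curve given by a semistable equation over `ℤ`. -/
theorem LFunction_map_eq_coeff {W : WeierstrassCurve ℤ} (hΔ : W.Δ ≠ 0)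
    (hW : W.IsSemistableModel) {N r : ℕ} (hN : W.conductorLevel = N) (hr : IsEtaLevel N r)
    {M n : ℕ} (hn : n ≤ M + 1) :
    (W.map (Int.castRingHom ℚ)).LFunction n = (etaPoly N r M).coeff n := by
  have := isElliptic_map hΔ
  subst hN
  exact LFunction_eq_coeff _ (semistable_of_model hΔ hW (isIntegralModelOf_map W))
    (isConductor_of_model hΔ hW (isIntegralModelOf_map W)) hr hn

/-- `y² + y = x³ - x²` over `ℚ`, of conductor `11` -/
def E11 : WeierstrassCurve ℚ := ⟨0, -1, 1, 0, 0⟩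

/-- `y² + xy + y = x³ - x` over `ℚ`, of conductor `14` -/
def E14 : WeierstrassCurve ℚ := ⟨1, 0, 1, -1, 0⟩

/-- `y² + xy + y = x³ + x²` over `ℚ`, of conductor `15` -/
def E15 : WeierstrassCurve ℚ := ⟨1, 1, 1, 0, 0⟩

theorem E11_eq : E11 = W11.map (Int.castRingHom ℚ) := by
  ext <;> simp [E11, W11]

theorem E14_eq : E14 = W14.map (Int.castRingHom ℚ) := by
  ext <;> simp [E14, W14]

theorem E15_eq : E15 = W15.map (Int.castRingHom ℚ) := by
  ext <;> simp [E15, W15]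

open Polynomial in
/-- **Mathlib's `L`-function of `y² + y = x³ - x²`** is `∑ a_n n⁻ˢ` with
`∑ a_n qⁿ = q ∏ (1 - qⁿ)² (1 - q¹¹ⁿ)²`. -/
theorem LFunction_E11 {M n : ℕ} (hn : n ≤ M + 1) : E11.LFunction n =
    (X * ∏ m ∈ Finset.range M, ((1 - X ^ (m + 1)) ^ 2 *
      (1 - X ^ (11 * (m + 1))) ^ 2) : ℤ[X]).coeff n := by
  rw [E11_eq, ← Eta.etaPoly_eleven]
  exact LFunction_map_eq_coeff (by rw [Eta.W11_Δ]; norm_num) Eta.W11_semistable
    Eta.W11_conductorLevel (Or.inl ⟨rfl, rfl⟩) hn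

open Polynomial in
/-- **Mathlib's `L`-function of `y² + xy + y = x³ - x`** is `∑ a_n n⁻ˢ` with
`∑ a_n qⁿ = q ∏ (1 - qⁿ)(1 - q²ⁿ)(1 - q⁷ⁿ)(1 - q¹⁴ⁿ)`. -/
theorem LFunction_E14 {M n : ℕ} (hn : n ≤ M + 1) : E14.LFunction n =
    (X * ∏ m ∈ Finset.range M, ((1 - X ^ (m + 1)) * (1 - X ^ (2 * (m + 1))) *
      (1 - X ^ (7 * (m + 1))) * (1 - X ^ (14 * (m + 1)))) : ℤ[X]).coeff n := by
  rw [E14_eq, ← Eta.etaPoly_fourteen]
  exact LFunction_map_eq_coeff (by rw [Eta.W14_Δ]; norm_num) Eta.W14_semistable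
    Eta.W14_conductorLevel (Or.inr (Or.inl ⟨rfl, rfl⟩)) hn

open Polynomial in
/-- **Mathlib's `L`-function of `y² + xy + y = x³ + x²`** is `∑ a_n n⁻ˢ` with
`∑ a_n qⁿ = q ∏ (1 - qⁿ)(1 - q³ⁿ)(1 - q⁵ⁿ)(1 - q¹⁵ⁿ)`. -/
theorem LFunction_E15 {M n : ℕ} (hn : n ≤ M + 1) : E15.LFunction n =
    (X * ∏ m ∈ Finset.range M, ((1 - X ^ (m + 1)) * (1 - X ^ (3 * (m + 1))) *
      (1 - X ^ (5 * (m + 1))) * (1 - X ^ (15 * (m + 1)))) : ℤ[X]).coeff n := by
  rw [E15_eq, ← Eta.etaPoly_fifteen]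
  exact LFunction_map_eq_coeff (by rw [Eta.W15_Δ]; norm_num) Eta.W15_semistable
    Eta.W15_conductorLevel (Or.inr (Or.inr ⟨rfl, rfl⟩)) hn

end Fermat.Agent.Cor.KM
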