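import Fermat.Agent.Corollaries.Mathlib.FormCoeff
import Fermat.Agent.Corollaries.HW.Hasse

/-!
# Dirichlet series with Euler factors of degree two and the Hasse bound
-/

set_option autoImplicit false

noncomputable section

open Complex

namespace Fermat.Agent.Cor.KM

/-- A multiplicative function with Euler factors `(1 - a_p T + b_p T²)⁻¹`, whose reciprocal roots
have absolute value at most `√p`. -/
structure IsHasseFun (F : ArithmeticFunction ℤ) (a b : ℕ → ℤ) : Prop where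
  mult : F.IsMultiplicative
  pow : ∀ p : ℕ, p.Prime → ∀ k : ℕ, F (p ^ k) = (invPS (a p) (b p)).coeff k
  roots : ∀ p : ℕ, p.Prime → ∃ α β : ℂ, ‖α‖ ≤ √p ∧ ‖β‖ ≤ √p ∧ α + β = a p ∧ α * β = b p

namespace IsHasseFun

variable {F : ArithmeticFunction ℤ} {a b : ℕ → ℤ} (h : IsHasseFun F a b)

include h

theorem apply_one : F 1 = 1 := h.mult.1

theorem apply_mul {m n : ℕ} (hmn : m.Coprime n) : F (m * n) = F m * F n := h.mult.2 hmn

theorem apply_prime {p : ℕ} (hp : p.Prime) : F p = a p := by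
  have h1 := h.pow p hp 1
  rwa [pow_one, coeff_invPS_one] at h1

theorem apply_pow_add_two {p : ℕ} (hp : p.Prime) (e : ℕ) :
    F (p ^ (e + 2)) = a p * F (p ^ (e + 1)) - b p * F (p ^ e) := by
  rw [h.pow p hp, h.pow p hp, h.pow p hp, coeff_invPS_add_two]

/-- `|F(p^e)| ≤ (e + 1) p^{e/2}`. -/
theorem norm_pow_le {p : ℕ} (hp : p.Prime) (e : ℕ) :
    ‖(F (p ^ e) : ℂ)‖ ≤ (e + 1) * (√p) ^ e := by
  obtain ⟨α, β, hα, hβ, hs, hm⟩ := h.roots p hp
  refine HW.norm_le_of_rec (u := fun e => (F (p ^ e) : ℂ)) hα hβ ?_ ?_ (fun e => ?_) e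
  · simp [h.apply_one]
  · simp [h.apply_prime hp, hs]
  · rw [hs, hm, h.apply_pow_add_two hp]
    push_cast
    ring

/-- **`|F(n)| ≤ d(n) √n`.** -/
theorem norm_le (n : ℕ) : ‖(F n : ℂ)‖ ≤ n.divisors.card * √n := by
  induction n using Nat.recOnPosPrimePosCoprime with
  | zero => simp
  | one => simp [h.apply_one]
  | prime_pow p e hp he =>
    refine (h.norm_pow_le hp e).trans (le_of_eq ?_)
    rw [Nat.divisors_prime_pow hp, Finset.card_map, Finset.card_range, Nat.cast_pow,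
      Real.sqrt_eq_rpow, Real.sqrt_eq_rpow, ← Real.rpow_natCast, ← Real.rpow_natCast,
      ← Real.rpow_mul (Nat.cast_nonneg p), ← Real.rpow_mul (Nat.cast_nonneg p), mul_comm (e : ℝ)]
    push_cast
    rfl
  | coprime m n _ _ hmn ihm ihn =>
    rw [h.apply_mul hmn, Int.cast_mul, norm_mul, hmn.card_divisors_mul]
    refine (mul_le_mul ihm ihn (norm_nonneg _) (by positivity)).trans (le_of_eq ?_)
    push_cast
    rw [Real.sqrt_mul (Nat.cast_nonneg m)]
    ring

/-- **Absolute convergence for `re s > 3/2`.** -/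
theorem lseriesSummable {s : ℂ} (hs : 3 / 2 < s.re) :
    LSeriesSummable (fun n => (F n : ℂ)) s := by
  have h1 : 1 < (s - 1 / 2 : ℂ).re := by
    rw [sub_re]
    norm_num
    linarith
  have h2 := (HW.summable_divisors h1).norm
  refine Summable.of_norm_bounded h2 fun n => ?_
  rcases eq_or_ne n 0 with rfl | hn
  · simp
  rw [LSeries.term_of_ne_zero hn, LSeries.term_of_ne_zero hn, norm_div, norm_div,
    norm_natCast_cpow_of_pos (Nat.pos_of_ne_zero hn), norm_natCast_cpow_of_pos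
    (Nat.pos_of_ne_zero hn), RCLike.norm_natCast]
  have hn0 : (0 : ℝ) < n := by exact_mod_cast Nat.pos_of_ne_zero hn
  have e1 : (s - 1 / 2 : ℂ).re = s.re - 1 / 2 := by
    rw [sub_re]
    norm_num
  rw [e1, Real.rpow_sub hn0, ← Real.sqrt_eq_rpow, div_div_eq_mul_div]
  exact div_le_div_of_nonneg_right (h.norm_le n) (Real.rpow_nonneg hn0.le _)

theorem summable {s : ℂ} (hs : 3 / 2 < s.re) :
    Summable fun n : ℕ => (F n : ℂ) / (n : ℂ) ^ s := by
  refine (h.lseriesSummable hs).congr fun n => ?_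
  rcases eq_or_ne n 0 with rfl | hn
  · rw [LSeries.term_zero, ArithmeticFunction.map_zero, Int.cast_zero, zero_div]
  · rw [LSeries.term_of_ne_zero hn]

/-- The local series at `p` times the polynomial factor is one. -/
theorem tsum_mul_poly {s : ℂ} (hs : 3 / 2 < s.re) (p : Nat.Primes) :
    (∑' e : ℕ, (F ((p : ℕ) ^ e) : ℂ) / (((p : ℕ) ^ e : ℕ) : ℂ) ^ s) *
      (1 - a p * (p : ℂ) ^ (-s) + b p * (p : ℂ) ^ (-(2 * s))) = 1 := by
  set G : ℕ → ℂ := fun n => (F n : ℂ) / (n : ℂ) ^ s with hG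
  have hG1 : G 1 = 1 := by simp [hG, h.apply_one]
  have hp0 : ((p : ℕ) : ℂ) ≠ 0 := by exact_mod_cast p.2.ne_zero
  have hpow : ∀ e : ℕ, (((p : ℕ) ^ e : ℕ) : ℂ) ^ s = ((p : ℂ) ^ s) ^ e := by
    intro e
    rw [Nat.cast_pow, ← natCast_cpow_natCast_mul, cpow_nat_mul]
  have hsp : Summable fun e : ℕ => G ((p : ℕ) ^ e) :=
    ((h.summable hs).comp_injective (Nat.pow_right_injective p.2.two_le))
  have hps : (p : ℂ) ^ s ≠ 0 := by simp [cpow_eq_zero_iff, hp0]
  refine HW.tsum_mul_of_rec (u := fun e : ℕ => G ((p : ℕ) ^ e)) ?_ ?_ ?_ hsp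
  · simpa using hG1
  · simp [hG, cpow_neg, div_eq_mul_inv, h.apply_prime p.2]
  · intro e
    simp only [hG, hpow]
    rw [h.apply_pow_add_two p.2, cpow_neg, cpow_neg, two_mul s, cpow_add _ _ hp0]
    push_cast
    field_simp
    ring

/-- **The Euler product for `re s > 3/2`.** -/
theorem hasProd {s : ℂ} (hs : 3 / 2 < s.re) :
    HasProd (fun p : Nat.Primes =>
      (1 - a p * (p : ℂ) ^ (-s) + b p * (p : ℂ) ^ (-(2 * s)))⁻¹)
      (LSeries (fun n => (F n : ℂ)) s) := by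
  set G : ℕ → ℂ := fun n => (F n : ℂ) / (n : ℂ) ^ s with hG
  have hsum : Summable G := h.summable hs
  have hG0 : G 0 = 0 := by simp [hG]
  have hG1 : G 1 = 1 := by simp [hG, h.apply_one]
  have hmul : ∀ {m n : ℕ}, m.Coprime n → G (m * n) = G m * G n := by
    intro m n hmn
    simp only [hG]
    rw [h.apply_mul hmn, Int.cast_mul, Nat.cast_mul, natCast_mul_natCast_cpow,
      mul_div_mul_comm]
  have h1 := EulerProduct.eulerProduct_hasProd hG1 hmul hsum.norm hG0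
  have hL : ∑' n, G n = LSeries (fun n => (F n : ℂ)) s := by
    rw [LSeries]
    refine tsum_congr fun n => ?_
    rcases eq_or_ne n 0 with rfl | hn
    · rw [LSeries.term_zero, hG0]
    · rw [LSeries.term_of_ne_zero hn]
  rw [hL] at h1
  convert h1 using 1
  funext p
  exact (eq_inv_of_mul_eq_one_left (h.tsum_mul_poly hs p)).symm

theorem poly_ne_zero {s : ℂ} (hs : 3 / 2 < s.re) (p : Nat.Primes) :
    1 - a p * (p : ℂ) ^ (-s) + b p * (p : ℂ) ^ (-(2 * s)) ≠ 0 := by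
  intro h0
  have h1 := h.tsum_mul_poly hs p
  rw [h0, mul_zero] at h1
  exact zero_ne_one h1

theorem multipliable_poly {s : ℂ} (hs : 3 / 2 < s.re) : Multipliable fun p : Nat.Primes =>
    1 - a p * (p : ℂ) ^ (-s) + b p * (p : ℂ) ^ (-(2 * s)) := by
  have h1 : Summable fun p : Nat.Primes => 2 * ((p : ℕ) : ℝ) ^ (-(s.re - 1 / 2)) :=
    (Nat.Primes.summable_rpow.mpr (by linarith)).mul_left 2
  have h2 : Summable fun p : Nat.Primes => ((p : ℕ) : ℝ) ^ (-(2 * s.re - 1)) :=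
    Nat.Primes.summable_rpow.mpr (by linarith)
  have h3 : Summable fun p : Nat.Primes =>
      ‖(1 - a p * (p : ℂ) ^ (-s) + b p * (p : ℂ) ^ (-(2 * s))) - 1‖ := by
    refine Summable.of_nonneg_of_le (fun _ => norm_nonneg _) (fun p => ?_) (h1.add h2)
    obtain ⟨α, β, hα, hβ, hsum, hprod⟩ := h.roots p p.2
    have hp0 : (0 : ℝ) < ((p : ℕ) : ℝ) := by exact_mod_cast p.2.pos
    have ha : ‖(a p : ℂ)‖ ≤ 2 * √(p : ℕ) := by
      rw [← hsum]
      refine (norm_add_le _ _).trans ?_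
      linarith
    have hb : ‖(b p : ℂ)‖ ≤ ((p : ℕ) : ℝ) := by
      rw [← hprod, norm_mul]
      calc ‖α‖ * ‖β‖ ≤ √(p : ℕ) * √(p : ℕ) :=
            mul_le_mul hα hβ (norm_nonneg _) (Real.sqrt_nonneg _)
        _ = ((p : ℕ) : ℝ) := Real.mul_self_sqrt hp0.le
    have e1 : (1 - a p * (p : ℂ) ^ (-s) + b p * (p : ℂ) ^ (-(2 * s))) - 1 =
        -((a p : ℂ) * (p : ℂ) ^ (-s)) + b p * (p : ℂ) ^ (-(2 * s)) := by
      ring
    rw [e1]
    refine (norm_add_le _ _).trans (add_le_add ?_ ?_)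
    · rw [norm_neg, norm_mul, norm_natCast_cpow_of_pos p.2.pos, neg_re]
      have e2 : ((p : ℕ) : ℝ) ^ (-(s.re - 1 / 2)) = √(p : ℕ) * ((p : ℕ) : ℝ) ^ (-s.re) := by
        rw [Real.sqrt_eq_rpow, ← Real.rpow_add hp0]
        congr 1
        ring
      rw [e2, ← mul_assoc]
      exact mul_le_mul_of_nonneg_right ha (Real.rpow_nonneg hp0.le _)
    · rw [norm_mul, norm_natCast_cpow_of_pos p.2.pos]
      have e3 : (-(2 * s)).re = -(2 * s.re) := by simp [mul_re]
      have e4 : ((p : ℕ) : ℝ) ^ (-(2 * s.re - 1)) = ((p : ℕ) : ℝ) * ((p : ℕ) : ℝ) ^ (-(2 * s.re)) := by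
        nth_rewrite 2 [← Real.rpow_one ((p : ℕ) : ℝ)]
        rw [← Real.rpow_add hp0]
        congr 1
        ring
      rw [e3, e4]
      exact mul_le_mul_of_nonneg_right hb (Real.rpow_nonneg hp0.le _)
  have h4 := multipliable_one_add_of_summable h3
  refine h4.congr fun p => ?_
  ring

/-- **No zeros for `re s > 3/2`.** -/
theorem lseries_ne_zero {s : ℂ} (hs : 3 / 2 < s.re) : LSeries (fun n => (F n : ℂ)) s ≠ 0 := by
  obtain ⟨M, hM⟩ := h.multipliable_poly hs
  have h2 := (h.hasProd hs).mul hM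
  have h1 : (fun p : Nat.Primes => (1 - a p * (p : ℂ) ^ (-s) + b p * (p : ℂ) ^ (-(2 * s)))⁻¹ *
      (1 - a p * (p : ℂ) ^ (-s) + b p * (p : ℂ) ^ (-(2 * s)))) = fun _ => 1 :=
    funext fun p => inv_mul_cancel₀ (h.poly_ne_zero hs p)
  rw [h1] at h2
  have h3 := h2.unique hasProd_one
  intro h0
  rw [h0, zero_mul] at h3
  exact zero_ne_one h3

end IsHasseFun

end Fermat.Agent.Cor.KM
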