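import Fermat.Agent.Corollaries.HW.Split
import Fermat.Agent.Corollaries.HW.MultLine

/-!
# The Frobenius at a prime of multiplicative reduction on the points of order `p`
-/

set_option autoImplicit false

noncomputable section

open WeierstrassCurve WeierstrassCurve.Affine WeierstrassCurve.Affine.Point
  FermatAgent.ECVal Fermat.Agent.ECRed Fermat.Agent.ECFrob Fermat.Agent.Tate
  Fermat.Agent.Torsion Polynomial
open scoped WeierstrassCurve.Affine

namespace Fermat.Agent.Cor.KM

variable {W : WeierstrassCurve ℤ}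

/-- The characteristic polynomial of a Frobenius element at a prime of multiplicative reduction on
the points of order `p`. -/
theorem charpoly_rho_mult {q p : ℕ} [hp : Fact p.Prime]
    [Module.Finite (ZMod p) (Submodule.torsionBy ℤ (EQ W).Point (p : ℤ))] (hW : IsMultAt W q)
    (hne : q ≠ p) (hp2 : p ≠ 2) {A : ValuationSubring (AlgebraicClosure ℚ)}
    (hA : A.LiesOverPrime q) {φ : AlgebraicClosure ℚ ≃ₐ[ℚ] AlgebraicClosure ℚ}
    (hφ : A.IsFrobeniusAt φ q) :
    LinearMap.charpoly (rho W p φ) =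
      X ^ 2 - C ((((W.apOfModel q - 1) * (q + 1) : ℤ)) : ZMod p) * X + C (q : ZMod p) := by
  classical
  obtain ⟨v, hvm, hv0, -⟩ := HW.exists_generator hW hne hp2 hA
  obtain ⟨a, ha⟩ : ∃ a : ℤ, a = W.apOfModel q - 1 := ⟨_, rfl⟩
  have ha1 : a = 1 ∨ a = -1 := by
    rw [ha]
    exact HW.apOfModel_sub_one hW
  have hmul : (a : ZMod p) * (a : ZMod p) = 1 := by
    rcases ha1 with h | h <;> rw [h] <;> simp
  have hpv : p • (v : (EQ W).Point) = 0 := mem_torsionBy_nat.mp v.2
  have hqp : ¬ q ∣ p := fun h => hne ((Nat.prime_dvd_prime_iff_eq hW.prime hp.out).mp h)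
  have h0 : φ • (v : (EQ W).Point) = (a * (q : ℤ)) • (v : (EQ W).Point) := by
    rw [ha]
    exact HW.frobenius_smul_of_mem_E0 hW hA hφ hqp hpv (mem_E0tors.mp hvm)
  have h1 : rho W p φ v = (((a : ℤ) : ZMod p) * (q : ZMod p)) • v := by
    have h2 : (((a : ℤ) : ZMod p) * (q : ZMod p)) • v = (a * (q : ℤ)) • v := by
      rw [← Int.cast_smul_eq_zsmul (ZMod p) (a * (q : ℤ)) v]
      push_cast
      rfl
    rw [h2]
    apply Subtype.ext
    exact h0
  have ha' : ((a : ℤ) : ZMod p) = 1 ∨ ((a : ℤ) : ZMod p) = -1 := by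
    rcases ha1 with h | h
    · left
      rw [h, Int.cast_one]
    · right
      rw [h, Int.cast_neg, Int.cast_one]
  have h3 := (HW.rho_frob_of_line hW hne hp2 hA hφ ha' hvm hv0 h1).2.2.1
  rw [h3, ← ha]
  have h5 : C ((((a * (q + 1) : ℤ)) : ZMod p)) =
      C (a : ZMod p) + C ((a : ZMod p) * (q : ZMod p)) := by
    rw [← C_add]
    congr 1
    push_cast
    ring
  have h6 : C (q : ZMod p) = C (a : ZMod p) * C ((a : ZMod p) * (q : ZMod p)) := by
    rw [← C_mul, ← mul_assoc, hmul, one_mul]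
  rw [h5, h6]
  ring

end Fermat.Agent.Cor.KM
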