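import Fermat.Agent.Corollaries.Mathlib.All
import Fermat.Agent.Corollaries.NOS.Local
import Fermat.Agent.Corollaries.HW.TateEquiv
import Fermat.Agent.Corollaries.Mathlib.MultChar

/-!
# Isogenous elliptic curves over `ℚ` have the same `L`-function

No hypothesis on the reduction: if there is a Galois equivariant homomorphism with finite kernel
between the points of two elliptic curves `E`, `E'` over `ℚ`, then Mathlib's `E.LFunction` and
`E'.LFunction` are equal, the Euler factors at the primes of bad reduction included.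
-/

set_option autoImplicit false
set_option linter.style.haveILetI false

noncomputable section

open WeierstrassCurve WeierstrassCurve.Affine Polynomial IsDedekindDomain NumberField
open Fermat.Agent.ECRed
open Fermat.Agent.ECFrob
open Fermat.Agent.Cor.K1 (Gam Pts)
open Fermat.Agent.Cor.HW (TorsIso repTors IsIsog)

namespace Fermat.Agent.Cor.KM

open MinModel
open HW (ap)

variable {W W' : WeierstrassCurve ℤ}

theorem charpoly_repTors_mult {q p : ℕ} [hp : Fact p.Prime] (hW : IsMultAt W q) (hne : q ≠ p)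
    (hp2 : p ≠ 2) {A : ValuationSubring (AlgebraicClosure ℚ)} (hA : A.LiesOverPrime q) {φ : Gam}
    (hφ : A.IsFrobeniusAt φ q) : LinearMap.charpoly ((repTors hW.ne p).ρ φ) =
      X ^ 2 - C ((((W.apOfModel q - 1) * (q + 1) : ℤ)) : ZMod p) * X + C (q : ZMod p) := by
  haveI := finite_rat hW.ne hp.out.ne_zero
  haveI : Module.Finite (ZMod p)
      (Submodule.torsionBy ℤ ((W.map (Int.castRingHom ℚ))⁄(AlgebraicClosure ℚ)).Point p) :=
    Module.Finite.of_finite
  exact charpoly_rho_mult hW hne hp2 hA hφ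

/-- **Split and non-split multiplicative reduction** from the Galois modules of the points of order
`p`, for infinitely many primes `p`. -/
theorem apOfModel_eq_of_mult (h : {p : ℕ | p.Prime ∧ TorsIso W W' p}.Infinite) {q : ℕ}
    (hW : IsMultAt W q) (hW' : IsMultAt W' q) : W.apOfModel q = W'.apOfModel q := by
  set d : ℤ := (W.apOfModel q - 1) * (q + 1) - (W'.apOfModel q - 1) * (q + 1) with hd
  obtain ⟨p, ⟨hp, hi⟩, hlt⟩ := h.exists_gt (q + 2 + d.natAbs)
  have : Fact p.Prime := ⟨hp⟩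
  have hne : q ≠ p := by omega
  have hp2 : p ≠ 2 := by omega
  obtain ⟨A, hA, σ, hσ⟩ := Frob.exists_frobenius q hW.prime
  obtain ⟨e⟩ := (HW.torsIso_iff_isEquiv hW.ne hW'.ne).mp hi
  have h1 : e.toLinearEquiv.conj ((repTors hW.ne p).ρ σ) = (repTors hW'.ne p).ρ σ := by
    refine LinearMap.ext fun x => ?_
    rw [LinearEquiv.conj_apply_apply, e.map_apply, LinearEquiv.apply_symm_apply]
  have h2 := charpoly_repTors_mult hW hne hp2 hA hσ
  rw [← LinearEquiv.charpoly_conj e.toLinearEquiv, h1,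
    charpoly_repTors_mult hW' hne hp2 hA hσ] at h2
  have h3 := HW.coeff_eq h2
  have h4 : (p : ℤ) ∣ d := by
    rw [← ZMod.intCast_zmod_eq_zero_iff_dvd, hd, Int.cast_sub, h3, sub_self]
  have h5 : d = 0 := Int.eq_zero_of_abs_lt_dvd h4 (by rw [Int.abs_eq_natAbs]; omega)
  have h6 : (W.apOfModel q - W'.apOfModel q) * ((q : ℤ) + 1) = 0 := by
    rw [← h5, hd]
    ring
  rcases mul_eq_zero.mp h6 with h7 | h7
  · omega
  · omega

/-- **Isogenous elliptic curves over `ℚ` have the same `L`-function** (Mathlib's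
`WeierstrassCurve.LFunction`, all Euler factors, no hypothesis on the reduction). -/
theorem LFunction_eq_of_isogeny {E E' : WeierstrassCurve ℚ} [E.IsElliptic] [E'.IsElliptic]
    (φ : Pts E →+ Pts E') (hker : Finite φ.ker)
    (hφ : ∀ (σ : Gam) (x : Pts E), φ (σ • x) = σ • φ x) : E.LFunction = E'.LFunction := by
  have hE : E.Δ ≠ 0 := E.isUnit_Δ.ne_zero
  have hE' : E'.Δ ≠ 0 := E'.isUnit_Δ.ne_zero
  obtain ⟨W, hW, hΔ, e, he⟩ := NOS.exists_model hE
  obtain ⟨W', hW', hΔ', e', he'⟩ := NOS.exists_model hE'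
  let ψ : Mazur.Pt W →+ Mazur.Pt W' := (e'.symm.toAddMonoidHom.comp φ).comp e.toAddMonoidHom
  have hψx : ∀ x : Mazur.Pt W, ψ x = e'.symm (φ (e x)) := fun x => rfl
  have hψ : ∀ (σ : Gam) (x : Mazur.Pt W), ψ (σ • x) = σ • ψ x := by
    intro σ x
    apply e'.injective
    rw [he', hψx, hψx, AddEquiv.apply_symm_apply, AddEquiv.apply_symm_apply, he, hφ]
  have hker' : Finite ψ.ker := by
    refine Finite.of_injective (fun x : ψ.ker => (⟨e x.1, ?_⟩ : φ.ker)) ?_
    · have h1 : ψ x.1 = 0 := x.2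
      rw [hψx] at h1
      have h2 := congrArg e' h1
      rwa [AddEquiv.apply_symm_apply, _root_.map_zero] at h2
    · intro x y h
      exact Subtype.ext (e.injective (congrArg Subtype.val h))
  have hisog : IsIsog (W := W) (W' := W') ψ := ⟨hψ, hker'⟩
  have hinf := hisog.infinite hΔ hΔ'
  have key : ∀ p : ℕ, p.Prime → ((p : ℤ) ∣ W.Δ ↔ (p : ℤ) ∣ W'.Δ) ∧ aE W p = aE W' p := by
    intro p hp
    have hm := NOS.minimalAt_of_isDiscMinimal hE hW hp
    have hm' := NOS.minimalAt_of_isDiscMinimal hE' hW' hp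
    have h1 := NOS.isAdditiveAt_iff hΔ hΔ' hp hm hm' ψ hker' hψ
    have h2 := NOS.dvd_Δ_iff hΔ hΔ' hp hm hm' ψ hker' hψ
    refine ⟨h2, ?_⟩
    have h1' : ((p : ℤ) ∣ W.Δ ∧ (p : ℤ) ∣ W.c₄) ↔ ((p : ℤ) ∣ W'.Δ ∧ (p : ℤ) ∣ W'.c₄) := h1
    rw [aE, aE]
    by_cases hadd : (p : ℤ) ∣ W.Δ ∧ (p : ℤ) ∣ W.c₄
    · rw [if_pos hadd, if_pos (h1'.mp hadd)]
    · have hadd' : ¬ ((p : ℤ) ∣ W'.Δ ∧ (p : ℤ) ∣ W'.c₄) := fun h => hadd (h1'.mpr h)
      rw [if_neg hadd, if_neg hadd', ap, ap]
      by_cases hd : (p : ℤ) ∣ W.Δ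
      · have hM : IsMultAt W p := ⟨hp, hd, fun hc => hadd ⟨hd, hc⟩, hΔ⟩
        have hM' : IsMultAt W' p := ⟨hp, h2.mp hd, fun hc => hadd' ⟨h2.mp hd, hc⟩, hΔ'⟩
        rw [if_pos hd, if_pos (h2.mp hd), apOfModel_eq_of_mult hinf hM hM']
      · rw [if_neg hd, if_neg fun h => hd (h2.mpr h)]
        exact hisog.apOfModel_eq hΔ hΔ' hp hd fun h => hd (h2.mpr h)
  rw [LFunction_eq' hE hW, LFunction_eq' hE' hW']
  refine congrArg ArithmeticFunction.eulerProduct (funext fun v => ?_)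
  obtain ⟨h1, h2⟩ := key (pr v) (fact_pr v).out
  rw [h2, bE, bE]
  simp only [h1]

/-- Isogenous elliptic curves over `ℚ` have the same `L`-series. -/
theorem LSeries_eq_of_isogeny {E E' : WeierstrassCurve ℚ} [E.IsElliptic] [E'.IsElliptic]
    (φ : Pts E →+ Pts E') (hker : Finite φ.ker)
    (hφ : ∀ (σ : Gam) (x : Pts E), φ (σ • x) = σ • φ x) : E.LSeries = E'.LSeries := by
  funext s
  rw [WeierstrassCurve.LSeries, WeierstrassCurve.LSeries, LFunction_eq_of_isogeny φ hker hφ]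

end Fermat.Agent.Cor.KM
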