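import Fermat.Agent.Corollaries.Mathlib.All

/-!
# Local polynomials from a locally minimal equation over `ℤ`

A Weierstrass equation `V` over `ℤ` such that not both `p¹² ∣ Δ` and `p⁴ ∣ c₄` is minimal over every
copy of `ℤ_p`, and Mathlib's local polynomial of `V` at `p` is `1 - a T + b T²` with
`a = aE V p`, `b = bE V p`.
-/

set_option autoImplicit false

noncomputable section

open WeierstrassCurve IsDedekindDomain.HeightOneSpectrum Polynomial
open IsDiscreteValuationRing (maximalIdeal)
open IsLocalRing (ResidueField residue)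

namespace Fermat.Agent.Cor.KM

open MinModel
open HW (ap)

section Local

variable {R : Type*} [CommRing R] [IsDomain R] [IsDiscreteValuationRing R] {K : Type*}
  [Field K] [Algebra R K] [IsFractionRing R K] {p : ℕ} [hp : Fact p.Prime]
  {V : WeierstrassCurve ℤ}

/-- **A criterion for minimality at `p`.** -/
theorem PadicIso.isMinimal_of_not_dvd (I : PadicIso R K p)
    (hV : ¬ ((p : ℤ) ^ 12 ∣ V.Δ ∧ (p : ℤ) ^ 4 ∣ V.c₄)) : (ov K V).IsMinimal R := by
  have hpR : (1 : ℝ) < p := by exact_mod_cast hp.out.one_lt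
  refine ⟨⟨?_, fun C hC _ => ?_⟩⟩
  · show ((1 : VariableChange K) • ov K V).IsIntegral R
    rw [one_smul]
    infer_instance
  · have hC' : (C • ov K V).IsIntegral R := hC
    have hloc : (ov K V).map (I.φ : K →+* ℚ_[p]) = loc p V := by
      rw [WeierstrassCurve.map_map,
        RingHom.ext_int ((I.φ : K →+* ℚ_[p]).comp (Int.castRingHom K)) (Int.castRingHom ℚ_[p])]
    have hI : Coeffs (PadicInt.subring p) (C.map (I.φ : K →+* ℚ_[p]) • loc p V) := by
      rw [← hloc, map_variableChange]
      have h2 := coeffs_of_isIntegral' hC'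
      constructor
      · exact (I.mem_range_iff _).mp h2.a₁
      · exact (I.mem_range_iff _).mp h2.a₂
      · exact (I.mem_range_iff _).mp h2.a₃
      · exact (I.mem_range_iff _).mp h2.a₄
      · exact (I.mem_range_iff _).mp h2.a₆
    set D : VariableChange ℚ_[p] := C.map (I.φ : K →+* ℚ_[p]) with hD
    have hu : ‖(((D.u)⁻¹ : (ℚ_[p])ˣ) : ℚ_[p])‖ ≤ 1 := by
      by_contra hlt
      push Not at hlt
      apply hV
      have h1 : ‖(D • loc p V).Δ‖ ≤ 1 := hI.Δ
      have h2 : ‖(D • loc p V).c₄‖ ≤ 1 := by
        have h24 : (24 : ℚ_[p]) ∈ PadicInt.subring p := by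
          exact_mod_cast natCast_mem (PadicInt.subring p) 24
        exact sub_mem (pow_mem hI.b₂ 2) (mul_mem h24 hI.b₄)
      rw [variableChange_Δ, norm_mul, norm_pow, map_Δ, eq_intCast] at h1
      rw [variableChange_c₄, norm_mul, norm_pow, map_c₄, eq_intCast] at h2
      rw [Units.val_inv_eq_inv_val, norm_inv] at hlt h1 h2
      have hu0 : 0 < ‖(D.u : ℚ_[p])‖ := norm_pos_iff.mpr D.u.ne_zero
      have hlt' : ‖(D.u : ℚ_[p])‖ < 1 := by
        by_contra h3
        push Not at h3
        exact absurd (inv_le_one_of_one_le₀ h3) (not_le.mpr hlt)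
      have hle : ‖(D.u : ℚ_[p])‖ ≤ (p : ℝ) ^ (-1 : ℤ) := by
        rw [Padic.norm_le_pow_iff_norm_lt_pow_add_one]
        simpa using hlt'
      have key : ∀ (n : ℕ) (x : ℤ), ‖(D.u : ℚ_[p])‖⁻¹ ^ n * ‖(x : ℚ_[p])‖ ≤ 1 →
          (p : ℤ) ^ n ∣ x := by
        intro n x hx
        rw [← Padic.norm_int_le_pow_iff_dvd]
        have h4 : ‖(x : ℚ_[p])‖ ≤ ‖(D.u : ℚ_[p])‖ ^ n := by
          rw [inv_pow, inv_mul_le_iff₀ (pow_pos hu0 n), mul_one] at hx
          exact hx
        refine h4.trans ?_
        calc ‖(D.u : ℚ_[p])‖ ^ n ≤ ((p : ℝ) ^ (-1 : ℤ)) ^ n :=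
              pow_le_pow_left₀ hu0.le hle n
          _ = (p : ℝ) ^ (-n : ℤ) := by
              rw [← zpow_natCast, ← zpow_mul]
              congr 1
              ring
      exact ⟨key 12 _ h1, key 4 _ h2⟩
    have hv : valuation K (maximalIdeal R) (((C.u)⁻¹ : Kˣ) : K) ≤ 1 := by
      apply valuation_le_one_of_mem_range
      rw [I.mem_range_iff]
      have e : I.φ (((C.u)⁻¹ : Kˣ) : K) = (((D.u)⁻¹ : (ℚ_[p])ˣ) : ℚ_[p]) := by
        rw [Units.val_inv_eq_inv_val, Units.val_inv_eq_inv_val, map_inv₀]
        rfl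
      rw [e]
      exact hu
    show valuation_Δ_aux R (C • ov K V) ≤
      valuation_Δ_aux R ((1 : VariableChange K) • ov K V)
    rw [one_smul, ← Subtype.coe_le_coe, valuation_Δ_aux_eq_of_isIntegral,
      valuation_Δ_aux_eq_of_isIntegral, variableChange_Δ, map_mul, map_pow]
    exact mul_le_of_le_one_left' (pow_le_one' hv 12)

/-- **The local polynomial from an equation which is minimal at `p`.** -/
theorem PadicIso.localPolynomial_min (I : PadicIso R K p) (hmin : (ov K V).IsMinimal R)
    (hV : V.Δ ≠ 0) : (ov K V).localPolynomial R =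
      1 - C (aE V p) * X + C (bE V p) * X ^ 2 := by
  have hcast : ∀ m : ℤ, Int.castRingHom K m = (m : K) := fun m => rfl
  have hchar : CharZero K := (I.φ : K →+* ℚ_[p]).charZero
  have hΔK : (ov K V).Δ ≠ 0 := by
    rw [map_Δ, hcast]
    exact_mod_cast hV
  by_cases hd : (p : ℤ) ∣ V.Δ
  · have hv1 : valuation K (maximalIdeal R) (ov K V).Δ < 1 := by
      rw [map_Δ, hcast]
      exact (I.valuation_intCast_lt_iff _).mpr hd
    have hng : ¬ (ov K V).HasGoodReduction R := by
      rw [hasGoodReduction_iff]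
      exact fun h1 => hv1.ne h1.2
    by_cases hc₄ : (p : ℤ) ∣ V.c₄
    · have hv2 : valuation K (maximalIdeal R) (ov K V).c₄ < 1 := by
        rw [map_c₄, hcast]
        exact (I.valuation_intCast_lt_iff _).mpr hc₄
      have hnm : ¬ (ov K V).HasMultiplicativeReduction R := by
        rw [hasMultiplicativeReduction_iff]
        exact fun h1 => hv2.ne h1.2.2
      rw [localPolynomial_eq hΔK, if_neg hng, if_neg fun h1 => hnm (hasSplit_iff.mp h1).1,
        if_neg hnm, aE, if_pos ⟨hd, hc₄⟩, bE, if_pos hd]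
      simp
    · have hv2 : valuation K (maximalIdeal R) (ov K V).c₄ = 1 := by
        rw [map_c₄, hcast]
        exact (I.valuation_intCast_eq_one_iff _).mpr hc₄
      have hm : (ov K V).HasMultiplicativeReduction R := by
        rw [hasMultiplicativeReduction_iff]
        exact ⟨hmin, hv1, hv2⟩
      have hcard : Nat.card ((ov K V).reduction R).toAffine.Point =
          Nat.card (V.reductionMod p).toAffine.Point := by
        rw [reduction_ov]
        exact card_point_map I.res V
      have hap : V.apOfModel p =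
          (p : ℤ) + 1 - (Nat.card (V.reductionMod p).toAffine.Point : ℤ) := by
        rw [WeierstrassCurve.apOfModel, WeierstrassCurve.traceOfFrobenius, Nat.card_zmod]
        rfl
      have hfin : Finite (ResidueField R) := Finite.of_equiv _ I.res.symm.toEquiv
      have hred : ∀ m : ℤ, Int.castRingHom (ResidueField R) m = 0 ↔ (p : ℤ) ∣ m := by
        intro m
        rw [eq_intCast, ← map_eq_zero_iff I.res I.res.injective, map_intCast,
          ZMod.intCast_zmod_eq_zero_iff_dvd]
      have hrΔ : ((ov K V).reduction R).Δ = 0 := by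
        rw [reduction_ov, map_Δ]
        exact (hred _).mpr hd
      have hrc : ((ov K V).reduction R).c₄ ≠ 0 := by
        rw [reduction_ov, map_c₄]
        exact fun h0 => hc₄ ((hred _).mp h0)
      have haE : aE V p = (p : ℤ) + 1 -
          (Nat.card (V.reductionMod p).toAffine.Point : ℤ) - 1 := by
        rw [aE, if_neg fun h => hc₄ h.2, ap, if_pos hd, hap]
      have hbE : bE V p = 0 := by rw [bE, if_pos hd]
      rw [localPolynomial_eq hΔK, if_neg hng, haE, hbE, C_0, zero_mul, add_zero]
      by_cases hsp : (slopePoly ((ov K V).reduction R)).Splits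
      · rw [if_pos (hasSplit_iff.mpr ⟨hm, hsp⟩)]
        have h1 := (HW.splits_iff_card hrΔ hrc).mp hsp
        rw [hcard, I.card_residueField] at h1
        have h2 : (p : ℤ) + 1 - (Nat.card (V.reductionMod p).toAffine.Point : ℤ) - 1 = 1 := by
          omega
        rw [h2, C_1, one_mul]
      · rw [if_neg (fun h0 => hsp (hasSplit_iff.mp h0).2), if_pos hm]
        have h1 := (HW.not_splits_iff_card hrΔ hrc).mp hsp
        rw [hcard, I.card_residueField] at h1
        have h2 : (p : ℤ) + 1 - (Nat.card (V.reductionMod p).toAffine.Point : ℤ) - 1 = -1 := by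
          omega
        rw [h2, C_neg, C_1]
        ring
  · rw [I.localPolynomial_ov_good hd, aE, if_neg fun h => hd h.1, ap, if_neg hd, bE, if_neg hd]

end Local

end Fermat.Agent.Cor.KM
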