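import Fermat.Agent.Corollaries.MinModel
import Fermat.Agent.S41.VarChange

/-!
# The local polynomial of a minimal Weierstrass equation

Mathlib defines `WeierstrassCurve.localPolynomial R W` by means of a chosen minimal equation
`W.minimal R`.  Here we show that any minimal equation gives the same polynomial.
-/

set_option autoImplicit false
set_option linter.unusedSectionVars false

noncomputable section

open WeierstrassCurve IsDedekindDomain.HeightOneSpectrum Polynomial
open IsDiscreteValuationRing (maximalIdeal exists_lift_of_le_one)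
open IsLocalRing (ResidueField residue)

namespace Fermat.Agent.Cor.KM

open MinModel

variable {R : Type*} [CommRing R] [IsDomain R] [IsDiscreteValuationRing R] {K : Type*}
  [Field K] [Algebra R K] [IsFractionRing R K]

theorem mem_range_or_inv (x : K) :
    x ∈ (algebraMap R K).range ∨ x⁻¹ ∈ (algebraMap R K).range :=
  ValuationRing.isInteger_or_isInteger R x

theorem mem_range_of_valuation_le {x : K} (h : valuation K (maximalIdeal R) x ≤ 1) :
    x ∈ (algebraMap R K).range := by
  obtain ⟨a, rfl⟩ := exists_lift_of_le_one h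
  exact ⟨a, rfl⟩

theorem valuation_le_one_of_mem_range {x : K} (h : x ∈ (algebraMap R K).range) :
    valuation K (maximalIdeal R) x ≤ 1 := by
  obtain ⟨a, rfl⟩ := h
  exact valuation_le_one _ a

theorem coeffs_of_isIntegral' {F : WeierstrassCurve K} (h : F.IsIntegral R) :
    Coeffs (algebraMap R K).range F := by
  obtain ⟨F₀, rfl⟩ := h.integral
  constructor
  · exact ⟨F₀.a₁, rfl⟩
  · exact ⟨F₀.a₂, rfl⟩
  · exact ⟨F₀.a₃, rfl⟩
  · exact ⟨F₀.a₄, rfl⟩
  · exact ⟨F₀.a₆, rfl⟩

variable {W : WeierstrassCurve K}

section First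

variable {C : VariableChange K}

/-- the change of variables from a minimal equation to an integral one has `v(u⁻¹) ≤ 1`. -/
theorem valuation_inv_u_le_of_isMinimal [hW : W.IsMinimal R] (hΔ : W.Δ ≠ 0)
    (hC : (C • W).IsIntegral R) :
    valuation K (maximalIdeal R) (((C.u)⁻¹ : Kˣ) : K) ≤ 1 := by
  have h1 := hW.val_Δ_maximal.2 hC
  simp only [one_smul] at h1
  have h2 : valuation_Δ_aux R (C • W) ≤ valuation_Δ_aux R W := by
    rcases le_total (valuation_Δ_aux R W) (valuation_Δ_aux R (C • W)) with h | h
    · exact h1 h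
    · exact h
  rw [← Subtype.coe_le_coe, valuation_Δ_aux_eq_of_isIntegral, valuation_Δ_aux_eq_of_isIntegral,
    variableChange_Δ, map_mul, map_pow] at h2
  have h3 : valuation K (maximalIdeal R) W.Δ ≠ 0 := (Valuation.ne_zero_iff _).mpr hΔ
  have h4 : valuation K (maximalIdeal R) (((C.u)⁻¹ : Kˣ) : K) ^ 12 ≤ 1 := by
    by_contra hlt
    push Not at hlt
    have h5 : 1 * valuation K (maximalIdeal R) W.Δ <
        valuation K (maximalIdeal R) (((C.u)⁻¹ : Kˣ) : K) ^ 12 *
          valuation K (maximalIdeal R) W.Δ :=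
      mul_lt_mul_of_pos_right hlt (zero_lt_iff.mpr h3)
    rw [one_mul] at h5
    exact absurd h2 (not_le.mpr h5)
  exact (pow_le_one_iff (by norm_num)).mp h4

/-- **Two minimal equations differ by an integral change of variables.** -/
theorem exists_change [hW : W.IsMinimal R] [hCW : (C • W).IsMinimal R] (hΔ : W.Δ ≠ 0) :
    ∃ D : VariableChange R, D.map (algebraMap R K) = C := by
  have hΔ' : (C • W).Δ ≠ 0 := by
    rw [variableChange_Δ]
    exact mul_ne_zero (pow_ne_zero _ (Units.ne_zero _)) hΔ
  have hu1 : valuation K (maximalIdeal R) (((C.u)⁻¹ : Kˣ) : K) ≤ 1 :=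
    valuation_inv_u_le_of_isMinimal hΔ inferInstance
  have hinv : C⁻¹ • (C • W) = W := by rw [← mul_smul, inv_mul_cancel, one_smul]
  have hu2 : valuation K (maximalIdeal R) ((C.u : Kˣ) : K) ≤ 1 := by
    have h1 := valuation_inv_u_le_of_isMinimal (R := R) (W := C • W) (C := C⁻¹) hΔ'
      (by rw [hinv]; infer_instance)
    have h2 : (C⁻¹).u⁻¹ = C.u := by
      rw [VariableChange.inv_def, inv_inv]
    rwa [h2] at h1
  obtain ⟨a, ha⟩ := mem_range_of_valuation_le hu2
  obtain ⟨b, hb⟩ := mem_range_of_valuation_le hu1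
  obtain ⟨⟨r, hr⟩, ⟨s, hs⟩, ⟨t, ht⟩⟩ := rst_mem (A := (algebraMap R K).range) mem_range_or_inv
    (coeffs_of_isIntegral' (R := R) (F := W) inferInstance)
    (coeffs_of_isIntegral' (R := R) (F := C • W) inferInstance) (mem_range_of_valuation_le hu2)
  have hab : a * b = 1 := by
    apply IsFractionRing.injective R K
    rw [map_mul, ha, hb, map_one, Units.mul_inv]
  refine ⟨⟨⟨a, b, hab, by rw [mul_comm]; exact hab⟩, r, s, t⟩, ?_⟩
  ext
  · exact ha
  · exact hr
  · exact hs
  · exact ht

end First

theorem map_integralModel [W.IsIntegral R] :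
    (W.integralModel R).map (algebraMap R K) = W := baseChange_integralModel_eq R W

/-- the integral models. -/
theorem integralModel_smul [W.IsIntegral R] {D : VariableChange R}
    [(D.map (algebraMap R K) • W).IsIntegral R] :
    (D.map (algebraMap R K) • W).integralModel R = D • W.integralModel R := by
  apply WeierstrassCurve.map_injective (IsFractionRing.injective R K)
  show ((D.map (algebraMap R K) • W).integralModel R).map (algebraMap R K) =
    (D • W.integralModel R).map (algebraMap R K)
  rw [map_integralModel, ← map_variableChange, map_integralModel]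

theorem reduction_smul [W.IsMinimal R] {D : VariableChange R}
    [(D.map (algebraMap R K) • W).IsMinimal R] :
    (D.map (algebraMap R K) • W).reduction R = D.map (residue R) • W.reduction R := by
  rw [reduction, reduction, integralModel_smul, ← map_variableChange]

/-! ### Invariance of the data -/

section Change

variable [hW : W.IsMinimal R] {D : VariableChange R}
  [hDW : (D.map (algebraMap R K) • W).IsMinimal R]

theorem valuation_unit : valuation K (maximalIdeal R)
    ((((D.map (algebraMap R K)).u)⁻¹ : Kˣ) : K) = 1 := by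
  have h1 : valuation K (maximalIdeal R) ((((D.map (algebraMap R K)).u)⁻¹ : Kˣ) : K) ≤ 1 :=
    valuation_le_one_of_mem_range ⟨((D.u⁻¹ : Rˣ) : R), rfl⟩
  have h2 : valuation K (maximalIdeal R) (((D.map (algebraMap R K)).u : Kˣ) : K) ≤ 1 :=
    valuation_le_one_of_mem_range ⟨((D.u : Rˣ) : R), rfl⟩
  refine le_antisymm h1 ?_
  have h3 : valuation K (maximalIdeal R) ((((D.map (algebraMap R K)).u)⁻¹ : Kˣ) : K) *
      valuation K (maximalIdeal R) (((D.map (algebraMap R K)).u : Kˣ) : K) = 1 := by
    rw [← map_mul, Units.inv_mul, map_one]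
  calc (1 : WithZero (Multiplicative ℤ)) = _ := h3.symm
    _ ≤ valuation K (maximalIdeal R) ((((D.map (algebraMap R K)).u)⁻¹ : Kˣ) : K) * 1 :=
      mul_le_mul_right h2 _
    _ = _ := mul_one _

theorem valuation_Δ_smul : valuation K (maximalIdeal R) (D.map (algebraMap R K) • W).Δ =
    valuation K (maximalIdeal R) W.Δ := by
  rw [variableChange_Δ, map_mul, map_pow, valuation_unit, one_pow, one_mul]

theorem valuation_c₄_smul : valuation K (maximalIdeal R) (D.map (algebraMap R K) • W).c₄ =
    valuation K (maximalIdeal R) W.c₄ := by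
  rw [variableChange_c₄, map_mul, map_pow, valuation_unit, one_pow, one_mul]

theorem hasGoodReduction_smul_iff : (D.map (algebraMap R K) • W).HasGoodReduction R ↔
    W.HasGoodReduction R := by
  rw [hasGoodReduction_iff, hasGoodReduction_iff, valuation_Δ_smul]
  exact ⟨fun h => ⟨hW, h.2⟩, fun h => ⟨hDW, h.2⟩⟩

theorem hasMultiplicativeReduction_smul_iff :
    (D.map (algebraMap R K) • W).HasMultiplicativeReduction R ↔
      W.HasMultiplicativeReduction R := by
  rw [hasMultiplicativeReduction_iff, hasMultiplicativeReduction_iff, valuation_Δ_smul,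
    valuation_c₄_smul]
  exact ⟨fun h => ⟨hW, h.2⟩, fun h => ⟨hDW, h.2⟩⟩

end Change

/-- The polynomial of the slopes at the node. -/
def slopePoly {A : Type*} [CommRing A] (I : WeierstrassCurve A) : A[X] :=
  C I.c₄ * X ^ 2 + C (I.a₁ * I.c₄) * X - C (54 * I.b₆ - 3 * I.b₂ * I.b₄ + I.a₂ * I.c₄)

theorem slopePoly_map {A B : Type*} [CommRing A] [CommRing B] (I : WeierstrassCurve A)
    (φ : A →+* B) : (slopePoly I).map φ = slopePoly (I.map φ) := by
  have h54 : φ (54 : A) = 54 := map_ofNat φ 54
  have h3 : φ (3 : A) = 3 := map_ofNat φ 3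
  rw [slopePoly, slopePoly]
  simp only [Polynomial.map_sub, Polynomial.map_add, Polynomial.map_mul, Polynomial.map_pow,
    map_C, map_X, map_mul, map_sub, map_add, WeierstrassCurve.map_c₄, WeierstrassCurve.map_a₁,
    WeierstrassCurve.map_a₂, WeierstrassCurve.map_b₂, WeierstrassCurve.map_b₄,
    WeierstrassCurve.map_b₆, h54, h3]

theorem slopePoly_smul {k : Type*} [Field k] (I : WeierstrassCurve k) (D : VariableChange k) :
    slopePoly (D • I) = C (((D.u⁻¹ : kˣ) : k) ^ 6) *
      (slopePoly I).comp (C (D.u : k) * X + C D.s) := by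
  have hu : ((D.u⁻¹ : kˣ) : k) * (D.u : k) = 1 := Units.inv_mul _
  set w : k := ((D.u⁻¹ : kˣ) : k) with hw
  have e1 : (D • I).c₄ = w ^ 6 * (I.c₄ * (D.u : k) ^ 2) := by
    rw [variableChange_c₄]
    linear_combination (-(w ^ 4 * I.c₄) * (w * D.u + 1)) * hu
  have e2 : (D • I).a₁ * (D • I).c₄ =
      w ^ 6 * (2 * (D.u : k) * D.s * I.c₄ + I.a₁ * I.c₄ * D.u) := by
    rw [variableChange_a₁, variableChange_c₄]
    linear_combination (-(w ^ 5 * I.c₄) * (I.a₁ + 2 * D.s)) * hu
  have e3 : 54 * (D • I).b₆ - 3 * (D • I).b₂ * (D • I).b₄ + (D • I).a₂ * (D • I).c₄ =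
      w ^ 6 * ((54 * I.b₆ - 3 * I.b₂ * I.b₄ + I.a₂ * I.c₄) - I.c₄ * D.s ^ 2 -
        I.a₁ * I.c₄ * D.s) := by
    rw [variableChange_b₆, variableChange_b₂, variableChange_b₄, variableChange_a₂,
      variableChange_c₄]
    simp only [c₄]
    ring
  rw [slopePoly, slopePoly, e3, e2, e1]
  simp only [sub_comp, add_comp, mul_comp, C_comp, pow_comp, X_comp]
  have h2 : (C (2 : k) : k[X]) = 2 := map_ofNat C 2
  simp only [C_mul, C_sub, C_add, C_pow, h2]
  ring

theorem splits_slopePoly_smul {k : Type*} [Field k] (I : WeierstrassCurve k)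
    (D : VariableChange k) : (slopePoly (D • I)).Splits ↔ (slopePoly I).Splits := by
  have key : ∀ (I : WeierstrassCurve k) (D : VariableChange k), (slopePoly I).Splits →
      (slopePoly (D • I)).Splits := by
    intro I D h
    rw [slopePoly_smul]
    refine Splits.C_mul ?_ _
    have := invertibleOfNonzero (D.u.ne_zero : (D.u : k) ≠ 0)
    have hlc : (C (D.u : k) * X + C D.s).leadingCoeff = (D.u : k) := by
      rw [leadingCoeff_linear D.u.ne_zero]
    have hi : Invertible (C (D.u : k) * X + C D.s).leadingCoeff := by rwa [hlc]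
    exact h.comp_of_natDegree_le_one_of_invertible natDegree_linear_le hi
  refine ⟨fun h => ?_, key I D⟩
  have h1 := key (D • I) D⁻¹ h
  rwa [← mul_smul, inv_mul_cancel, one_smul] at h1

theorem hasSplit_iff [hW : W.IsMinimal R] : W.HasSplitMultiplicativeReduction R ↔
    W.HasMultiplicativeReduction R ∧ (slopePoly (W.reduction R)).Splits := by
  rw [hasSplitMultiplicativeReduction_iff]
  constructor
  · rintro ⟨h1, h2⟩
    refine ⟨h1, ?_⟩
    rw [reduction, ← slopePoly_map]
    exact h2
  · rintro ⟨h1, h2⟩
    refine ⟨h1, ?_⟩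
    rw [reduction, ← slopePoly_map] at h2
    exact h2

theorem hasSplit_smul_iff [hW : W.IsMinimal R] {D : VariableChange R}
    [hDW : (D.map (algebraMap R K) • W).IsMinimal R] :
    (D.map (algebraMap R K) • W).HasSplitMultiplicativeReduction R ↔
      W.HasSplitMultiplicativeReduction R := by
  rw [hasSplit_iff, hasSplit_iff, hasMultiplicativeReduction_smul_iff, reduction_smul,
    splits_slopePoly_smul]

theorem card_point_smul {k : Type*} [Field k] (I : WeierstrassCurve k) (D : VariableChange k)
    (hΔ : I.Δ ≠ 0) : Nat.card (D • I).toAffine.Point = Nat.card I.toAffine.Point := by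
  classical
  obtain ⟨e, -⟩ := S41vc.exists_equiv I D hΔ rfl
  exact Nat.card_congr e.toEquiv

open Classical in
/-- **The local polynomial from any minimal equation.** -/
theorem localPolynomial_eq [hW : W.IsMinimal R] (hΔ : W.Δ ≠ 0) :
    W.localPolynomial R =
      if W.HasGoodReduction R then
        1 - C ((Nat.card (ResidueField R) : ℤ) + 1 - Nat.card (W.reduction R).toAffine.Point) * X
          + C (Nat.card (ResidueField R) : ℤ) * X ^ 2
      else if W.HasSplitMultiplicativeReduction R then 1 - X
      else if W.HasMultiplicativeReduction R then 1 + X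
      else 1 := by
  set C₀ := (W.exists_isMinimal R).choose with hC₀
  have hmin : W.minimal R = C₀ • W := rfl
  have hCm : (C₀ • W).IsMinimal R := (W.exists_isMinimal R).choose_spec
  obtain ⟨D, hD⟩ := exists_change (R := R) (W := W) (C := C₀) hΔ
  rw [← hD] at hCm hmin
  rw [localPolynomial]
  simp only [hmin]
  by_cases hg : W.HasGoodReduction R
  · have hg' : (D.map (algebraMap R K) • W).HasGoodReduction R :=
      hasGoodReduction_smul_iff.mpr hg
    rw [if_pos hg', if_pos hg]
    have hne : (W.reduction R).Δ ≠ 0 :=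
      ((hasGoodReduction_iff_isElliptic_reduction R).mp hg).isUnit.ne_zero
    have e : Nat.card ((D.map (algebraMap R K) • W).reduction R).toAffine.Point =
        Nat.card (W.reduction R).toAffine.Point := by
      rw [reduction_smul]
      exact card_point_smul _ _ hne
    rw [e]
  · have hg' : ¬ (D.map (algebraMap R K) • W).HasGoodReduction R := fun h =>
      hg (hasGoodReduction_smul_iff.mp h)
    rw [if_neg hg', if_neg hg]
    simp only [hasSplit_smul_iff, hasMultiplicativeReduction_smul_iff]

end Fermat.Agent.Cor.KM
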