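import Fermat.Agent.Corollaries.Mathlib.LFun
import Fermat.Agent.Corollaries.HW.StrongMultAp

/-!
# Modularity and the Hasse-Weil conjecture for Mathlib's `L`-function

`E : WeierstrassCurve ℚ` is an elliptic curve which has additive reduction at no prime
(`Semistable E`).  Its conductor `N` is the product of the primes of bad reduction.

* `existsUnique_newform`: there is exactly one newform `f` of level `N` such that the coefficients
  of Mathlib's `L`-function `E.LFunction` are the coefficients of `f`;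
* `hasseWeil`: Mathlib's `L`-series `E.LSeries` converges absolutely for `re s > 3/2` and continues
  to an entire function, with the functional equation `Λ(2 - s) = w Λ(s)`;
* `LFunction_eq_of_eventually`: strong multiplicity one.
-/

set_option autoImplicit false

noncomputable section

open WeierstrassCurve IsDedekindDomain NumberField
open CongruenceSubgroup ModularFormClass
open UpperHalfPlane hiding I

namespace Fermat.Agent.Cor.KM

open MinModel
open HW (ap)

variable {W : WeierstrassCurve ℤ} {E : WeierstrassCurve ℚ}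

/-! ### The primes of bad reduction -/

section Bad

variable {p : ℕ} [hp : Fact p.Prime]

/-- `ℤ_p ⊆ ℚ_p` itself. -/
def idIso (p : ℕ) [Fact p.Prime] : PadicIso ℤ_[p] ℚ_[p] p where
  φ := RingEquiv.refl _
  e := RingEquiv.refl _
  comm _ := rfl

/-- The minimal equation at `p` and the global one differ by an integral change of variables. -/
theorem exists_change_minAt (hE : E.Δ ≠ 0) (h : IsDiscMinimal W E) :
    ∃ D : VariableChange ℤ_[p], D.map (algebraMap ℤ_[p] ℚ_[p]) • loc p W = minAt E p := by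
  have hmin : (loc p W).IsMinimal ℤ_[p] := h.isMinimal hE
  obtain ⟨C, hC⟩ := exists_smul_loc (p := p) h.1
  have hmin' : (C • loc p W).IsMinimal ℤ_[p] := by
    rw [hC]
    infer_instance
  have hΔ : (loc p W).Δ ≠ 0 := by
    rw [map_Δ, eq_intCast]
    exact_mod_cast Δ_ne_zero_of_model hE h.1
  obtain ⟨D, hD⟩ := exists_change (R := ℤ_[p]) (C := C) hΔ
  exact ⟨D, by rw [hD, hC]⟩

theorem hasGoodReduction_minAt_iff (hE : E.Δ ≠ 0) (h : IsDiscMinimal W E) :
    (minAt E p).HasGoodReduction ℤ_[p] ↔ ¬ (p : ℤ) ∣ W.Δ := by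
  have hmin : (loc p W).IsMinimal ℤ_[p] := h.isMinimal hE
  obtain ⟨D, hD⟩ := exists_change_minAt (p := p) hE h
  have hmin' : (D.map (algebraMap ℤ_[p] ℚ_[p]) • loc p W).IsMinimal ℤ_[p] := by
    rw [hD]
    infer_instance
  rw [← hD, hasGoodReduction_smul_iff, hasGoodReduction_iff, map_Δ]
  exact ⟨fun h1 => ((idIso p).valuation_intCast_eq_one_iff _).mp h1.2,
    fun h1 => ⟨hmin, ((idIso p).valuation_intCast_eq_one_iff _).mpr h1⟩⟩

theorem hasSplit_minAt_iff (hE : E.Δ ≠ 0) (h : IsDiscMinimal W E) (hs : W.IsSemistableModel) :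
    (minAt E p).HasSplitMultiplicativeReduction ℤ_[p] ↔ (p : ℤ) ∣ W.Δ ∧ ap W p = 1 := by
  have hmin : (loc p W).IsMinimal ℤ_[p] := h.isMinimal hE
  obtain ⟨D, hD⟩ := exists_change_minAt (p := p) hE h
  have hmin' : (D.map (algebraMap ℤ_[p] ℚ_[p]) • loc p W).IsMinimal ℤ_[p] := by
    rw [hD]
    infer_instance
  rw [← hD, hasSplit_smul_iff, hasSplit_iff, hasMultiplicativeReduction_iff]
  have hred : (loc p W).reduction ℤ_[p] = W.map (Int.castRingHom (IsLocalRing.ResidueField ℤ_[p])) :=
    reduction_ov W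
  have hcard : Nat.card ((loc p W).reduction ℤ_[p]).toAffine.Point =
      Nat.card (W.reductionMod p).toAffine.Point := by
    rw [hred]
    exact card_point_map (idIso p).res W
  have hap : W.apOfModel p = (p : ℤ) + 1 - (Nat.card (W.reductionMod p).toAffine.Point : ℤ) := by
    rw [WeierstrassCurve.apOfModel, WeierstrassCurve.traceOfFrobenius, Nat.card_zmod]
    rfl
  have hfin : Finite (IsLocalRing.ResidueField ℤ_[p]) :=
    Finite.of_equiv _ (idIso p).res.symm.toEquiv
  have hz : ∀ m : ℤ, Int.castRingHom (IsLocalRing.ResidueField ℤ_[p]) m = 0 ↔ (p : ℤ) ∣ m := by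
    intro m
    rw [eq_intCast, ← map_eq_zero_iff (idIso p).res (idIso p).res.injective, map_intCast,
      ZMod.intCast_zmod_eq_zero_iff_dvd]
  have key : (p : ℤ) ∣ W.Δ → ((slopePoly ((loc p W).reduction ℤ_[p])).Splits ↔ ap W p = 1) := by
    intro hd
    have hrΔ : ((loc p W).reduction ℤ_[p]).Δ = 0 := by
      rw [hred, map_Δ]
      exact (hz _).mpr hd
    have hrc : ((loc p W).reduction ℤ_[p]).c₄ ≠ 0 := by
      rw [hred, map_c₄]
      exact fun h0 => hs p hp.out hd ((hz _).mp h0)
    rw [ap, if_pos hd, hap]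
    refine (HW.splits_iff_card hrΔ hrc).trans ?_
    rw [hcard, (idIso p).card_residueField]
    omega
  constructor
  · rintro ⟨⟨-, h1, -⟩, h2⟩
    rw [map_Δ] at h1
    have hd := ((idIso p).valuation_intCast_lt_iff _).mp h1
    exact ⟨hd, (key hd).mp h2⟩
  · rintro ⟨hd, h1⟩
    refine ⟨⟨hmin, ?_, ?_⟩, (key hd).mpr h1⟩
    · rw [map_Δ]
      exact ((idIso p).valuation_intCast_lt_iff _).mpr hd
    · rw [map_c₄]
      exact ((idIso p).valuation_intCast_eq_one_iff _).mpr (hs p hp.out hd)

end Bad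

/-- `N` is the conductor of the semistable curve `E`: it is squarefree and its prime divisors are
the primes of bad reduction. -/
structure IsConductor (E : WeierstrassCurve ℚ) (N : ℕ) : Prop where
  squarefree : Squarefree N
  dvd_iff : ∀ (p : ℕ) [Fact p.Prime], p ∣ N ↔ ¬ (minAt E p).HasGoodReduction ℤ_[p]

theorem isConductor_conductorLevel (hE : E.Δ ≠ 0) (h : IsDiscMinimal W E) :
    IsConductor E W.conductorLevel := by
  refine ⟨W.squarefree_conductorLevel, fun p hp => ?_⟩
  rw [hasGoodReduction_minAt_iff hE h, not_not,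
    W.prime_dvd_conductorLevel_iff (Δ_ne_zero_of_model hE h.1) hp.out]

theorem IsConductor.eq {N M : ℕ} (hN : IsConductor E N) (hM : IsConductor E M) : N = M :=
  (Nat.Squarefree.ext_iff hN.squarefree hM.squarefree).mpr fun p hp => by
    have : Fact p.Prime := ⟨hp⟩
    rw [hN.dvd_iff, hM.dvd_iff]

/-- every elliptic curve over `ℚ` has exactly one such number. -/
theorem existsUnique_isConductor (E : WeierstrassCurve ℚ) [E.IsElliptic] :
    ∃! N, IsConductor E N := by
  obtain ⟨W, hW⟩ := exists_isDiscMinimal E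
  exact ⟨_, isConductor_conductorLevel E.isUnit_Δ.ne_zero hW,
    fun M hM => hM.eq (isConductor_conductorLevel E.isUnit_Δ.ne_zero hW)⟩

/-! ### The main theorems -/

section Main

variable (E) [E.IsElliptic] (h : Semistable E)

include h

/-- **Modularity**: the coefficients of Mathlib's `L`-function of a semistable elliptic curve over
`ℚ` are the coefficients of exactly one newform of weight two of level the conductor. -/
theorem existsUnique_newform {N : ℕ} (hN : IsConductor E N) :
    ∃! f : CuspForm (Gamma0 N) 2, f.IsNewform ∧ ∀ n : ℕ, (E.LFunction n : ℂ) = qCoeff f n := by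
  have hE : E.Δ ≠ 0 := E.isUnit_Δ.ne_zero
  obtain ⟨W, hW⟩ := exists_isDiscMinimal E
  have hs := isSemistableModel hE hW h
  have hΔ := Δ_ne_zero_of_model hE hW.1
  obtain rfl := hN.eq (isConductor_conductorLevel hE hW)
  obtain ⟨f, ⟨hf, ha⟩, huniq⟩ := HW.existsUnique_newform_ap hΔ hs
  refine ⟨f, ⟨hf, LFunction_eq_qCoeff hE hW hs hf.1 ha⟩, fun g hg => huniq g ⟨hg.1, fun p hp => ?_⟩⟩
  rw [← hg.2 p, LFunction_prime hE hW hs hp]

/-- **The Hasse-Weil conjecture** for Mathlib's `L`-series of a semistable elliptic curve over `ℚ`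
of conductor `N`: the series converges absolutely for `re s > 3/2` and continues to an entire
function `L` without zeros in `re s > 3/2`; the completed `L`-function
`Λ(s) = N^(s/2) (2π)^(-s) Γ(s) L(s)` is entire with `Λ(2 - s) = w Λ(s)`, and `w = (-1)^r`, `r` the
order of vanishing at `s = 1`, is `1` iff the number of primes of split multiplicative reduction is
odd. -/
theorem hasseWeil {N : ℕ} (hN : IsConductor E N) :
    ∃ (L Λ : ℂ → ℂ) (w : ℤ), Differentiable ℂ L ∧ Differentiable ℂ Λ ∧
      (∀ s : ℂ, 3 / 2 < s.re → LSeriesSummable (fun n => (E.LFunction n : ℂ)) s ∧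
        E.LSeries s = L s ∧ L s ≠ 0) ∧
      (∀ s : ℂ, 0 < s.re → Λ s = (N : ℂ) ^ (s / 2) *
        ((2 * (Real.pi : ℂ)) ^ (-s) * Complex.Gamma s * L s)) ∧
      (∀ s : ℂ, Λ (2 - s) = w * Λ s) ∧ w = (-1) ^ analyticOrderNatAt L 1 ∧
      (w = 1 ↔ Odd {p : ℕ | ∃ _ : Fact p.Prime,
        (minAt E p).HasSplitMultiplicativeReduction ℤ_[p]}.ncard) := by
  have hE : E.Δ ≠ 0 := E.isUnit_Δ.ne_zero
  obtain ⟨W, hW⟩ := exists_isDiscMinimal E
  have hs := isSemistableModel hE hW h
  have hΔ := Δ_ne_zero_of_model hE hW.1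
  obtain rfl := hN.eq (isConductor_conductorLevel hE hW)
  obtain ⟨f, ⟨hf, ha⟩, -⟩ := HW.existsUnique_newform_ap hΔ hs
  have hH := HW.isHasse hΔ hf ha
  have hcoe : (fun n => (E.LFunction n : ℂ)) = qCoeff f :=
    funext fun n => LFunction_eq_qCoeff hE hW hs hf.1 ha n
  have hLS : ∀ s, E.LSeries s = LSeries (qCoeff f) s := fun s => by
    rw [← hcoe]
    rfl
  refine ⟨ModularForm.L two_pos f, HW.LamN f, HW.rootNumber W,
    CuspForm.differentiable_L two_pos f, HW.differentiable_LamN f, fun s hs2 => ⟨?_, ?_, ?_⟩,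
    fun s hs2 => HW.LamN_eq_L f hs2, HW.functional_equation hΔ hf ha,
    HW.rootNumber_eq_neg_one_pow hΔ hf ha, ?_⟩
  · rw [hcoe]
    exact HW.lseriesSummable_of_hasse hf.1 hH hs2
  · rw [hLS]
    exact HW.lseries_eq_of_hasse hf.1 hH hs2
  · exact HW.L_ne_zero_of_hasse hf.1 hH hs2
  · have hset : {p : ℕ | ∃ _ : Fact p.Prime,
        (minAt E p).HasSplitMultiplicativeReduction ℤ_[p]} = (HW.splitPrimes W : Set ℕ) := by
      ext p
      rw [Set.mem_ofPred_eq, Finset.mem_coe, HW.mem_splitPrimes hΔ]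
      constructor
      · rintro ⟨hp, h1⟩
        exact ⟨hp.out, (hasSplit_minAt_iff hE hW hs).mp h1⟩
      · rintro ⟨hp, h1⟩
        have : Fact p.Prime := ⟨hp⟩
        exact ⟨this, (hasSplit_minAt_iff hE hW hs).mpr h1⟩
    rw [hset, Set.ncard_coe_finset]
    exact HW.rootNumber_eq_one_iff (HW.ap_eq_one_or hΔ hs)

/-- **The Hasse bound** for all coefficients of Mathlib's `L`-function. -/
theorem abs_LFunction_le (n : ℕ) : |(E.LFunction n : ℝ)| ≤ n.divisors.card * √n := by
  have hE : E.Δ ≠ 0 := E.isUnit_Δ.ne_zero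
  obtain ⟨W, hW⟩ := exists_isDiscMinimal E
  have hs := isSemistableModel hE hW h
  have hΔ := Δ_ne_zero_of_model hE hW.1
  obtain ⟨f, ⟨hf, ha⟩, -⟩ := HW.existsUnique_newform_ap hΔ hs
  have h1 := HW.norm_qCoeff_le hf.1 (HW.isHasse hΔ hf ha) n
  rw [← LFunction_eq_qCoeff hE hW hs hf.1 ha n, Complex.norm_intCast] at h1
  exact h1

/-- **Strong multiplicity one**: if the `L`-functions of two semistable elliptic curves over `ℚ`
have the same coefficients at almost all primes, then they are equal. -/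
theorem LFunction_eq_of_eventually (E' : WeierstrassCurve ℚ) [E'.IsElliptic]
    (h' : Semistable E') (S : Finset ℕ)
    (heq : ∀ p : ℕ, p.Prime → p ∉ S → E.LFunction p = E'.LFunction p) :
    E.LFunction = E'.LFunction := by
  have hE : E.Δ ≠ 0 := E.isUnit_Δ.ne_zero
  have hE' : E'.Δ ≠ 0 := E'.isUnit_Δ.ne_zero
  obtain ⟨W, hW⟩ := exists_isDiscMinimal E
  obtain ⟨W', hW'⟩ := exists_isDiscMinimal E'
  have hs := isSemistableModel hE hW h
  have hs' := isSemistableModel hE' hW' h'
  have hΔ := Δ_ne_zero_of_model hE hW.1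
  have hΔ' := Δ_ne_zero_of_model hE' hW'.1
  obtain ⟨hc, h2⟩ := HW.ap_eq_of_almost_all' hΔ hs hΔ' hs' S fun p hp hpS => by
    rw [← LFunction_prime hE hW hs hp, ← LFunction_prime hE' hW' hs' hp]
    exact heq p hp hpS
  rw [LFunction_eq hE hW hs, LFunction_eq hE' hW' hs']
  refine congrArg ArithmeticFunction.eulerProduct (funext fun v => ?_)
  have h3 : ((pr v : ℕ) : ℤ) ∣ W.Δ ↔ ((pr v : ℕ) : ℤ) ∣ W'.Δ := by
    rw [← W.prime_dvd_conductorLevel_iff hΔ (fact_pr v).out,
      ← W'.prime_dvd_conductorLevel_iff hΔ' (fact_pr v).out, hc]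
  rw [h2 (pr v) (fact_pr v).out]
  simp only [h3]

end Main

end Fermat.Agent.Cor.KM
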