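import Fermat.Agent.Corollaries.Mathlib.Main

/-!
# Semistable models and Mathlib's reduction types

* `isMinimal_of_isSemistableModel`: an equation over `ℤ` with `gcd(Δ, c₄) = 1` is minimal over
  `ℤ_p` for every prime `p`;
* `semistable_iff`: an elliptic curve over `ℚ` has additive reduction at no prime if and only if it
  has an equation over `ℤ` such that no prime divides both `Δ` and `c₄`.
-/

set_option autoImplicit false

noncomputable section

open WeierstrassCurve IsDedekindDomain.HeightOneSpectrum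
open IsDiscreteValuationRing (maximalIdeal)

namespace Fermat.Agent.Cor.KM

open MinModel
open HW (ap)

section Additive

variable {R : Type*} [CommRing R] [IsDomain R] [IsDiscreteValuationRing R] {K : Type*}
  [Field K] [Algebra R K] [IsFractionRing R K]

theorem hasAdditiveReduction_smul_iff {M : WeierstrassCurve K} [hM : M.IsMinimal R]
    {D : VariableChange R} [hDM : (D.map (algebraMap R K) • M).IsMinimal R] :
    (D.map (algebraMap R K) • M).HasAdditiveReduction R ↔ M.HasAdditiveReduction R := by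
  rw [hasAdditiveReduction_iff, hasAdditiveReduction_iff, valuation_Δ_smul, valuation_c₄_smul]
  exact ⟨fun h => ⟨hM, h.2⟩, fun h => ⟨hDM, h.2⟩⟩

end Additive

variable {W : WeierstrassCurve ℤ} {E : WeierstrassCurve ℚ}

section Local

variable {p : ℕ} [hp : Fact p.Prime]

/-- **A semistable equation is minimal at every prime.** -/
theorem isMinimal_of_isSemistableModel (hW : W.IsSemistableModel) :
    (loc p W).IsMinimal ℤ_[p] := by
  refine ⟨⟨?_, fun C hC _ => ?_⟩⟩
  · show ((1 : VariableChange ℚ_[p]) • loc p W).IsIntegral ℤ_[p]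
    rw [one_smul]
    infer_instance
  · have hC' : (C • loc p W).IsIntegral ℤ_[p] := hC
    have hI := coeffs_of_isIntegral hC'
    have hu : ‖(((C.u)⁻¹ : (ℚ_[p])ˣ) : ℚ_[p])‖ ≤ 1 := by
      by_contra hlt
      push Not at hlt
      have h1 : ‖(C • loc p W).Δ‖ ≤ 1 := hI.Δ
      have h2 : ‖(C • loc p W).c₄‖ ≤ 1 := by
        have h24 : (24 : ℚ_[p]) ∈ PadicInt.subring p := by
          exact_mod_cast natCast_mem (PadicInt.subring p) 24
        exact sub_mem (pow_mem hI.b₂ 2) (mul_mem h24 hI.b₄)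
      rw [variableChange_Δ, norm_mul, norm_pow, map_Δ, eq_intCast] at h1
      rw [variableChange_c₄, norm_mul, norm_pow, map_c₄, eq_intCast] at h2
      have hΔp : (p : ℤ) ∣ W.Δ := by
        rw [← Padic.norm_intCast_lt_one_iff]
        by_contra h3
        push Not at h3
        have h4 := one_lt_pow₀ hlt (n := 12) (by norm_num)
        nlinarith [norm_nonneg ((W.Δ : ℤ) : ℚ_[p])]
      have hcp : (p : ℤ) ∣ W.c₄ := by
        rw [← Padic.norm_intCast_lt_one_iff]
        by_contra h3
        push Not at h3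
        have h4 := one_lt_pow₀ hlt (n := 4) (by norm_num)
        nlinarith [norm_nonneg ((W.c₄ : ℤ) : ℚ_[p])]
      exact hW p hp.out hΔp hcp
    have hv : valuation ℚ_[p] (maximalIdeal ℤ_[p]) (((C.u)⁻¹ : (ℚ_[p])ˣ) : ℚ_[p]) ≤ 1 :=
      valuation_le_one (maximalIdeal ℤ_[p])
        (⟨(((C.u)⁻¹ : (ℚ_[p])ˣ) : ℚ_[p]), hu⟩ : ℤ_[p])
    show valuation_Δ_aux ℤ_[p] (C • loc p W) ≤
      valuation_Δ_aux ℤ_[p] ((1 : VariableChange ℚ_[p]) • loc p W)
    rw [one_smul, ← Subtype.coe_le_coe, valuation_Δ_aux_eq_of_isIntegral,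
      valuation_Δ_aux_eq_of_isIntegral, variableChange_Δ, map_mul, map_pow]
    exact mul_le_of_le_one_left' (pow_le_one' hv 12)

/-- The minimal equation at `p` and a global equation which is minimal at `p` differ by an integral
change of variables. -/
theorem exists_change_minAt' (hΔ : W.Δ ≠ 0) (h : W.IsIntegralModelOf E)
    (hmin : (loc p W).IsMinimal ℤ_[p]) :
    ∃ D : VariableChange ℤ_[p], D.map (algebraMap ℤ_[p] ℚ_[p]) • loc p W = minAt E p := by
  obtain ⟨C, hC⟩ := exists_smul_loc (p := p) h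
  have hmin' : (C • loc p W).IsMinimal ℤ_[p] := by
    rw [hC]
    infer_instance
  have hΔ' : (loc p W).Δ ≠ 0 := by
    rw [map_Δ, eq_intCast]
    exact_mod_cast hΔ
  obtain ⟨D, hD⟩ := exists_change (R := ℤ_[p]) (C := C) hΔ'
  exact ⟨D, by rw [hD, hC]⟩

/-- Good reduction at `p` in terms of a global equation which is minimal at `p`. -/
theorem hasGoodReduction_minAt_iff' (hΔ : W.Δ ≠ 0) (h : W.IsIntegralModelOf E)
    (hmin : (loc p W).IsMinimal ℤ_[p]) :
    (minAt E p).HasGoodReduction ℤ_[p] ↔ ¬ (p : ℤ) ∣ W.Δ := by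
  obtain ⟨D, hD⟩ := exists_change_minAt' hΔ h hmin
  have hmin' : (D.map (algebraMap ℤ_[p] ℚ_[p]) • loc p W).IsMinimal ℤ_[p] := by
    rw [hD]
    infer_instance
  rw [← hD, hasGoodReduction_smul_iff, hasGoodReduction_iff, map_Δ]
  exact ⟨fun h1 => ((idIso p).valuation_intCast_eq_one_iff _).mp h1.2,
    fun h1 => ⟨hmin, ((idIso p).valuation_intCast_eq_one_iff _).mpr h1⟩⟩

/-- Additive reduction at `p` in terms of a global equation which is minimal at `p`. -/
theorem hasAdditiveReduction_minAt_iff (hΔ : W.Δ ≠ 0) (h : W.IsIntegralModelOf E)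
    (hmin : (loc p W).IsMinimal ℤ_[p]) :
    (minAt E p).HasAdditiveReduction ℤ_[p] ↔ (p : ℤ) ∣ W.Δ ∧ (p : ℤ) ∣ W.c₄ := by
  obtain ⟨D, hD⟩ := exists_change_minAt' hΔ h hmin
  have hmin' : (D.map (algebraMap ℤ_[p] ℚ_[p]) • loc p W).IsMinimal ℤ_[p] := by
    rw [hD]
    infer_instance
  rw [← hD, hasAdditiveReduction_smul_iff, hasAdditiveReduction_iff, map_Δ, map_c₄]
  refine ⟨fun h1 => ⟨((idIso p).valuation_intCast_lt_iff _).mp h1.2.1,
    ((idIso p).valuation_intCast_lt_iff _).mp h1.2.2⟩, fun h1 => ⟨hmin,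
    ((idIso p).valuation_intCast_lt_iff _).mpr h1.1,
    ((idIso p).valuation_intCast_lt_iff _).mpr h1.2⟩⟩

end Local

/-- A curve with a semistable equation over `ℤ` is semistable. -/
theorem semistable_of_model (hΔ : W.Δ ≠ 0) (hW : W.IsSemistableModel)
    (h : W.IsIntegralModelOf E) : Semistable E := by
  intro p hp hadd
  obtain ⟨h1, h2⟩ :=
    (hasAdditiveReduction_minAt_iff hΔ h (isMinimal_of_isSemistableModel hW)).mp hadd
  exact hW p hp.out h1 h2

/-- **Semistable elliptic curves**: `E` has additive reduction at no prime (in terms of Mathlib's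
minimal equations over the rings `ℤ_p`) if and only if `E` has a Weierstrass equation over `ℤ` such
that no prime divides both `Δ` and `c₄`. -/
theorem semistable_iff (E : WeierstrassCurve ℚ) [E.IsElliptic] :
    Semistable E ↔ ∃ W : WeierstrassCurve ℤ, W.IsIntegralModelOf E ∧ W.IsSemistableModel := by
  have hE : E.Δ ≠ 0 := E.isUnit_Δ.ne_zero
  constructor
  · intro h
    obtain ⟨W, hW⟩ := exists_isDiscMinimal E
    exact ⟨W, hW.1, isSemistableModel hE hW h⟩
  · rintro ⟨W, h, hW⟩
    exact semistable_of_model (Δ_ne_zero_of_model hE h) hW h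

/-- The conductor from a semistable equation. -/
theorem isConductor_of_model (hΔ : W.Δ ≠ 0) (hW : W.IsSemistableModel)
    (h : W.IsIntegralModelOf E) : IsConductor E W.conductorLevel := by
  refine ⟨W.squarefree_conductorLevel, fun p hp => ?_⟩
  rw [hasGoodReduction_minAt_iff' hΔ h (isMinimal_of_isSemistableModel hW), not_not,
    W.prime_dvd_conductorLevel_iff hΔ hp.out]

/-- **Mathlib's `L`-series is the Hasse-Weil `L`-function** of block K8: all its theorems on the
entire function `L` (zeros, parity, values) are theorems on the continuation of `E.LSeries`. -/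
theorem LSeries_eq_of_isHasseWeil (hE : E.Δ ≠ 0) (h : IsDiscMinimal W E)
    (hW : W.IsSemistableModel) {L : ℂ → ℂ} (hL : HW.IsHasseWeil W L) {s : ℂ}
    (hs : 3 / 2 < s.re) : E.LSeries s = L s := by
  have hΔ := Δ_ne_zero_of_model hE h.1
  obtain ⟨f, ⟨hf, ha⟩, -⟩ := HW.existsUnique_newform_ap hΔ hW
  have hcoe : (fun n => (E.LFunction n : ℂ)) = ModularFormClass.qCoeff f :=
    funext fun n => LFunction_eq_qCoeff hE h hW hf.1 ha n
  have h1 : E.LSeries s = LSeries (ModularFormClass.qCoeff f) s := by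
    rw [← hcoe]
    rfl
  rw [h1, hL.unique (HW.isHasseWeil hΔ hf ha)]
  exact HW.lseries_eq_of_hasse hf.1 (HW.isHasse hΔ hf ha) hs

/-- An equation over `ℤ` is an integral model of itself. -/
theorem isIntegralModelOf_map (W : WeierstrassCurve ℤ) :
    W.IsIntegralModelOf (W.map (Int.castRingHom ℚ)) := ⟨1, one_smul _ _⟩

theorem isElliptic_map (hΔ : W.Δ ≠ 0) : (W.map (Int.castRingHom ℚ)).IsElliptic := by
  refine ⟨?_⟩
  rw [map_Δ, eq_intCast, isUnit_iff_ne_zero]
  exact_mod_cast hΔ

end Fermat.Agent.Cor.KM
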