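import Fermat.Agent.Corollaries.Mathlib.Zeros
import Fermat.Agent.Corollaries.HW.RealZeros

/-!
# Mathlib's `L`-function of the semistable elliptic curves of conductor at most `50`

`E` semistable over `ℚ` of conductor at most `50`, `L` the entire continuation of Mathlib's
`L`-series. The order of `L` at `s = 1` is `0` if the number of primes of split multiplicative
reduction is odd and `1` if it is even; the other real zeros are `0, -1, -2, …`.
-/

set_option autoImplicit false

noncomputable section

open WeierstrassCurve Complex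

namespace Fermat.Agent.Cor.KM

open MinModel

/-- The number of primes of split multiplicative reduction. -/
def numSplit (E : WeierstrassCurve ℚ) : ℕ :=
  {p : ℕ | ∃ _ : Fact p.Prime, (minAt E p).HasSplitMultiplicativeReduction ℤ_[p]}.ncard

variable {E : WeierstrassCurve ℚ} [E.IsElliptic] {L : ℂ → ℂ}

/-- The root number is `1` iff the number of primes of split multiplicative reduction is odd. -/
theorem rootNumber_eq_one_iff_odd {W : WeierstrassCurve ℤ} (hm : IsDiscMinimal W E)
    (hW : W.IsSemistableModel) : HW.rootNumber W = 1 ↔ Odd (numSplit E) := by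
  have hE : E.Δ ≠ 0 := E.isUnit_Δ.ne_zero
  have hΔ := Δ_ne_zero_of_model hE hm.1
  have hset : {p : ℕ | ∃ _ : Fact p.Prime,
      (minAt E p).HasSplitMultiplicativeReduction ℤ_[p]} = (HW.splitPrimes W : Set ℕ) := by
    ext p
    rw [Set.mem_ofPred_eq, Finset.mem_coe, HW.mem_splitPrimes hΔ]
    constructor
    · rintro ⟨hp, h1⟩
      exact ⟨hp.out, (hasSplit_minAt_iff hE hm hW).mp h1⟩
    · rintro ⟨hp, h1⟩
      have : Fact p.Prime := ⟨hp⟩
      exact ⟨this, (hasSplit_minAt_iff hE hm hW).mpr h1⟩
  rw [numSplit, hset, Set.ncard_coe_finset]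
  exact HW.rootNumber_eq_one_iff (HW.ap_eq_one_or hΔ hW)

/-- **The analytic rank of the semistable elliptic curves of conductor at most `50`**: it is `0` if
the number of primes of split multiplicative reduction is odd, and `1` if it is even. -/
theorem order_eq_of_conductor_le (hE : Semistable E) (hL : Differentiable ℂ L)
    (h : ∀ s : ℂ, 3 / 2 < s.re → E.LSeries s = L s) {N : ℕ} (hN : IsConductor E N)
    (h50 : N ≤ 50) :
    (Odd (numSplit E) → analyticOrderNatAt L 1 = 0) ∧
    (¬ Odd (numSplit E) → analyticOrderNatAt L 1 = 1) := by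
  obtain ⟨W, hΔ, hW, hm, hHW⟩ := exists_isHasseWeil_of_eq hE hL h
  obtain rfl := hN.eq (isConductor_of_model hΔ hW hm.1)
  have h1 := HW.analyticOrderNatAt_eq hΔ hW hHW h50
  rw [← rootNumber_eq_one_iff_odd hm hW]
  exact ⟨fun h2 => by rw [h1, if_pos h2], fun h2 => by rw [h1, if_neg h2]⟩

/-- **The real zeros of the `L`-function of the semistable elliptic curves of conductor at most
`50`** are `0, -1, -2, …` and, if the number of primes of split multiplicative reduction is even,
the point `1`. -/
theorem real_zeros_of_conductor_le (hE : Semistable E) (hL : Differentiable ℂ L)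
    (h : ∀ s : ℂ, 3 / 2 < s.re → E.LSeries s = L s) {N : ℕ} (hN : IsConductor E N)
    (h50 : N ≤ 50) (x : ℝ) :
    L x = 0 ↔ (∃ n : ℕ, x = -n) ∨ (x = 1 ∧ ¬ Odd (numSplit E)) := by
  obtain ⟨W, hΔ, hW, hm, hHW⟩ := exists_isHasseWeil_of_eq hE hL h
  obtain rfl := hN.eq (isConductor_of_model hΔ hW hm.1)
  obtain ⟨L', -, -, -, -, -, hw, -, -⟩ := HW.hasseWeil hΔ hW
  have key : HW.rootNumber W = -1 ↔ ¬ HW.rootNumber W = 1 := by
    rcases hw with h1 | h1 <;> rw [h1] <;> norm_num
  rw [HW.L_real_eq_zero_iff hΔ hW hHW h50, ← rootNumber_eq_one_iff_odd hm hW, key]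

end Fermat.Agent.Cor.KM

end
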