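import Fermat.Agent.Corollaries.Mathlib.TwistTwo
import Fermat.Agent.Corollaries.Mathlib.TwistFE
import Fermat.Agent.Corollaries.Diri.Kron
import Fermat.Agent.Corollaries.Diri.QuadDisc

/-!
# Mathlib's `L`-function of all quadratic twists of a semistable elliptic curve

Let `W` be a semistable equation over `ℤ` of the elliptic curve `E`, `m` squarefree and `D` the
discriminant of `ℚ(√m)`. The `n`-th coefficient of Mathlib's `L`-function of the twist `E^m` is
`(D / n)` (the Kronecker symbol) times the one of `E`. The `L`-series of `E^m` continues to an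
entire function; if `D` is prime to the conductor `N` of `E`, it has a functional equation with the
sign `w(E) sign(D) (D / N)`.
-/

set_option autoImplicit false

noncomputable section

open WeierstrassCurve Complex IsDedekindDomain NumberField

namespace Fermat.Agent.Cor.KM

open MinModel
open HW (ap rootNumber)
open HW.Twist (IsTwist eulerPolyTw)
open Twist (quadTwist quadTwist_Δ)
open Diri (kron kron_two kron_prime)

/-- The discriminant of `ℚ(√m)`, `m` squarefree (`1` for `m = 1`). -/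
def fdisc (m : ℤ) : ℤ := if m % 4 = 1 then m else 4 * m

/-! ### The Kronecker symbol -/

theorem kron_one_right (D : ℤ) : kron D 1 = 1 := by
  rw [Diri.kron_odd D odd_one, jacobiSym.one_right]

theorem kron_mul (D : ℤ) {a b : ℕ} (ha : a ≠ 0) (hb : b ≠ 0) :
    kron D (a * b) = kron D a * kron D b := by
  have h1 : NeZero (a / 2 ^ a.factorization 2) := ⟨(Nat.ordCompl_pos 2 ha).ne'⟩
  have h2 : NeZero (b / 2 ^ b.factorization 2) := ⟨(Nat.ordCompl_pos 2 hb).ne'⟩
  rw [kron, kron, kron, Nat.ordCompl_mul, jacobiSym.mul_right, Nat.factorization_mul ha hb,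
    Finsupp.add_apply, pow_add]
  ring

theorem kron_pow (D : ℤ) {p : ℕ} (hp : p ≠ 0) (k : ℕ) : kron D (p ^ k) = kron D p ^ k := by
  induction k with
  | zero => rw [pow_zero, pow_zero, kron_one_right]
  | succ k ih => rw [pow_succ, pow_succ, kron_mul D (pow_ne_zero _ hp) hp, ih]

theorem norm_kron_le (D : ℤ) (n : ℕ) : ‖((kron D n : ℤ) : ℂ)‖ ≤ 1 := by
  have h8 : ∀ x : ZMod 8, ZMod.χ₈ x = 0 ∨ ZMod.χ₈ x = 1 ∨ ZMod.χ₈ x = -1 := by decide
  rw [kron, Int.cast_mul, norm_mul, Int.cast_pow, norm_pow]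
  refine mul_le_one₀ (pow_le_one₀ (norm_nonneg _) ?_) (norm_nonneg _) (norm_jacobi_le _ _)
  rcases h8 (D : ZMod 8) with h | h | h <;> rw [h] <;> norm_num

theorem legendreSym_fdisc {m : ℤ} {p : ℕ} [hp : Fact p.Prime] (hp2 : p ≠ 2) :
    legendreSym p (fdisc m) = legendreSym p m := by
  rw [fdisc]
  split_ifs with h
  · rfl
  · rw [show (4 : ℤ) * m = 2 ^ 2 * m by ring, legendreSym.mul, legendreSym.sq_one', one_mul]
    intro h0
    rw [ZMod.intCast_zmod_eq_zero_iff_dvd] at h0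
    have h1 : p ∣ 2 := by exact_mod_cast h0
    exact hp2 ((Nat.prime_dvd_prime_iff_eq hp.out Nat.prime_two).mp h1)

theorem fdisc_ne_zero {m : ℤ} (hm : m ≠ 0) : fdisc m ≠ 0 := by
  rw [fdisc]
  split_ifs
  · exact hm
  · exact mul_ne_zero (by norm_num) hm

/-! ### The coefficients -/

section

variable {W : WeierstrassCurve ℤ} {m : ℤ}

/-- The Euler factors of the `L`-function of the twist. -/
theorem LFunction_quadTwist_euler_all (hΔ : W.Δ ≠ 0) (hW : W.IsSemistableModel)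
    (hsq : Squarefree m) :
    (quadTwist (W.map (Int.castRingHom ℚ)) (m : ℚ)).LFunction =
      ArithmeticFunction.eulerProduct fun v : HeightOneSpectrum (𝓞 ℚ) =>
        ArithmeticFunction.ofPowerSeries (pr v) (invPS (kron (fdisc m) (pr v) * aE W (pr v))
          (kron (fdisc m) (pr v) ^ 2 * bE W (pr v))) := by
  have hm0 : m ≠ 0 := hsq.ne_zero
  refine LFunction_of_models' (a := fun p => kron (fdisc m) p * aE W p)
    (b := fun p => kron (fdisc m) p ^ 2 * bE W p) (quadTwist_Δ_ne_zero hΔ hm0) fun p hp => ?_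
  rcases eq_or_ne p 2 with rfl | hp2
  · have hk := kron_two (fdisc m)
    by_cases hm4 : m % 4 = 1
    · obtain ⟨k, hmk⟩ : ∃ k : ℤ, m = 1 + 4 * k := ⟨m / 4, by omega⟩
      obtain ⟨h1, h2, h3⟩ := twist_two hΔ hW hmk
      have hf : fdisc m = m := if_pos hm4
      rw [hf] at hk ⊢
      refine ⟨tw W m k, Or.inl ⟨isIntegralModelOf_tw hmk, h1⟩, ?_, ?_⟩
      · rw [h2]
        exact congrArg (· * aE W 2) hk.symm
      · rw [h3]
        have h4 : kron m 2 ^ 2 = 1 := by
          rw [hk]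
          rcases chi8_cases hmk with ⟨-, -, h⟩ | ⟨-, -, h⟩ <;> rw [h] <;> norm_num
        exact (by rw [h4, one_mul] : bE W 2 = kron m 2 ^ 2 * bE W 2)
    · obtain ⟨V, hV, h1, h2⟩ := twist_two_additive hsq hm4 hW
      have hf : fdisc m = 4 * m := if_neg hm4
      have h0 : kron (fdisc m) 2 = 0 := by
        rw [hk, hf]
        push_cast
        exact (by decide : ∀ x : ZMod 8, ZMod.χ₈ (4 * x) = 0) _
      refine ⟨V, Or.inr hV, ?_, ?_⟩
      · rw [h1]
        exact (by rw [h0, zero_mul] : 0 = kron (fdisc m) 2 * aE W 2)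
      · rw [h2]
        exact (by rw [h0]; ring : 0 = kron (fdisc m) 2 ^ 2 * bE W 2)
  · have hF : Fact p.Prime := ⟨hp⟩
    have hk : kron (fdisc m) p = legendreSym p m := by
      rw [kron_prime _ p hp2, legendreSym_fdisc hp2]
    by_cases hpd : (p : ℤ) ∣ m
    · obtain ⟨h1, h2, h3⟩ := twist_dvd hW hsq hp hp2 hpd
      have h4 : kron (fdisc m) p = 0 := by
        rw [hk, legendreSym.eq_zero_iff, ZMod.intCast_zmod_eq_zero_iff_dvd]
        exact hpd
      refine ⟨quadTwist W m, Or.inl ⟨isIntegralModelOf_quadTwist W m, h1⟩, ?_, ?_⟩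
      · rw [h2]
        exact (by rw [h4, zero_mul] : 0 = kron (fdisc m) p * aE W p)
      · rw [h3]
        exact (by rw [h4]; ring : 0 = kron (fdisc m) p ^ 2 * bE W p)
    · obtain ⟨h1, h2, h3⟩ := twist_odd hΔ hW hm0 hp hp2 hpd
      refine ⟨quadTwist W m, Or.inl ⟨isIntegralModelOf_quadTwist W m, h1⟩, ?_, ?_⟩
      · rw [h2]
        exact congrArg (· * aE W p) hk.symm
      · rw [h3]
        have h5 : kron (fdisc m) p ^ 2 = 1 := by
          rw [hk]
          refine legendreSym.sq_one p fun h => ?_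
          rw [ZMod.intCast_zmod_eq_zero_iff_dvd] at h
          exact hpd h
        exact (by rw [h5, one_mul] : bE W p = kron (fdisc m) p ^ 2 * bE W p)

/-- **The `L`-function of a quadratic twist.** Let `W` be a semistable equation over `ℤ` of the
elliptic curve `E`, `m` squarefree and `D` the discriminant of `ℚ(√m)`.  The `n`-th coefficient of
Mathlib's `L`-function of the twist `E^m` is `(D / n)` times the one of `E`, for every `n`. -/
theorem LFunction_quadTwist_all (hΔ : W.Δ ≠ 0) (hW : W.IsSemistableModel) (hsq : Squarefree m)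
    (n : ℕ) : (quadTwist (W.map (Int.castRingHom ℚ)) (m : ℚ)).LFunction n =
      kron (fdisc m) n * (W.map (Int.castRingHom ℚ)).LFunction n := by
  obtain ⟨hm1, hv1⟩ := values_of_eulerProduct (a := fun p => kron (fdisc m) p * aE W p)
    (b := fun p => kron (fdisc m) p ^ 2 * bE W p) (LFunction_quadTwist_euler_all hΔ hW hsq)
  obtain ⟨hm2, hv2⟩ := values_of_eulerProduct (a := aE W) (b := bE W)
    (LFunction_semistable_euler hΔ hW)
  induction n using Nat.recOnPosPrimePosCoprime with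
  | prime_pow p k hp _ =>
    rw [hv1 p hp k, hv2 p hp k]
    have h := invPS_twist (χ := kron (fdisc m) p) (a := aE W p) (b := bE W p) k
    refine h.trans ?_
    rw [kron_pow _ hp.ne_zero]
  | zero => rw [ArithmeticFunction.map_zero, ArithmeticFunction.map_zero, mul_zero]
  | one => rw [hm1.map_one, hm2.map_one, kron_one_right, one_mul]
  | coprime a b ha1 hb1 hab ha hb =>
    rw [hm1.map_mul_of_coprime hab, hm2.map_mul_of_coprime hab, ha, hb,
      kron_mul _ (by omega) (by omega)]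
    ring

theorem isHasseFun_quadTwist_all (hΔ : W.Δ ≠ 0) (hW : W.IsSemistableModel)
    (hsq : Squarefree m) :
    IsHasseFun (quadTwist (W.map (Int.castRingHom ℚ)) (m : ℚ)).LFunction
      (fun p => kron (fdisc m) p * aE W p) (fun p => kron (fdisc m) p ^ 2 * bE W p) := by
  obtain ⟨h1, h2⟩ := values_of_eulerProduct (a := fun p => kron (fdisc m) p * aE W p)
    (b := fun p => kron (fdisc m) p ^ 2 * bE W p) (LFunction_quadTwist_euler_all hΔ hW hsq)
  refine ⟨h1, h2, fun p hp => ?_⟩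
  obtain ⟨α, β, hα, hβ, h3, h4⟩ := roots_semistable hΔ p hp
  have hj := norm_kron_le (fdisc m) p
  refine ⟨(kron (fdisc m) p : ℂ) * α, (kron (fdisc m) p : ℂ) * β, ?_, ?_, ?_, ?_⟩
  · rw [norm_mul]
    exact (mul_le_of_le_one_left (norm_nonneg _) hj).trans hα
  · rw [norm_mul]
    exact (mul_le_of_le_one_left (norm_nonneg _) hj).trans hβ
  · rw [← mul_add, h3]
    push_cast
    rfl
  · rw [show (kron (fdisc m) p : ℂ) * α * ((kron (fdisc m) p : ℂ) * β) =
      (kron (fdisc m) p : ℂ) ^ 2 * (α * β) by ring, h4]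
    push_cast
    rfl

/-! ### The character -/

/-- The character of `ℚ(√m)`. -/
theorem exists_character (hsq : Squarefree m) :
    ∃ (M : ℕ) (_ : NeZero M) (χ : DirichletCharacter ℂ M), M = (fdisc m).natAbs ∧
      χ.IsPrimitive ∧ MulChar.IsQuadratic χ ∧ χ (-1) = ((m.sign : ℤ) : ℂ) ∧
      ∀ a : ℕ, a ≠ 0 → χ a = ((kron (fdisc m) a : ℤ) : ℂ) := by
  rcases eq_or_ne m 1 with rfl | hm1
  · refine ⟨1, inferInstance, 1, rfl, DirichletCharacter.isPrimitive_one_level_one, ?_, ?_, ?_⟩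
    · intro a
      right
      left
      rw [Subsingleton.elim a 1, map_one]
    · rw [Subsingleton.elim (-1 : ZMod 1) 1, map_one]
      norm_num
    · intro a ha
      rw [Subsingleton.elim ((a : ℕ) : ZMod 1) 1, map_one, kron]
      have h1 : fdisc 1 = 1 := rfl
      rw [h1, jacobiSym.one_left, Int.cast_one, map_one, one_pow, mul_one, Int.cast_one]
  · obtain ⟨K, hK, hNK, α, h2, -, hd⟩ := Diri.exists_quadratic_field hsq hm1
    obtain ⟨M, hM, χ, hMd, hp, -, hχ2, -, -, hev, hk⟩ := Diri.exists_kronecker_character h2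
    have hd' : discr K = fdisc m := hd
    rw [hd'] at hMd hk
    refine ⟨M, hM, χ, hMd, hp, MulChar.isQuadratic_iff_sq_eq_one.mpr hχ2, ?_, hk⟩
    have hm0 : m ≠ 0 := hsq.ne_zero
    rcases lt_or_gt_of_ne hm0 with hneg | hpos
    · have h3 : discr K < 0 := by
        rw [hd', fdisc]
        split_ifs <;> omega
      have h4 : χ.Odd := χ.even_or_odd.resolve_left fun h =>
        Diri.nrComplexPlaces_ne_zero_of_discr_neg h3 (hev.mp h)
      rw [Int.sign_eq_neg_one_of_neg hneg]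
      have h5 : χ (-1) = -1 := h4
      rw [h5]
      norm_num
    · have h3 : 0 < discr K := by
        rw [hd', fdisc]
        split_ifs <;> omega
      have h4 : χ.Even := hev.mpr (Diri.nrComplexPlaces_eq_zero_of_discr_pos h2 h3)
      rw [Int.sign_eq_one_of_pos hpos]
      have h5 : χ (-1) = 1 := h4
      rw [h5]
      norm_num

theorem eulerPolyTw_eq_all (hW : W.IsSemistableModel) {M : ℕ} {χ : DirichletCharacter ℂ M}
    (hχ : ∀ a : ℕ, a ≠ 0 → χ a = ((kron (fdisc m) a : ℤ) : ℂ)) {p : ℕ} (hp : p.Prime)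
    (s : ℂ) : eulerPolyTw W χ p s =
      1 - ((kron (fdisc m) p * aE W p : ℤ) : ℂ) * (p : ℂ) ^ (-s) +
        ((kron (fdisc m) p ^ 2 * bE W p : ℤ) : ℂ) * (p : ℂ) ^ (-(2 * s)) := by
  have hp0 : (p : ℂ) ≠ 0 := by exact_mod_cast hp.ne_zero
  have ha : aE W p = ap W p := by
    rw [aE]
    exact if_neg fun h => hW p hp h.1 h.2
  rw [eulerPolyTw, hχ p hp.ne_zero, ha, bE]
  by_cases hd : (p : ℤ) ∣ W.Δ
  · rw [if_pos hd, if_pos hd]
    push_cast
    ring
  · rw [if_neg hd, if_neg hd, sub_eq_add_neg 1 (2 * s), cpow_add _ _ hp0, cpow_one]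
    push_cast
    ring

theorem LSeries_eq_of_isTwist_all (hΔ : W.Δ ≠ 0) (hW : W.IsSemistableModel)
    (hsq : Squarefree m) {M : ℕ} {χ : DirichletCharacter ℂ M}
    (hχ : ∀ a : ℕ, a ≠ 0 → χ a = ((kron (fdisc m) a : ℤ) : ℂ)) {L : ℂ → ℂ}
    (hL : IsTwist W χ L) {s : ℂ} (hs : 3 / 2 < s.re) :
    (quadTwist (W.map (Int.castRingHom ℚ)) (m : ℚ)).LSeries s = L s := by
  have h1 := (isHasseFun_quadTwist_all hΔ hW hsq).hasProd hs
  have h2 := hL.2 s hs
  have h3 : (fun p : Nat.Primes => (eulerPolyTw W χ p s)⁻¹) =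
      fun p : Nat.Primes => (1 - ((kron (fdisc m) (p : ℕ) * aE W p : ℤ) : ℂ) *
        ((p : ℕ) : ℂ) ^ (-s) + ((kron (fdisc m) (p : ℕ) ^ 2 * bE W p : ℤ) : ℂ) *
          ((p : ℕ) : ℂ) ^ (-(2 * s)))⁻¹ :=
    funext fun p => congrArg (·⁻¹) (eulerPolyTw_eq_all hW hχ p.2 s)
  rw [h3] at h2
  exact h1.unique h2

/-- **The `L`-series of a quadratic twist is entire.** -/
theorem exists_entire_quadTwist_all (hΔ : W.Δ ≠ 0) (hW : W.IsSemistableModel)
    (hsq : Squarefree m) : ∃ L : ℂ → ℂ, Differentiable ℂ L ∧ ∀ s : ℂ, 3 / 2 < s.re →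
      (quadTwist (W.map (Int.castRingHom ℚ)) (m : ℚ)).LSeries s = L s := by
  obtain ⟨M, hM, χ, -, -, -, -, hχ⟩ := exists_character hsq
  obtain ⟨L, hL, -⟩ := HW.Twist.exists_isTwist hΔ hW χ
  exact ⟨L, hL.1, fun s hs => LSeries_eq_of_isTwist_all hΔ hW hsq hχ hL hs⟩

theorem chi_neg {M : ℕ} {χ : DirichletCharacter ℂ M} (h1 : χ (-1) = ((m.sign : ℤ) : ℂ))
    (hχ : ∀ a : ℕ, a ≠ 0 → χ a = ((kron (fdisc m) a : ℤ) : ℂ)) {N : ℕ} (hN : N ≠ 0) :
    χ (-(N : ZMod M)) = ((m.sign * kron (fdisc m) N : ℤ) : ℂ) := by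
  rw [neg_eq_neg_one_mul, map_mul, h1, hχ N hN]
  push_cast
  rfl

/-- **The functional equation of the quadratic twists.** Let `W` be a semistable equation over `ℤ`
of the elliptic curve `E`, `N` its conductor, `w` its root number, `m` squarefree, `D` the
discriminant of `ℚ(√m)`, prime to `N`.  Mathlib's `L`-series of `E^m` continues to an entire
function `L`; the function `Λ(s) = (N D²)^(s/2) (2π)^(-s) Γ(s) L(s)` is entire, and
`Λ(2 - s) = w sign(m) (D / N) Λ(s)`. -/
theorem functional_equation_quadTwist_all (hΔ : W.Δ ≠ 0) (hW : W.IsSemistableModel)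
    (hsq : Squarefree m) (hN : W.conductorLevel.Coprime (fdisc m).natAbs) :
    ∃ L Λ : ℂ → ℂ, Differentiable ℂ L ∧ Differentiable ℂ Λ ∧
      (∀ s : ℂ, 3 / 2 < s.re →
        (quadTwist (W.map (Int.castRingHom ℚ)) (m : ℚ)).LSeries s = L s) ∧
      (∀ s : ℂ, 0 < s.re → Λ s = ((W.conductorLevel * (fdisc m).natAbs ^ 2 : ℕ) : ℂ) ^ (s / 2) *
        ((2 * (Real.pi : ℂ)) ^ (-s) * Gamma s * L s)) ∧
      ∀ s : ℂ, Λ (2 - s) =
        ((rootNumber W * (m.sign * kron (fdisc m) W.conductorLevel) : ℤ) : ℂ) * Λ s := by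
  obtain ⟨M, hM, χ, hMd, hp, hq, hneg, hχ⟩ := exists_character hsq
  rw [← hMd] at hN ⊢
  obtain ⟨L, hL, -⟩ := HW.Twist.exists_isTwist hΔ hW χ
  obtain ⟨Λ, h1, h2, h3⟩ := HW.Twist.quad_functional_equation hΔ hW hN hp hq hL
  refine ⟨L, Λ, hL.1, h1, fun s hs => LSeries_eq_of_isTwist_all hΔ hW hsq hχ hL hs, h2,
    fun s => ?_⟩
  rw [h3, chi_neg hneg hχ W.conductorLevel_pos.ne']
  push_cast
  rfl

/-- **Parity.** -/
theorem parity_quadTwist_all (hΔ : W.Δ ≠ 0) (hW : W.IsSemistableModel)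
    (hsq : Squarefree m) (hN : W.conductorLevel.Coprime (fdisc m).natAbs)
    {L : ℂ → ℂ} (hL : Differentiable ℂ L) (h : ∀ s : ℂ, 3 / 2 < s.re →
      (quadTwist (W.map (Int.castRingHom ℚ)) (m : ℚ)).LSeries s = L s) :
    rootNumber W * (m.sign * kron (fdisc m) W.conductorLevel) =
      (-1) ^ analyticOrderNatAt L 1 := by
  obtain ⟨M, hM, χ, hMd, hp, hq, hneg, hχ⟩ := exists_character hsq
  rw [← hMd] at hN
  obtain ⟨L', hL', -⟩ := HW.Twist.exists_isTwist hΔ hW χ
  have h1 : L = L' := by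
    have a₁ : AnalyticOnNhd ℂ L Set.univ := fun z _ => hL.analyticAt z
    have a₂ : AnalyticOnNhd ℂ L' Set.univ := fun z _ => hL'.1.analyticAt z
    refine a₁.eq_of_eventuallyEq a₂ (z₀ := 3) ?_
    have hopen : {s : ℂ | 3 / 2 < s.re} ∈ nhds (3 : ℂ) :=
      (isOpen_lt continuous_const Complex.continuous_re).mem_nhds (by norm_num)
    filter_upwards [hopen] with z hz
    rw [← h z hz, LSeries_eq_of_isTwist_all hΔ hW hsq hχ hL' hz]
  subst h1
  have h2 := HW.Twist.quad_parity hΔ hW hN hp hq hL'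
  rw [chi_neg hneg hχ W.conductorLevel_pos.ne'] at h2
  exact_mod_cast h2

end

/-! ### Rational twists of curves over `ℚ` -/

section Rational

/-- Twists of isomorphic curves. -/
theorem quadTwist_smul (E : WeierstrassCurve ℚ) (C : VariableChange ℚ) (d : ℚ) :
    quadTwist (C • E) d = (⟨C.u, 4 * d * C.r, 0, 0⟩ : VariableChange ℚ) • quadTwist E d := by
  have e1 : ∀ V : WeierstrassCurve ℚ, (quadTwist V d).a₁ = 0 := fun _ => rfl
  have e3 : ∀ V : WeierstrassCurve ℚ, (quadTwist V d).a₃ = 0 := fun _ => rfl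
  have e2 : ∀ V : WeierstrassCurve ℚ, (quadTwist V d).a₂ = d * V.b₂ := fun _ => rfl
  have e4 : ∀ V : WeierstrassCurve ℚ, (quadTwist V d).a₄ = 8 * d ^ 2 * V.b₄ := fun _ => rfl
  have e6 : ∀ V : WeierstrassCurve ℚ, (quadTwist V d).a₆ = 16 * d ^ 3 * V.b₆ := fun _ => rfl
  ext
  · rw [variableChange_a₁, e1, e1]
    ring
  · rw [variableChange_a₂, e1, e2, e2, variableChange_b₂]
    ring
  · rw [variableChange_a₃, e1, e3, e3]
    ring
  · rw [variableChange_a₄, e1, e2, e3, e4, e4, variableChange_b₄]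
    ring
  · rw [variableChange_a₆, e1, e2, e3, e4, e6, e6, variableChange_b₆]
    ring

/-- Twisting by a square. -/
theorem quadTwist_mul_sq (E : WeierstrassCurve ℚ) (d : ℚ) (q : ℚˣ) :
    quadTwist E (d * q ^ 2) = (⟨q⁻¹, 0, 0, 0⟩ : VariableChange ℚ) • quadTwist E d := by
  have e1 : ∀ d : ℚ, (quadTwist E d).a₁ = 0 := fun _ => rfl
  have e3 : ∀ d : ℚ, (quadTwist E d).a₃ = 0 := fun _ => rfl
  have e2 : ∀ d : ℚ, (quadTwist E d).a₂ = d * E.b₂ := fun _ => rfl
  have e4 : ∀ d : ℚ, (quadTwist E d).a₄ = 8 * d ^ 2 * E.b₄ := fun _ => rfl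
  have e6 : ∀ d : ℚ, (quadTwist E d).a₆ = 16 * d ^ 3 * E.b₆ := fun _ => rfl
  ext
  · rw [variableChange_a₁, e1, e1]
    ring
  · rw [variableChange_a₂, e1, e2, e2, inv_inv]
    ring
  · rw [variableChange_a₃, e1, e3, e3]
    ring
  · rw [variableChange_a₄, e1, e2, e3, e4, e4, inv_inv]
    ring
  · rw [variableChange_a₆, e1, e2, e3, e4, e6, e6, inv_inv]
    ring

/-- Every non-zero rational number is a squarefree integer times a square. -/
theorem exists_squarefree_mul_sq {d : ℚ} (hd : d ≠ 0) :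
    ∃ (m : ℤ) (q : ℚˣ), Squarefree m ∧ d = m * q ^ 2 := by
  obtain ⟨a, b, hab, ha⟩ := Nat.sq_mul_squarefree (d.num.natAbs * d.den)
  have hden : (d.den : ℚ) ≠ 0 := Nat.cast_ne_zero.mpr d.den_ne_zero
  have hnum : d.num ≠ 0 := Rat.num_ne_zero.mpr hd
  have hb : (b : ℚ) ≠ 0 := by
    intro h0
    have h1 : b = 0 := by exact_mod_cast h0
    rw [h1] at hab
    have h2 : d.num.natAbs * d.den = 0 := by
      rw [← hab]
      ring
    rcases Nat.mul_eq_zero.mp h2 with h3 | h3
    · exact hnum (Int.natAbs_eq_zero.mp h3)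
    · exact d.den_ne_zero h3
  refine ⟨d.num.sign * a, Units.mk0 ((b : ℚ) / d.den) (div_ne_zero hb hden), ?_, ?_⟩
  · have h1 : (d.num.sign * (a : ℤ)).natAbs = a := by
      rw [Int.natAbs_mul, Int.natAbs_sign_of_ne_zero hnum, one_mul, Int.natAbs_natCast]
    rw [← Int.squarefree_natAbs, h1]
    exact ha
  · have h1 : (d.num : ℚ) = d.num.sign * (d.num.natAbs : ℚ) := by
      have h2 := congrArg (Int.cast : ℤ → ℚ) (Int.sign_mul_natAbs d.num)
      rw [Int.cast_mul, Int.cast_natCast] at h2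
      exact h2.symm
    have h3 : ((b : ℚ) ^ 2 * a) = (d.num.natAbs : ℚ) * d.den := by exact_mod_cast hab
    have h4 : d * d.den = d.num := Rat.mul_den_eq_num d
    rw [Units.val_mk0]
    push_cast
    rw [div_pow]
    field_simp
    rw [h1] at h4
    linear_combination (d.den : ℚ) * h4 - (d.num.sign : ℚ) * h3

/-- **All quadratic twists of semistable elliptic curves over `ℚ` have entire `L`-series.** Let `E`
be an elliptic curve over `ℚ` which has a semistable integral equation, and `d ≠ 0` rational.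
Mathlib's `L`-series of the twist `E^d` continues to an entire function. -/
theorem exists_entire_twist (E : WeierstrassCurve ℚ) [E.IsElliptic]
    (hE : ∃ W : WeierstrassCurve ℤ, W.IsIntegralModelOf E ∧ W.IsSemistableModel) {d : ℚ}
    (hd : d ≠ 0) : ∃ L : ℂ → ℂ, Differentiable ℂ L ∧ ∀ s : ℂ, 3 / 2 < s.re →
      (quadTwist E d).LSeries s = L s := by
  obtain ⟨W, ⟨C, hC⟩, hW⟩ := hE
  have hEΔ : E.Δ ≠ 0 := E.isUnit_Δ.ne_zero
  have hΔ := Δ_ne_zero_of_model hEΔ ⟨C, hC⟩
  obtain ⟨m, q, hm, rfl⟩ := exists_squarefree_mul_sq hd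
  obtain ⟨L, hL, h⟩ := exists_entire_quadTwist_all hΔ hW hm
  have hm0 : (m : ℚ) ≠ 0 := Int.cast_ne_zero.mpr hm.ne_zero
  have hΔ2 : (quadTwist E (m : ℚ)).Δ ≠ 0 := by
    rw [quadTwist_Δ]
    exact mul_ne_zero (mul_ne_zero (by norm_num) (pow_ne_zero _ hm0)) hEΔ
  have e1 : (quadTwist E (m * (q : ℚ) ^ 2)).LFunction = (quadTwist E (m : ℚ)).LFunction := by
    rw [quadTwist_mul_sq, LFunction_smul hΔ2]
  have e2 : (quadTwist (W.map (Int.castRingHom ℚ)) (m : ℚ)).LFunction =
      (quadTwist E (m : ℚ)).LFunction := by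
    rw [← hC, quadTwist_smul, LFunction_smul hΔ2]
  refine ⟨L, hL, fun s hs => ?_⟩
  rw [← h s hs, WeierstrassCurve.LSeries, WeierstrassCurve.LSeries, e1, e2]

end Rational

end Fermat.Agent.Cor.KM
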