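import Fermat.Agent.Corollaries.Mathlib.TwistAll
import Fermat.Agent.Corollaries.HW.TwistHardy

/-!
# The zeros of Mathlib's `L`-function of the quadratic twists of a semistable elliptic curve

Let `W` be a semistable equation over `ℤ` of the elliptic curve `E`, `m` squarefree, and suppose
that the discriminant of `ℚ(√m)` is prime to the conductor of `E`. The entire continuation of
Mathlib's `L`-series of the twist `E^m` has infinitely many zeros on the line `re s = 1` (Hardy's
theorem); the number of its zeros with `0 < re s`, `|im s| ≤ T` is at most `C T log T`.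
-/

set_option autoImplicit false

noncomputable section

open WeierstrassCurve Complex
open scoped ComplexConjugate

namespace Fermat.Agent.Cor.KM

open HW.Twist (IsTwist)
open Twist (quadTwist)

variable {W : WeierstrassCurve ℤ} {m : ℤ}

/-- The continuation of the `L`-series of `E^m` is a twisted `L`-function of `W`. -/
theorem exists_isTwist_of_eq (hΔ : W.Δ ≠ 0) (hW : W.IsSemistableModel) (hsq : Squarefree m)
    (hN : W.conductorLevel.Coprime (fdisc m).natAbs) {L : ℂ → ℂ} (hL : Differentiable ℂ L)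
    (h : ∀ s : ℂ, 3 / 2 < s.re →
      (quadTwist (W.map (Int.castRingHom ℚ)) (m : ℚ)).LSeries s = L s) :
    ∃ (M : ℕ) (_ : NeZero M) (χ : DirichletCharacter ℂ M), W.conductorLevel.Coprime M ∧
      χ.IsPrimitive ∧ MulChar.IsQuadratic χ ∧ IsTwist W χ L := by
  obtain ⟨M, hM, χ, hMd, hp, hq, -, hχ⟩ := exists_character hsq
  rw [← hMd] at hN
  obtain ⟨L', hL', -⟩ := HW.Twist.exists_isTwist hΔ hW χ
  have h1 : L = L' := by
    have a₁ : AnalyticOnNhd ℂ L Set.univ := fun z _ => hL.analyticAt z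
    have a₂ : AnalyticOnNhd ℂ L' Set.univ := fun z _ => hL'.1.analyticAt z
    refine a₁.eq_of_eventuallyEq a₂ (z₀ := 3) ?_
    have hopen : {s : ℂ | 3 / 2 < s.re} ∈ nhds (3 : ℂ) :=
      (isOpen_lt continuous_const Complex.continuous_re).mem_nhds (by norm_num)
    filter_upwards [hopen] with z hz
    rw [← h z hz, LSeries_eq_of_isTwist_all hΔ hW hsq hχ hL' hz]
  exact ⟨M, hM, χ, hN, hp, hq, h1 ▸ hL'⟩

/-- **Hardy's theorem for the quadratic twists**: let `W` be a semistable equation over `ℤ` of the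
elliptic curve `E`, `m` squarefree, the discriminant of `ℚ(√m)` prime to the conductor of `E`, and
`L` the entire continuation of Mathlib's `L`-series of the twist `E^m`. Then `L` has infinitely
many zeros with `re s = 1`. -/
theorem hardy_quadTwist (hΔ : W.Δ ≠ 0) (hW : W.IsSemistableModel) (hsq : Squarefree m)
    (hN : W.conductorLevel.Coprime (fdisc m).natAbs) {L : ℂ → ℂ} (hL : Differentiable ℂ L)
    (h : ∀ s : ℂ, 3 / 2 < s.re →
      (quadTwist (W.map (Int.castRingHom ℚ)) (m : ℚ)).LSeries s = L s) :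
    {s : ℂ | s.re = 1 ∧ L s = 0}.Infinite := by
  obtain ⟨M, hM, χ, hc, hp, hq, hT⟩ := exists_isTwist_of_eq hΔ hW hsq hN hL h
  exact HW.Twist.infinite_zeros_critical_line_twist hΔ hW hc hp hq hT

/-- **The number of zeros**, counted with multiplicity, is at most `C T log T`. -/
theorem count_zeros_quadTwist (hΔ : W.Δ ≠ 0) (hW : W.IsSemistableModel) (hsq : Squarefree m)
    (hN : W.conductorLevel.Coprime (fdisc m).natAbs) {L : ℂ → ℂ} (hL : Differentiable ℂ L)
    (h : ∀ s : ℂ, 3 / 2 < s.re →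
      (quadTwist (W.map (Int.castRingHom ℚ)) (m : ℚ)).LSeries s = L s) :
    ∃ C : ℝ, ∀ T : ℝ, 2 ≤ T → {s : ℂ | L s = 0 ∧ 0 < s.re ∧ |s.im| ≤ T}.Finite ∧
      ((∑ᶠ s ∈ {s : ℂ | L s = 0 ∧ 0 < s.re ∧ |s.im| ≤ T}, analyticOrderNatAt L s : ℕ) : ℝ) ≤
        C * (T * Real.log T) := by
  obtain ⟨M, hM, χ, hc, hp, hq, hT⟩ := exists_isTwist_of_eq hΔ hW hsq hN hL h
  exact HW.Twist.count_zeros_twist hΔ hW hc hp hq hT

/-- **The zeros**: simple zeros at `0, -1, -2, …`, all the others have `1/2 ≤ re s ≤ 3/2`; they are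
symmetric with respect to the line `re s = 1` and the real axis. -/
theorem zeros_quadTwist (hΔ : W.Δ ≠ 0) (hW : W.IsSemistableModel) (hsq : Squarefree m)
    (hN : W.conductorLevel.Coprime (fdisc m).natAbs) {L : ℂ → ℂ} (hL : Differentiable ℂ L)
    (h : ∀ s : ℂ, 3 / 2 < s.re →
      (quadTwist (W.map (Int.castRingHom ℚ)) (m : ℚ)).LSeries s = L s) :
    (∀ n : ℕ, analyticOrderAt L (-n) = 1) ∧
    (∀ s : ℂ, L s = 0 → (∃ n : ℕ, s = -n) ∨ s.re ∈ Set.Icc (1 / 2 : ℝ) (3 / 2)) ∧
    (∀ s : ℂ, 0 < s.re → s.re < 2 → (L (2 - s) = 0 ↔ L s = 0)) ∧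
    ∀ s : ℂ, L (conj s) = conj (L s) := by
  obtain ⟨M, hM, χ, hc, hp, hq, hT⟩ := exists_isTwist_of_eq hΔ hW hsq hN hL h
  exact HW.Twist.zeros_twist hΔ hW hc hp hq hT

end Fermat.Agent.Cor.KM

end
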