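import Fermat.Agent.Corollaries.Mathlib.TwistLoc
import Fermat.Agent.Corollaries.Mathlib.Model

/-!
# Mathlib's `L`-function of the quadratic twists of a semistable elliptic curve

Let `W` be a semistable equation over `ℤ` and `d ≡ 1` modulo `4` squarefree.  For the quadratic
twist `E^d` of the curve `E` of `W` the `n`-th coefficient of Mathlib's `L`-function is
`(n / |d|) a_n(E)`, for all `n`.
-/

set_option autoImplicit false

noncomputable section

open WeierstrassCurve IsDedekindDomain NumberField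
open scoped NumberTheorySymbols

namespace Fermat.Agent.Cor.KM

open MinModel
open HW (ap)
open Twist (quadTwist quadTwist_Δ quadTwist_c₄ quadTwist_c₆)
open Fermat.Agent.ECRed (IsMultAt)

/-! ### From local models to the `L`-function -/

section General

variable {E : WeierstrassCurve ℚ} {a b : ℕ → ℤ}

/-- A locally minimal integral model at every prime determines the `L`-function. -/
theorem LFunction_of_models (hE : E.Δ ≠ 0)
    (h : ∀ p : ℕ, p.Prime → ∃ V : WeierstrassCurve ℤ, V.IsIntegralModelOf E ∧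
      ¬ ((p : ℤ) ^ 12 ∣ V.Δ ∧ (p : ℤ) ^ 4 ∣ V.c₄) ∧ aE V p = a p ∧ bE V p = b p) :
    E.LFunction = ArithmeticFunction.eulerProduct fun v : HeightOneSpectrum (𝓞 ℚ) =>
      ArithmeticFunction.ofPowerSeries (pr v) (invPS (a (pr v)) (b (pr v))) := by
  rw [LFunction]
  refine congrArg ArithmeticFunction.eulerProduct (funext fun v => ?_)
  obtain ⟨V, hV, hmin, ha, hb⟩ := h (pr v) (fact_pr v).out
  have hΔ := Δ_ne_zero_of_model hE hV
  have h1 := localPolynomial_map_eq (R := v.adicCompletionIntegers ℚ) hE hV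
    (algebraMap ℚ (v.adicCompletion ℚ))
  rw [(padicIso v).localPolynomial_min ((padicIso v).isMinimal_of_not_dvd hmin) hΔ, ha, hb] at h1
  have h2 : (E.baseChange (v.adicCompletion ℚ)).localPolynomial (v.adicCompletionIntegers ℚ) =
      1 - Polynomial.C (a (pr v)) * Polynomial.X +
        Polynomial.C (b (pr v)) * Polynomial.X ^ 2 := h1
  rw [localEulerFactor, (padicIso v).card_residueField, localPowerSeries, h2, invPS]
  congr 2
  simp only [Polynomial.coe_add, Polynomial.coe_sub, Polynomial.coe_mul,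
    Polynomial.coe_C, Polynomial.coe_X, Polynomial.coe_one, Polynomial.coe_pow]

theorem values_of_eulerProduct (h : E.LFunction = ArithmeticFunction.eulerProduct
    fun v : HeightOneSpectrum (𝓞 ℚ) =>
      ArithmeticFunction.ofPowerSeries (pr v) (invPS (a (pr v)) (b (pr v)))) :
    E.LFunction.IsMultiplicative ∧ ∀ p : ℕ, p.Prime → ∀ k : ℕ,
      E.LFunction (p ^ k) = (invPS (a p) (b p)).coeff k := by
  refine ⟨?_, fun p hp k => ?_⟩
  · rw [h]
    exact isMultiplicative_eulerProduct_ofPowerSeries _ (fun v => (fact_pr v).out) _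
      fun v => constantCoeff_invPS _ _
  · obtain ⟨v, rfl⟩ := exists_pr hp
    rw [h]
    exact eulerProduct_apply_pow pr (fun v => (fact_pr v).out) pr_injective
      (fun v => invPS (a (pr v)) (b (pr v))) (fun v => constantCoeff_invPS _ _) v k

end General

/-! ### The local data of the twist -/

section Twist

variable {W : WeierstrassCurve ℤ} {d : ℤ}

theorem prime_int {p : ℕ} (hp : p.Prime) : Prime (p : ℤ) := Nat.prime_iff_prime_int.mp hp

/-- `p` odd and prime to `d`. -/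
theorem twist_odd (hΔ : W.Δ ≠ 0) (hW : W.IsSemistableModel) (hd0 : d ≠ 0) {p : ℕ} (hp : p.Prime)
    (hp2 : p ≠ 2) (hpd : ¬ (p : ℤ) ∣ d) :
    ¬ ((p : ℤ) ^ 12 ∣ (quadTwist W d).Δ ∧ (p : ℤ) ^ 4 ∣ (quadTwist W d).c₄) ∧
      (letI : Fact p.Prime := ⟨hp⟩; aE (quadTwist W d) p = legendreSym p d * aE W p) ∧
      bE (quadTwist W d) p = bE W p := by
  have hF : Fact p.Prime := ⟨hp⟩
  have hpI := prime_int hp
  have hp2I : ¬ (p : ℤ) ∣ 2 := by
    intro h
    have h1 : p ∣ 2 := by exact_mod_cast h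
    exact hp2 ((Nat.prime_dvd_prime_iff_eq hp Nat.prime_two).mp h1)
  have hpow : ∀ n : ℕ, ¬ (p : ℤ) ∣ 2 ^ n := fun n h => hp2I (hpI.dvd_of_dvd_pow h)
  have hdpow : ∀ n : ℕ, ¬ (p : ℤ) ∣ d ^ n := fun n h => hpd (hpI.dvd_of_dvd_pow h)
  have hΔiff : (p : ℤ) ∣ (quadTwist W d).Δ ↔ (p : ℤ) ∣ W.Δ := by
    rw [quadTwist_Δ, show (4096 : ℤ) = 2 ^ 12 by norm_num, hpI.dvd_mul, hpI.dvd_mul]
    exact ⟨fun h => h.resolve_left fun h1 => h1.elim (hpow 12) (hdpow 6), Or.inr⟩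
  have hciff : (p : ℤ) ∣ (quadTwist W d).c₄ ↔ (p : ℤ) ∣ W.c₄ := by
    rw [quadTwist_c₄, show (16 : ℤ) = 2 ^ 4 by norm_num, hpI.dvd_mul, hpI.dvd_mul]
    exact ⟨fun h => h.resolve_left fun h1 => h1.elim (hpow 4) (hdpow 2), Or.inr⟩
  have hsemi : ¬ ((p : ℤ) ∣ W.Δ ∧ (p : ℤ) ∣ W.c₄) := fun h => hW p hp h.1 h.2
  refine ⟨fun h => hsemi ⟨hΔiff.mp ((dvd_pow_self _ (by norm_num)).trans h.1),
    hciff.mp ((dvd_pow_self _ (by norm_num)).trans h.2)⟩, ?_, ?_⟩
  · have hsemi' : ¬ ((p : ℤ) ∣ (quadTwist W d).Δ ∧ (p : ℤ) ∣ (quadTwist W d).c₄) := fun h =>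
      hsemi ⟨hΔiff.mp h.1, hciff.mp h.2⟩
    rw [aE, aE, if_neg hsemi, if_neg hsemi', ap, ap]
    by_cases hd : (p : ℤ) ∣ W.Δ
    · rw [if_pos (hΔiff.mpr hd), if_pos hd]
      have hM : IsMultAt W p := ⟨hp, hd, fun hc => hsemi ⟨hd, hc⟩, hΔ⟩
      have hΔ' : (quadTwist W d).Δ ≠ 0 := by
        rw [quadTwist_Δ]
        exact mul_ne_zero (mul_ne_zero (by norm_num) (pow_ne_zero _ hd0)) hΔ
      have hM' : IsMultAt (quadTwist W d) p :=
        ⟨hp, hΔiff.mpr hd, fun hc => hsemi' ⟨hΔiff.mpr hd, hc⟩, hΔ'⟩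
      rw [HW.apOfModel_eq_legendreSym hM hp2, HW.apOfModel_eq_legendreSym hM' hp2, quadTwist_c₆,
        show -(64 * d ^ 3 * W.c₆) = (8 * d) ^ 2 * (d * -W.c₆) by ring, legendreSym.mul,
        legendreSym.sq_one' p, one_mul, legendreSym.mul]
      rw [Int.cast_mul, Int.cast_ofNat]
      refine mul_ne_zero (fun h0 => ?_) fun h0 => ?_
      · have h1 : ((8 : ℤ) : ZMod p) = 0 := by exact_mod_cast h0
        rw [ZMod.intCast_zmod_eq_zero_iff_dvd] at h1
        exact hpow 3 (by simpa using h1)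
      · rw [ZMod.intCast_zmod_eq_zero_iff_dvd] at h0
        exact hpd h0
    · rw [if_neg fun h => hd (hΔiff.mp h), if_neg hd]
      exact Twist.apOfModel_quadTwist W hp2 hpd hd
  · rw [bE, bE]
    simp only [hΔiff]

/-- `p ∣ d` odd. -/
theorem twist_dvd (hW : W.IsSemistableModel) (hsq : Squarefree d) {p : ℕ} (hp : p.Prime)
    (hp2 : p ≠ 2) (hpd : (p : ℤ) ∣ d) :
    ¬ ((p : ℤ) ^ 12 ∣ (quadTwist W d).Δ ∧ (p : ℤ) ^ 4 ∣ (quadTwist W d).c₄) ∧
      aE (quadTwist W d) p = 0 ∧ bE (quadTwist W d) p = 0 := by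
  have hpI := prime_int hp
  have hp0 : (p : ℤ) ≠ 0 := hpI.ne_zero
  obtain ⟨e, rfl⟩ := hpd
  have hpe : ¬ (p : ℤ) ∣ e := fun h => hpI.not_isUnit (hsq _ (mul_dvd_mul_left _ h))
  have hp2I : ¬ (p : ℤ) ∣ 2 := by
    intro h
    have h1 : p ∣ 2 := by exact_mod_cast h
    exact hp2 ((Nat.prime_dvd_prime_iff_eq hp Nat.prime_two).mp h1)
  have hpow : ∀ n : ℕ, ¬ (p : ℤ) ∣ 2 ^ n := fun n h => hp2I (hpI.dvd_of_dvd_pow h)
  have hepow : ∀ n : ℕ, ¬ (p : ℤ) ∣ e ^ n := fun n h => hpe (hpI.dvd_of_dvd_pow h)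
  have hdΔ : (p : ℤ) ∣ (quadTwist W (p * e)).Δ := by
    rw [quadTwist_Δ]
    exact Dvd.dvd.mul_right (Dvd.dvd.mul_left
      ((dvd_mul_right _ _).trans (dvd_pow_self _ (by norm_num))) _) _
  have hdc : (p : ℤ) ∣ (quadTwist W (p * e)).c₄ := by
    rw [quadTwist_c₄]
    exact Dvd.dvd.mul_right (Dvd.dvd.mul_left
      ((dvd_mul_right _ _).trans (dvd_pow_self _ (by norm_num))) _) _
  refine ⟨fun h => ?_, ?_, ?_⟩
  · have h1 : (p : ℤ) ^ 6 * (p : ℤ) ^ 6 ∣ (p : ℤ) ^ 6 * (2 ^ 12 * e ^ 6 * W.Δ) := by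
      have h' := h.1
      rw [quadTwist_Δ] at h'
      rw [show (p : ℤ) ^ 6 * (p : ℤ) ^ 6 = (p : ℤ) ^ 12 by ring,
        show (p : ℤ) ^ 6 * (2 ^ 12 * e ^ 6 * W.Δ) = 4096 * (p * e) ^ 6 * W.Δ by ring]
      exact h'
    have h2 : (p : ℤ) ^ 2 * (p : ℤ) ^ 2 ∣ (p : ℤ) ^ 2 * (2 ^ 4 * e ^ 2 * W.c₄) := by
      have h' := h.2
      rw [quadTwist_c₄] at h'
      rw [show (p : ℤ) ^ 2 * (p : ℤ) ^ 2 = (p : ℤ) ^ 4 by ring,
        show (p : ℤ) ^ 2 * (2 ^ 4 * e ^ 2 * W.c₄) = 16 * (p * e) ^ 2 * W.c₄ by ring]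
      exact h'
    have h3 := (dvd_pow_self (p : ℤ) (by norm_num : 6 ≠ 0)).trans
      ((mul_dvd_mul_iff_left (pow_ne_zero 6 hp0)).mp h1)
    have h4 := (dvd_pow_self (p : ℤ) (by norm_num : 2 ≠ 0)).trans
      ((mul_dvd_mul_iff_left (pow_ne_zero 2 hp0)).mp h2)
    rw [hpI.dvd_mul, hpI.dvd_mul] at h3 h4
    exact hW p hp (h3.resolve_left fun h => h.elim (hpow 12) (hepow 6))
      (h4.resolve_left fun h => h.elim (hpow 4) (hepow 2))
  · rw [aE, if_pos ⟨hdΔ, hdc⟩]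
  · rw [bE, if_pos hdΔ]

theorem chi8_cases {k : ℤ} (hk : d = 1 + 4 * k) :
    (k % 2 = 0 ∧ (k : ZMod 2) = 0 ∧ ZMod.χ₈ (d : ZMod 8) = 1) ∨
      (k % 2 = 1 ∧ (k : ZMod 2) = 1 ∧ ZMod.χ₈ (d : ZMod 8) = -1) := by
  subst hk
  rcases Int.emod_two_eq_zero_or_one k with h | h
  · left
    obtain ⟨j, rfl⟩ : ∃ j : ℤ, k = 2 * j := ⟨k / 2, by omega⟩
    refine ⟨h, ?_, ?_⟩
    · push_cast
      rw [show (2 : ZMod 2) = 0 from rfl, zero_mul]
    · have h8 : (8 : ZMod 8) = 0 := rfl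
      rw [show ((1 + 4 * (2 * j) : ℤ) : ZMod 8) = 1 by
        push_cast
        linear_combination (j : ZMod 8) * h8]
      decide
  · right
    obtain ⟨j, rfl⟩ : ∃ j : ℤ, k = 1 + 2 * j := ⟨k / 2, by omega⟩
    refine ⟨h, ?_, ?_⟩
    · push_cast
      rw [show (2 : ZMod 2) = 0 from rfl, zero_mul, add_zero]
    · have h8 : (8 : ZMod 8) = 0 := rfl
      rw [show ((1 + 4 * (1 + 2 * j) : ℤ) : ZMod 8) = 5 by
        push_cast
        linear_combination (j : ZMod 8) * h8]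
      decide

/-- `p = 2`. -/
theorem twist_two (hΔ : W.Δ ≠ 0) (hW : W.IsSemistableModel) {k : ℤ} (hk : d = 1 + 4 * k) :
    ¬ (((2 : ℕ) : ℤ) ^ 12 ∣ (tw W d k).Δ ∧ ((2 : ℕ) : ℤ) ^ 4 ∣ (tw W d k).c₄) ∧
      aE (tw W d k) 2 = ZMod.χ₈ (d : ZMod 8) * aE W 2 ∧ bE (tw W d k) 2 = bE W 2 := by
  have hpI := prime_int Nat.prime_two
  have hd0 : d ≠ 0 := by omega
  have hd2 : ¬ ((2 : ℕ) : ℤ) ∣ d := by
    push_cast
    omega
  have hdpow : ∀ n : ℕ, ¬ ((2 : ℕ) : ℤ) ∣ d ^ n := fun n h => hd2 (hpI.dvd_of_dvd_pow h)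
  have hΔiff : ((2 : ℕ) : ℤ) ∣ (tw W d k).Δ ↔ ((2 : ℕ) : ℤ) ∣ W.Δ := by
    rw [tw_Δ hk, hpI.dvd_mul]
    exact ⟨fun h => h.resolve_left (hdpow 6), Or.inr⟩
  have hciff : ((2 : ℕ) : ℤ) ∣ (tw W d k).c₄ ↔ ((2 : ℕ) : ℤ) ∣ W.c₄ := by
    rw [tw_c₄ hk, hpI.dvd_mul]
    exact ⟨fun h => h.resolve_left (hdpow 2), Or.inr⟩
  have hsemi : ¬ (((2 : ℕ) : ℤ) ∣ W.Δ ∧ ((2 : ℕ) : ℤ) ∣ W.c₄) := fun h =>
    hW 2 Nat.prime_two h.1 h.2
  have hsemi' : ¬ (((2 : ℕ) : ℤ) ∣ (tw W d k).Δ ∧ ((2 : ℕ) : ℤ) ∣ (tw W d k).c₄) := fun h =>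
    hsemi ⟨hΔiff.mp h.1, hciff.mp h.2⟩
  refine ⟨fun h => hsemi' ⟨(dvd_pow_self _ (by norm_num)).trans h.1,
    (dvd_pow_self _ (by norm_num)).trans h.2⟩, ?_, ?_⟩
  · rw [aE, aE, if_neg hsemi, if_neg hsemi', ap, ap]
    by_cases hd : ((2 : ℕ) : ℤ) ∣ W.Δ
    · rw [if_pos (hΔiff.mpr hd), if_pos hd]
      have hM : IsMultAt W 2 := ⟨Nat.prime_two, hd, fun hc => hsemi ⟨hd, hc⟩, hΔ⟩
      have hΔ' : (tw W d k).Δ ≠ 0 := by
        rw [tw_Δ hk]
        exact mul_ne_zero (pow_ne_zero _ hd0) hΔ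
      have hM' : IsMultAt (tw W d k) 2 :=
        ⟨Nat.prime_two, hΔiff.mpr hd, fun hc => hsemi' ⟨hΔiff.mpr hd, hc⟩, hΔ'⟩
      rw [HW.apOfModel_two hM, HW.apOfModel_two hM', tw_c₆ hk,
        show ((-(d ^ 3 * W.c₆) : ℤ) : ZMod 8) = (d : ZMod 8) ^ 3 * ((-W.c₆ : ℤ) : ZMod 8) by
          push_cast; ring, map_mul, map_pow]
      rcases chi8_cases hk with ⟨-, -, h⟩ | ⟨-, -, h⟩ <;> rw [h] <;> norm_num
    · have hg : W.IsGoodPrimeFor 2 := hd
      have hg' : (tw W d k).IsGoodPrimeFor 2 := fun h => hd (hΔiff.mp h)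
      rw [if_neg fun h => hd (hΔiff.mp h), if_neg hd, apOfModel_two_eq hg, apOfModel_two_eq hg']
      have h2 : (2 : ZMod 2) = 0 := rfl
      have e1 : ((tw W d k).a₁ : ZMod 2) = W.a₁ := rfl
      have hd1 : (d : ZMod 2) = 1 := by
        rw [hk]
        push_cast
        linear_combination (2 * (k : ZMod 2)) * h2
      have e2 : ((tw W d k).a₂ : ZMod 2) = W.a₂ + k * (W.a₁ : ZMod 2) ^ 2 := by
        simp only [tw, WeierstrassCurve.b₂]
        push_cast
        linear_combination (2 * (k : ZMod 2) * W.a₂) * h2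
      have e3 : ((tw W d k).a₃ : ZMod 2) = W.a₃ := by
        simp only [tw]
        push_cast
        rw [hd1, one_mul]
      have e4 : ((tw W d k).a₄ : ZMod 2) = W.a₄ := by
        simp only [tw]
        push_cast
        rw [hd1]
        linear_combination ((k : ZMod 2) * W.a₁ * W.a₃) * h2
      have e6 : ((tw W d k).a₆ : ZMod 2) = W.a₆ + k * (W.a₃ : ZMod 2) ^ 2 := by
        simp only [tw]
        push_cast
        rw [hd1]
        ring
      rw [e1, e2, e3, e4, e6]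
      rcases chi8_cases hk with ⟨-, h1, h⟩ | ⟨-, h1, h⟩ <;> rw [h, h1]
      · rw [zero_mul, zero_mul, add_zero, add_zero, one_mul]
      · rw [one_mul, one_mul]
        have h3 := cnt_add W.a₁ W.a₂ W.a₃ W.a₄ W.a₆
        omega
  · rw [bE, bE]
    simp only [hΔiff]

end Twist

/-! ### The `L`-function of the twist -/

section LFun

theorem rescale_C_int (χ a : ℤ) :
    PowerSeries.rescale χ (PowerSeries.C a) = PowerSeries.C a := by
  ext n
  rw [PowerSeries.coeff_rescale, PowerSeries.coeff_C]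
  split_ifs with h
  · rw [h, pow_zero, one_mul]
  · rw [mul_zero]

theorem invPS_twist {χ a b : ℤ} (n : ℕ) :
    (invPS (χ * a) (χ ^ 2 * b)).coeff n = χ ^ n * (invPS a b).coeff n := by
  have h1 := invPS_mul a b
  have h2 := congrArg (PowerSeries.rescale χ) h1
  have e : PowerSeries.rescale χ (1 - PowerSeries.C a * PowerSeries.X +
      PowerSeries.C b * PowerSeries.X ^ 2) = 1 - PowerSeries.C (χ * a) * PowerSeries.X +
        PowerSeries.C (χ ^ 2 * b) * PowerSeries.X ^ 2 := by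
    rw [(PowerSeries.rescale χ).map_add, (PowerSeries.rescale χ).map_sub,
      (PowerSeries.rescale χ).map_mul, (PowerSeries.rescale χ).map_mul,
      (PowerSeries.rescale χ).map_pow, PowerSeries.rescale_X, (PowerSeries.rescale χ).map_one,
      rescale_C_int, rescale_C_int, PowerSeries.C.map_mul, PowerSeries.C.map_mul,
      PowerSeries.C.map_pow]
    ring
  have h3 : (1 - PowerSeries.C (χ * a) * PowerSeries.X +
      PowerSeries.C (χ ^ 2 * b) * PowerSeries.X ^ 2) * PowerSeries.rescale χ (invPS a b) = 1 := by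
    rw [(PowerSeries.rescale χ).map_mul, e, (PowerSeries.rescale χ).map_one] at h2
    exact h2
  have h4 := invPS_mul (χ * a) (χ ^ 2 * b)
  have h5 : invPS (χ * a) (χ ^ 2 * b) = PowerSeries.rescale χ (invPS a b) := by
    calc invPS (χ * a) (χ ^ 2 * b) = invPS (χ * a) (χ ^ 2 * b) *
          ((1 - PowerSeries.C (χ * a) * PowerSeries.X +
            PowerSeries.C (χ ^ 2 * b) * PowerSeries.X ^ 2) *
              PowerSeries.rescale χ (invPS a b)) := by rw [h3, mul_one]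
      _ = ((1 - PowerSeries.C (χ * a) * PowerSeries.X +
            PowerSeries.C (χ ^ 2 * b) * PowerSeries.X ^ 2) * invPS (χ * a) (χ ^ 2 * b)) *
              PowerSeries.rescale χ (invPS a b) := by ring
      _ = PowerSeries.rescale χ (invPS a b) := by rw [h4, one_mul]
  rw [h5, PowerSeries.coeff_rescale]

variable {W : WeierstrassCurve ℤ} {d : ℤ}

theorem quadTwist_Δ_ne_zero (hΔ : W.Δ ≠ 0) (hd0 : d ≠ 0) :
    (quadTwist (W.map (Int.castRingHom ℚ)) (d : ℚ)).Δ ≠ 0 := by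
  rw [quadTwist_Δ, map_Δ]
  refine mul_ne_zero (mul_ne_zero (by norm_num) (pow_ne_zero _ (Int.cast_ne_zero.mpr hd0))) ?_
  rw [eq_intCast]
  exact Int.cast_ne_zero.mpr hΔ

/-- The Euler factors of the `L`-function of the twist. -/
theorem LFunction_quadTwist_euler (hΔ : W.Δ ≠ 0) (hW : W.IsSemistableModel) (hd4 : d % 4 = 1)
    (hsq : Squarefree d) :
    (quadTwist (W.map (Int.castRingHom ℚ)) (d : ℚ)).LFunction =
      ArithmeticFunction.eulerProduct fun v : HeightOneSpectrum (𝓞 ℚ) =>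
        ArithmeticFunction.ofPowerSeries (pr v) (invPS (jacobiSym (pr v) d.natAbs * aE W (pr v))
          (jacobiSym (pr v) d.natAbs ^ 2 * bE W (pr v))) := by
  have hd0 : d ≠ 0 := hsq.ne_zero
  refine LFunction_of_models (a := fun p => jacobiSym p d.natAbs * aE W p)
    (b := fun p => jacobiSym p d.natAbs ^ 2 * bE W p) (quadTwist_Δ_ne_zero hΔ hd0) fun p hp => ?_
  rcases eq_or_ne p 2 with rfl | hp2
  · obtain ⟨k, hk⟩ : ∃ k : ℤ, d = 1 + 4 * k := ⟨d / 4, by omega⟩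
    obtain ⟨h1, h2, h3⟩ := twist_two hΔ hW hk
    refine ⟨tw W d k, isIntegralModelOf_tw hk, h1, ?_, ?_⟩
    · rw [h2]
      exact congrArg (· * aE W 2) (jacobi_two hd4).symm
    · rw [h3]
      have h4 : jacobiSym ((2 : ℕ) : ℤ) d.natAbs ^ 2 = 1 := by
        rw [jacobi_two hd4]
        rcases chi8_cases hk with ⟨-, -, h⟩ | ⟨-, -, h⟩ <;> rw [h] <;> norm_num
      exact (by rw [h4, one_mul] : bE W 2 = jacobiSym ((2 : ℕ) : ℤ) d.natAbs ^ 2 * bE W 2)
  · have hF : Fact p.Prime := ⟨hp⟩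
    by_cases hpd : (p : ℤ) ∣ d
    · obtain ⟨h1, h2, h3⟩ := twist_dvd hW hsq hp hp2 hpd
      have h4 := jacobi_dvd hd0 hp hpd
      refine ⟨quadTwist W d, isIntegralModelOf_quadTwist W d, h1, ?_, ?_⟩
      · rw [h2]
        exact (by rw [h4, zero_mul] : 0 = jacobiSym (p : ℤ) d.natAbs * aE W p)
      · rw [h3]
        exact (by rw [h4]; ring : 0 = jacobiSym (p : ℤ) d.natAbs ^ 2 * bE W p)
    · obtain ⟨h1, h2, h3⟩ := twist_odd hΔ hW hd0 hp hp2 hpd
      have h4 := jacobi_odd hd4 (p := p) hp2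
      refine ⟨quadTwist W d, isIntegralModelOf_quadTwist W d, h1, ?_, ?_⟩
      · rw [h2]
        exact congrArg (· * aE W p) h4.symm
      · rw [h3]
        have h5 : jacobiSym (p : ℤ) d.natAbs ^ 2 = 1 := by
          rw [h4]
          refine legendreSym.sq_one p fun h => ?_
          rw [ZMod.intCast_zmod_eq_zero_iff_dvd] at h
          exact hpd h
        exact (by rw [h5, one_mul] : bE W p = jacobiSym (p : ℤ) d.natAbs ^ 2 * bE W p)

/-- The Euler factors of the `L`-function of a semistable equation. -/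
theorem LFunction_semistable_euler (hΔ : W.Δ ≠ 0) (hW : W.IsSemistableModel) :
    (W.map (Int.castRingHom ℚ)).LFunction =
      ArithmeticFunction.eulerProduct fun v : HeightOneSpectrum (𝓞 ℚ) =>
        ArithmeticFunction.ofPowerSeries (pr v) (invPS (aE W (pr v)) (bE W (pr v))) := by
  refine LFunction_of_models ?_ fun p hp => ⟨W, ⟨1, one_smul _ _⟩, fun h => ?_, rfl, rfl⟩
  · rw [map_Δ, eq_intCast]
    exact Int.cast_ne_zero.mpr hΔ
  · exact hW p hp ((dvd_pow_self _ (by norm_num)).trans h.1)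
      ((dvd_pow_self _ (by norm_num)).trans h.2)

/-- **The `L`-function of a quadratic twist.** Let `W` be a semistable equation over `ℤ` of the
elliptic curve `E`, and `d ≡ 1` modulo `4` squarefree (`d` may be negative, and may have prime
factors in common with the discriminant of `W`).  The `n`-th coefficient of Mathlib's
`L`-function of the twist `E^d` is `(n / |d|)` times the one of `E`, for every `n`. -/
theorem LFunction_quadTwist (hΔ : W.Δ ≠ 0) (hW : W.IsSemistableModel) (hd4 : d % 4 = 1)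
    (hsq : Squarefree d) (n : ℕ) :
    (quadTwist (W.map (Int.castRingHom ℚ)) (d : ℚ)).LFunction n =
      jacobiSym n d.natAbs * (W.map (Int.castRingHom ℚ)).LFunction n := by
  obtain ⟨hm1, hv1⟩ := values_of_eulerProduct (a := fun p => jacobiSym p d.natAbs * aE W p)
    (b := fun p => jacobiSym p d.natAbs ^ 2 * bE W p) (LFunction_quadTwist_euler hΔ hW hd4 hsq)
  obtain ⟨hm2, hv2⟩ := values_of_eulerProduct (a := aE W) (b := bE W)
    (LFunction_semistable_euler hΔ hW)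
  induction n using Nat.recOnPosPrimePosCoprime with
  | prime_pow p k hp _ =>
    rw [hv1 p hp k, hv2 p hp k]
    have h := invPS_twist (χ := jacobiSym p d.natAbs) (a := aE W p) (b := bE W p) k
    refine h.trans ?_
    rw [Nat.cast_pow, jacobiSym.pow_left]
  | zero => rw [ArithmeticFunction.map_zero, ArithmeticFunction.map_zero, mul_zero]
  | one => rw [hm1.map_one, hm2.map_one, Nat.cast_one, jacobiSym.one_left, one_mul]
  | coprime a b _ _ hab ha hb =>
    rw [hm1.map_mul_of_coprime hab, hm2.map_mul_of_coprime hab, ha, hb, Nat.cast_mul,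
      jacobiSym.mul_left]
    ring

end LFun

end Fermat.Agent.Cor.KM
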