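import Fermat.Agent.Corollaries.Mathlib.LocMin
import Fermat.Agent.Corollaries.HW.Legendre
import Fermat.Agent.Corollaries.Twist.Ap
import Fermat.Agent.Corollaries.Eta.Main
import Mathlib.NumberTheory.LegendreSymbol.JacobiSymbol

/-!
# The local data of the quadratic twists of a semistable curve

`d ≡ 1` modulo `4`.
-/

set_option autoImplicit false

noncomputable section

open WeierstrassCurve
open scoped NumberTheorySymbols

namespace Fermat.Agent.Cor.KM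

open MinModel
open HW (ap)
open Twist (quadTwist quadTwist_Δ quadTwist_c₄ quadTwist_c₆)
open Fermat.Agent.ECRed (IsMultAt)

/-! ### The Jacobi symbol -/

theorem jacobi_odd {d : ℤ} (hd4 : d % 4 = 1) {p : ℕ} [hp : Fact p.Prime] (hp2 : p ≠ 2) :
    jacobiSym p d.natAbs = legendreSym p d := by
  have hpo : Odd p := hp.out.odd_of_ne_two hp2
  rw [jacobiSym.legendreSym.to_jacobiSym]
  rcases le_total 0 d with h0 | h0
  · have h1 : (d.natAbs : ℤ) = d := Int.natAbs_of_nonneg h0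
    have h2 : d.natAbs % 4 = 1 := by omega
    rw [jacobiSym.quadratic_reciprocity_one_mod_four' hpo h2, h1]
  · have h1 : d = -(d.natAbs : ℤ) := by omega
    have h2 : d.natAbs % 4 = 3 := by omega
    have h2o : Odd d.natAbs := Nat.odd_iff.mpr (by omega)
    conv_rhs => rw [h1]
    rw [jacobiSym.neg _ hpo]
    have h4 : p % 4 = 1 ∨ p % 4 = 3 := by
      have := Nat.odd_iff.mp hpo
      omega
    rcases h4 with h3 | h3
    · rw [jacobiSym.quadratic_reciprocity_one_mod_four h3 h2o, ZMod.χ₄_nat_one_mod_four h3,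
        one_mul]
    · rw [jacobiSym.quadratic_reciprocity_three_mod_four h3 h2, ZMod.χ₄_nat_three_mod_four h3]
      ring

theorem chi8_neg : ∀ x : ZMod 8, ZMod.χ₈ (-x) = ZMod.χ₈ x := by decide

theorem jacobi_two {d : ℤ} (hd4 : d % 4 = 1) :
    jacobiSym (2 : ℕ) d.natAbs = ZMod.χ₈ (d : ZMod 8) := by
  have h2o : Odd d.natAbs := Nat.odd_iff.mpr (by omega)
  rw [Nat.cast_ofNat, jacobiSym.at_two h2o]
  rcases le_total 0 d with h0 | h0
  · have h1 : (d.natAbs : ℤ) = d := Int.natAbs_of_nonneg h0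
    conv_rhs => rw [← h1]
    rw [Int.cast_natCast]
  · have h1 : d = -(d.natAbs : ℤ) := by omega
    conv_rhs => rw [h1]
    rw [Int.cast_neg, Int.cast_natCast, chi8_neg]

theorem jacobi_dvd {d : ℤ} (hd : d ≠ 0) {p : ℕ} (hp : p.Prime) (h : (p : ℤ) ∣ d) :
    jacobiSym p d.natAbs = 0 := by
  have : NeZero d.natAbs := ⟨Int.natAbs_ne_zero.mpr hd⟩
  rw [jacobiSym.eq_zero_iff_not_coprime]
  intro h1
  have h2 : p ∣ d.natAbs := Int.natCast_dvd.mp h
  rw [Int.gcd_natCast_natCast, Nat.gcd_eq_left h2] at h1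
  exact hp.one_lt.ne' h1

/-! ### The model at two -/

/-- An integral model of the twist by `d = 1 + 4 k`. -/
def tw (W : WeierstrassCurve ℤ) (d k : ℤ) : WeierstrassCurve ℤ :=
  ⟨W.a₁, W.a₂ + k * W.b₂, d * W.a₃, d ^ 2 * W.a₄ + 2 * k * d * W.a₁ * W.a₃,
    d ^ 2 * (k * W.a₃ ^ 2 + d * W.a₆)⟩

variable {W : WeierstrassCurve ℤ} {d k : ℤ}

theorem tw_b₂ (hk : d = 1 + 4 * k) : (tw W d k).b₂ = d * W.b₂ := by
  subst hk
  simp only [tw, WeierstrassCurve.b₂]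
  ring

theorem tw_b₄ (hk : d = 1 + 4 * k) : (tw W d k).b₄ = d ^ 2 * W.b₄ := by
  subst hk
  simp only [tw, WeierstrassCurve.b₄]
  ring

theorem tw_b₆ (hk : d = 1 + 4 * k) : (tw W d k).b₆ = d ^ 3 * W.b₆ := by
  subst hk
  simp only [tw, WeierstrassCurve.b₆]
  ring

theorem tw_c₄ (hk : d = 1 + 4 * k) : (tw W d k).c₄ = d ^ 2 * W.c₄ := by
  rw [WeierstrassCurve.c₄, tw_b₂ hk, tw_b₄ hk, WeierstrassCurve.c₄]
  ring

theorem tw_c₆ (hk : d = 1 + 4 * k) : (tw W d k).c₆ = d ^ 3 * W.c₆ := by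
  rw [WeierstrassCurve.c₆, tw_b₂ hk, tw_b₄ hk, tw_b₆ hk, WeierstrassCurve.c₆]
  ring

theorem tw_Δ (hk : d = 1 + 4 * k) : (tw W d k).Δ = d ^ 6 * W.Δ := by
  have h1 := (tw W d k).c_relation
  have h2 := W.c_relation
  rw [tw_c₄ hk, tw_c₆ hk] at h1
  have h3 : (1728 : ℤ) * (tw W d k).Δ = 1728 * (d ^ 6 * W.Δ) := by
    linear_combination h1 - d ^ 6 * h2
  exact mul_left_cancel₀ (by norm_num) h3

theorem isIntegralModelOf_quadTwist (W : WeierstrassCurve ℤ) (d : ℤ) :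
    (quadTwist W d).IsIntegralModelOf (quadTwist (W.map (Int.castRingHom ℚ)) (d : ℚ)) := by
  refine ⟨1, ?_⟩
  rw [one_smul, Twist.map_quadTwist]
  rfl

theorem isIntegralModelOf_tw (hk : d = 1 + 4 * k) :
    (tw W d k).IsIntegralModelOf (quadTwist (W.map (Int.castRingHom ℚ)) (d : ℚ)) := by
  have h2 : (2 : ℚ) ≠ 0 := two_ne_zero
  have hkQ : (d : ℚ) = 1 + 4 * (k : ℚ) := by exact_mod_cast congrArg (Int.cast : ℤ → ℚ) hk
  have hu : ((((Units.mk0 (2 : ℚ) h2))⁻¹ : ℚˣ) : ℚ) = 1 / 2 := by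
    rw [Units.val_inv_eq_inv_val, Units.val_mk0]
    norm_num
  refine ⟨⟨Units.mk0 (2 : ℚ) h2, 0, W.a₁, 4 * d * W.a₃⟩, ?_⟩
  ext
  · rw [variableChange_a₁, hu]
    simp [tw, quadTwist]
  · rw [variableChange_a₂, hu]
    simp only [quadTwist, tw, map_a₁, map_a₂, WeierstrassCurve.b₂, eq_intCast]
    push_cast
    rw [hkQ]
    ring
  · rw [variableChange_a₃, hu]
    simp only [quadTwist, tw, map_a₃, eq_intCast]
    push_cast
    ring
  · rw [variableChange_a₄, hu]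
    simp only [quadTwist, tw, map_a₁, map_a₃, map_a₄, WeierstrassCurve.b₄, eq_intCast]
    push_cast
    rw [hkQ]
    ring
  · rw [variableChange_a₆, hu]
    simp only [quadTwist, tw, map_a₃, map_a₆, WeierstrassCurve.b₆, eq_intCast]
    push_cast
    rw [hkQ]
    ring

/-! ### Counting points over `𝔽₂` -/

/-- the number of affine points over `𝔽₂` -/
def cnt (a₁ a₂ a₃ a₄ a₆ : ZMod 2) : ℕ :=
  (Finset.univ.filter fun P : ZMod 2 × ZMod 2 =>
    P.2 ^ 2 + a₁ * P.1 * P.2 + a₃ * P.2 = P.1 ^ 3 + a₂ * P.1 ^ 2 + a₄ * P.1 + a₆).card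

theorem card_eq_cnt (U : WeierstrassCurve (ZMod 2)) :
    Nat.card {P : ZMod 2 × ZMod 2 // U.toAffine.Equation P.1 P.2} =
      cnt U.a₁ U.a₂ U.a₃ U.a₄ U.a₆ := by
  classical
  rw [Nat.card_eq_fintype_card, Fintype.card_subtype, cnt]
  congr 1
  ext P
  simp only [Finset.mem_filter, Finset.mem_univ, true_and]
  exact Affine.equation_iff _ _

theorem cnt_add : ∀ a₁ a₂ a₃ a₄ a₆ : ZMod 2,
    cnt a₁ (a₂ + a₁ ^ 2) a₃ a₄ (a₆ + a₃ ^ 2) + cnt a₁ a₂ a₃ a₄ a₆ = 4 := by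
  unfold cnt
  decide

theorem apOfModel_two_eq {V : WeierstrassCurve ℤ} (hg : V.IsGoodPrimeFor 2) :
    V.apOfModel 2 = 2 - (cnt (V.a₁ : ZMod 2) V.a₂ V.a₃ V.a₄ V.a₆ : ℤ) := by
  have h1 := Eta.card_affine_eq Nat.prime_two hg
  rw [card_eq_cnt] at h1
  have h2 : (cnt (V.a₁ : ZMod 2) V.a₂ V.a₃ V.a₄ V.a₆ : ℤ) = (2 : ℕ) - V.apOfModel 2 := h1
  push_cast at h2
  omega

end Fermat.Agent.Cor.KM
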