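import Fermat.Agent.Corollaries.Mathlib.TwistAll
import Fermat.Agent.Corollaries.Mathlib.BSD

/-!
# The quadratic twists of a semistable elliptic curve over `ℚ`, in Mathlib's words

The theorems of `TwistAll` for a curve `E` over `ℚ` (instead of a semistable equation over `ℤ`).
-/

set_option autoImplicit false

noncomputable section

open WeierstrassCurve CongruenceSubgroup ModularFormClass Complex

namespace Fermat.Agent.Cor.KM

open MinModel
open HW (rootNumber)
open Twist (quadTwist quadTwist_Δ)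
open Diri (kron)

/-- The `L`-function of the twist does not depend on the equation. -/
theorem LFunction_quadTwist_rat {W : WeierstrassCurve ℤ} {E : WeierstrassCurve ℚ} (hE : E.Δ ≠ 0)
    (h : W.IsIntegralModelOf E) {m : ℤ} (hm : m ≠ 0) :
    (quadTwist (W.map (Int.castRingHom ℚ)) (m : ℚ)).LFunction =
      (quadTwist E (m : ℚ)).LFunction := by
  obtain ⟨C, hC⟩ := h
  have hΔ2 : (quadTwist E (m : ℚ)).Δ ≠ 0 := by
    rw [quadTwist_Δ]
    exact mul_ne_zero (mul_ne_zero (by norm_num) (pow_ne_zero _ (Int.cast_ne_zero.mpr hm))) hE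
  rw [← hC, quadTwist_smul, LFunction_smul hΔ2]

/-- **The `L`-function of a quadratic twist** of a semistable elliptic curve `E` over `ℚ`: for `m`
squarefree and `D` the discriminant of `ℚ(√m)` its `n`-th coefficient is `(D / n)` times the one of
`E`. -/
theorem LFunction_twist (E : WeierstrassCurve ℚ) [E.IsElliptic] (h : Semistable E) {m : ℤ}
    (hm : Squarefree m) (n : ℕ) :
    (quadTwist E (m : ℚ)).LFunction n = kron (fdisc m) n * E.LFunction n := by
  have hE : E.Δ ≠ 0 := E.isUnit_Δ.ne_zero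
  obtain ⟨W, hW⟩ := exists_isDiscMinimal E
  have hs := isSemistableModel hE hW h
  have hΔ := Δ_ne_zero_of_model hE hW.1
  have e1 := LFunction_quadTwist_rat hE hW.1 hm.ne_zero
  obtain ⟨C, hC⟩ := hW.1
  have e2 : (W.map (Int.castRingHom ℚ)).LFunction = E.LFunction := by
    rw [← hC, LFunction_smul hE]
  rw [← e1, ← e2]
  exact LFunction_quadTwist_all hΔ hs hm n

/-- The sign of the functional equation of `E` is `(-1)^r`, `r` the order of vanishing at `1`. -/
theorem rootNumber_eq_of_isEntireL {W : WeierstrassCurve ℤ} {E : WeierstrassCurve ℚ}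
    (hE : E.Δ ≠ 0) (h : W.IsIntegralModelOf E) (hW : W.IsSemistableModel) {L : ℂ → ℂ}
    (hL : IsEntireL E L) : rootNumber W = (-1) ^ analyticOrderNatAt L 1 := by
  have hΔ := Δ_ne_zero_of_model hE h
  obtain ⟨f, ⟨hf, ha⟩, -⟩ := HW.existsUnique_newform_ap hΔ hW
  rw [hL.unique (isEntireL_of_isHasseWeil hE h hW (HW.isHasseWeil hΔ hf ha))]
  exact HW.rootNumber_eq_neg_one_pow hΔ hf ha

/-- **The Hasse-Weil conjecture for the quadratic twists of a semistable elliptic curve over `ℚ`.**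
Let `E` be semistable of conductor `N`, `m` squarefree, `D` the discriminant of `ℚ(√m)`, prime to
`N`, and `r` the order of vanishing at `s = 1` of the `L`-function of `E`.  Mathlib's `L`-series of
the twist `E^m` has an entire continuation `L`, the function
`Λ(s) = (N D²)^(s/2) (2π)^(-s) Γ(s) L(s)` is entire, `Λ(2 - s) = (-1)^r sign(m) (D / N) Λ(s)`, and
this sign is `(-1)` to the power the order of vanishing of `L` at `s = 1`. -/
theorem hasseWeil_twist (E : WeierstrassCurve ℚ) [E.IsElliptic] (h : Semistable E) {N : ℕ}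
    (hN : IsConductor E N) {m : ℤ} (hm : Squarefree m) (hcop : N.Coprime (fdisc m).natAbs)
    {L₁ : ℂ → ℂ} (h₁ : IsEntireL E L₁) :
    ∃ L Λ : ℂ → ℂ, IsEntireL (quadTwist E (m : ℚ)) L ∧ Differentiable ℂ Λ ∧
      (∀ s : ℂ, 0 < s.re → Λ s = ((N * (fdisc m).natAbs ^ 2 : ℕ) : ℂ) ^ (s / 2) *
        ((2 * (Real.pi : ℂ)) ^ (-s) * Gamma s * L s)) ∧
      (∀ s : ℂ, Λ (2 - s) =
        (((-1) ^ analyticOrderNatAt L₁ 1 * (m.sign * kron (fdisc m) N) : ℤ) : ℂ) * Λ s) ∧
      (-1 : ℤ) ^ analyticOrderNatAt L 1 =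
        (-1) ^ analyticOrderNatAt L₁ 1 * (m.sign * kron (fdisc m) N) := by
  have hE : E.Δ ≠ 0 := E.isUnit_Δ.ne_zero
  obtain ⟨W, hW⟩ := exists_isDiscMinimal E
  have hs := isSemistableModel hE hW h
  have hΔ := Δ_ne_zero_of_model hE hW.1
  obtain rfl := hN.eq (isConductor_conductorLevel hE hW)
  have e1 := LFunction_quadTwist_rat hE hW.1 hm.ne_zero
  have e2 : ∀ s : ℂ, (quadTwist (W.map (Int.castRingHom ℚ)) (m : ℚ)).LSeries s =
      (quadTwist E (m : ℚ)).LSeries s := fun s => by
    rw [WeierstrassCurve.LSeries, WeierstrassCurve.LSeries, e1]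
  obtain ⟨L, Λ, hL, hΛ, hLs, hΛs, hfe⟩ := functional_equation_quadTwist_all hΔ hs hm hcop
  have hpar := parity_quadTwist_all hΔ hs hm hcop hL hLs
  rw [rootNumber_eq_of_isEntireL hE hW.1 hs h₁] at hfe hpar
  exact ⟨L, Λ, ⟨hL, fun s hs' => by rw [← e2]; exact hLs s hs'⟩, hΛ, hΛs, hfe, hpar.symm⟩

/-- The entire continuation for all rational twists. -/
theorem exists_isEntireL_twist (E : WeierstrassCurve ℚ) [E.IsElliptic] (h : Semistable E) {d : ℚ}
    (hd : d ≠ 0) : ∃ L : ℂ → ℂ, IsEntireL (quadTwist E d) L := by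
  obtain ⟨L, h1, h2⟩ := exists_entire_twist E ((semistable_iff E).mp h) hd
  exact ⟨L, h1, h2⟩

end Fermat.Agent.Cor.KM
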