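import Fermat.Agent.Corollaries.Mathlib.TwistL

/-!
# Quadratic twists which are ramified at two

`W` a semistable equation over `ℤ` and `m` squarefree, `m ≢ 1` modulo `4`: every integral equation
of the twist by `m` has additive reduction at `2`.
-/

set_option autoImplicit false

noncomputable section

open WeierstrassCurve IsDedekindDomain NumberField

namespace Fermat.Agent.Cor.KM

open MinModel
open Twist (quadTwist quadTwist_Δ quadTwist_c₄ quadTwist_c₆)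

/-! ### The invariants at two -/

section Inv

variable {U : WeierstrassCurve ℤ}

/-- If `c₄` is odd then `c₆ ≡ -1` modulo `4`. -/
theorem c₆_of_odd (h : ¬ (2 : ℤ) ∣ U.c₄) : U.c₆ % 4 = 3 := by
  obtain ⟨j, hj | hj⟩ := Int.even_or_odd' U.a₁
  · exfalso
    apply h
    refine ⟨8 * (j ^ 2 + U.a₂) ^ 2 - 12 * U.b₄, ?_⟩
    rw [WeierstrassCurve.c₄, WeierstrassCurve.b₂, hj]
    ring
  · have hb : U.b₂ = 4 * (j ^ 2 + j + U.a₂) + 1 := by
      rw [WeierstrassCurve.b₂, hj]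
      ring
    obtain ⟨t, ht⟩ : ∃ t, t = j ^ 2 + j + U.a₂ := ⟨_, rfl⟩
    rw [← ht] at hb
    have h6 : U.c₆ = 4 * (-16 * t ^ 3 - 12 * t ^ 2 - 3 * t - 1 + 9 * (4 * t + 1) * U.b₄ -
        54 * U.b₆) + 3 := by
      rw [WeierstrassCurve.c₆, hb]
      ring
    omega

/-- If `c₄` is even and `Δ` odd then `c₆ = 8 t` with `t ≡ 1` modulo `4`. -/
theorem c₆_of_even (h4 : (2 : ℤ) ∣ U.c₄) (hΔ : ¬ (2 : ℤ) ∣ U.Δ) :
    ∃ t : ℤ, U.c₆ = 8 * t ∧ t % 4 = 1 := by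
  obtain ⟨j, hj | hj⟩ := Int.even_or_odd' U.a₁
  · have hb₂ : U.b₂ = 4 * (j ^ 2 + U.a₂) := by
      rw [WeierstrassCurve.b₂, hj]
      ring
    have hb₄ : U.b₄ = 2 * (U.a₄ + j * U.a₃) := by
      rw [WeierstrassCurve.b₄, hj]
      ring
    obtain ⟨i, hi | hi⟩ := Int.even_or_odd' U.a₃
    · exfalso
      apply hΔ
      have hb₆ : U.b₆ = 4 * (i ^ 2 + U.a₆) := by
        rw [WeierstrassCurve.b₆, hi]
        ring
      refine ⟨-8 * (j ^ 2 + U.a₂) ^ 2 * U.b₈ - 4 * U.b₄ ^ 3 - 216 * (i ^ 2 + U.a₆) ^ 2 +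
        144 * (j ^ 2 + U.a₂) * (U.a₄ + j * U.a₃) * (i ^ 2 + U.a₆), ?_⟩
      rw [WeierstrassCurve.Δ, hb₆, hb₂, hb₄]
      ring
    · have hb₆ : U.b₆ = 4 * (i ^ 2 + i + U.a₆) + 1 := by
        rw [WeierstrassCurve.b₆, hi]
        ring
      refine ⟨4 * (-2 * (j ^ 2 + U.a₂) ^ 3 + 9 * (j ^ 2 + U.a₂) * (U.a₄ + j * U.a₃) -
        27 * (i ^ 2 + i + U.a₆) - 7) + 1, ?_, by omega⟩
      rw [WeierstrassCurve.c₆, hb₂, hb₄, hb₆]
      ring
  · exfalso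
    have hb : U.b₂ = 4 * (j ^ 2 + j + U.a₂) + 1 := by
      rw [WeierstrassCurve.b₂, hj]
      ring
    obtain ⟨t, ht⟩ : ∃ t, t = j ^ 2 + j + U.a₂ := ⟨_, rfl⟩
    rw [← ht] at hb
    have h4' : U.c₄ = 2 * (8 * t ^ 2 + 4 * t - 12 * U.b₄) + 1 := by
      rw [WeierstrassCurve.c₄, hb]
      ring
    omega

end Inv

theorem two_dvd_pow_iff {x : ℤ} (n : ℕ) (hn : n ≠ 0) : (2 : ℤ) ∣ x ^ n ↔ (2 : ℤ) ∣ x :=
  Int.prime_two.dvd_pow_iff_dvd hn

theorem two_dvd_mul_iff {x y : ℤ} : (2 : ℤ) ∣ x * y ↔ (2 : ℤ) ∣ x ∨ (2 : ℤ) ∣ y :=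
  Int.prime_two.dvd_mul

/-- if `4 ∤ m` and `2^(2 k + 1)` divides `m^(k..) x`, then `x` is even -/
theorem two_dvd_of_pow_dvd {m x : ℤ} (hm : ¬ (4 : ℤ) ∣ m) {a b : ℕ} (hab : a < b)
    (h : (2 : ℤ) ^ b ∣ m ^ a * x) : (2 : ℤ) ∣ x := by
  obtain ⟨c, rfl⟩ : ∃ c, b = a + (c + 1) := ⟨b - a - 1, by omega⟩
  obtain ⟨j, hj | hj⟩ := Int.even_or_odd' m
  · have hj2 : ¬ (2 : ℤ) ∣ j := by
      rintro ⟨i, rfl⟩
      exact hm ⟨i, by rw [hj]; ring⟩
    rw [hj, mul_pow, mul_assoc, pow_add, mul_dvd_mul_iff_left (pow_ne_zero _ two_ne_zero)] at h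
    have h1 := (dvd_pow_self (2 : ℤ) (Nat.succ_ne_zero c)).trans h
    rw [two_dvd_mul_iff] at h1
    exact h1.resolve_left fun h2 => hj2 (Int.prime_two.dvd_of_dvd_pow h2)
  · have hm2 : ¬ (2 : ℤ) ∣ m := by omega
    have h1 := (dvd_pow_self (2 : ℤ) (by omega : a + (c + 1) ≠ 0)).trans h
    rw [two_dvd_mul_iff] at h1
    exact h1.resolve_left fun h2 => hm2 (Int.prime_two.dvd_of_dvd_pow h2)

theorem zmod4_pow_six : ∀ x : ZMod 4, x = 1 ∨ x = 3 → x ^ 6 = 1 := by decide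

theorem zmod4_of_odd {x : ℤ} (h : ¬ (2 : ℤ) ∣ x) : (x : ZMod 4) = 1 ∨ (x : ZMod 4) = 3 := by
  have h1 : x % 4 = 1 ∨ x % 4 = 3 := by omega
  rcases h1 with h1 | h1
  · left
    have h2 : x = 1 + 4 * (x / 4) := by omega
    rw [h2]
    push_cast
    rw [show (4 : ZMod 4) = 0 from rfl, zero_mul, add_zero]
  · right
    have h2 : x = 3 + 4 * (x / 4) := by omega
    rw [h2]
    push_cast
    rw [show (4 : ZMod 4) = 0 from rfl, zero_mul, add_zero]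

theorem zmod4_of_emod {x r : ℤ} (h : x % 4 = r) : (x : ZMod 4) = r := by
  have h2 : x = r + 4 * (x / 4) := by omega
  rw [h2]
  push_cast
  rw [show (4 : ZMod 4) = 0 from rfl, zero_mul, add_zero]

/-- The comparison of the invariants. -/
theorem additive_two_aux {W V : WeierstrassCurve ℤ} {m r s : ℤ} (hm : ¬ (4 : ℤ) ∣ m)
    (hm4 : m % 4 ≠ 1) (hW : ¬ ((2 : ℤ) ∣ W.Δ ∧ (2 : ℤ) ∣ W.c₄))
    (hrs : ¬ ((2 : ℤ) ∣ r ∧ (2 : ℤ) ∣ s))
    (h4 : V.c₄ * r ^ 4 = m ^ 2 * W.c₄ * s ^ 4) (h6 : V.c₆ * r ^ 6 = m ^ 3 * W.c₆ * s ^ 6)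
    (hΔ : V.Δ * r ^ 12 = m ^ 6 * W.Δ * s ^ 12) : (2 : ℤ) ∣ V.Δ ∧ (2 : ℤ) ∣ V.c₄ := by
  by_cases hr : (2 : ℤ) ∣ r
  · exfalso
    have hs : ¬ (2 : ℤ) ∣ s := fun h => hrs ⟨hr, h⟩
    obtain ⟨i, rfl⟩ := hr
    have hcop : ∀ a b : ℕ, IsCoprime ((2 : ℤ) ^ a) (s ^ b) := fun a b =>
      ((Int.prime_two.coprime_iff_not_dvd).mpr hs).pow
    refine hW ⟨?_, ?_⟩
    · refine two_dvd_of_pow_dvd hm (a := 6) (b := 12) (by norm_num) ?_
      refine (hcop 12 12).dvd_of_dvd_mul_right ?_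
      rw [← hΔ]
      exact ⟨V.Δ * i ^ 12, by ring⟩
    · refine two_dvd_of_pow_dvd hm (a := 2) (b := 4) (by norm_num) ?_
      refine (hcop 4 4).dvd_of_dvd_mul_right ?_
      rw [← h4]
      exact ⟨V.c₄ * i ^ 4, by ring⟩
  · have key : ∀ x : ℤ, ∀ n : ℕ, (2 : ℤ) ∣ x * r ^ n → (2 : ℤ) ∣ x := fun x n h =>
      (two_dvd_mul_iff.mp h).resolve_right fun h1 => hr (Int.prime_two.dvd_of_dvd_pow h1)
    by_cases hs : (2 : ℤ) ∣ s
    · refine ⟨key _ 12 ?_, key _ 4 ?_⟩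
      · rw [hΔ]
        exact Dvd.dvd.mul_left (dvd_pow hs (by norm_num)) _
      · rw [h4]
        exact Dvd.dvd.mul_left (dvd_pow hs (by norm_num)) _
    by_cases hm2 : (2 : ℤ) ∣ m
    · refine ⟨key _ 12 ?_, key _ 4 ?_⟩
      · rw [hΔ, mul_assoc]
        exact Dvd.dvd.mul_right (dvd_pow hm2 (by norm_num)) _
      · rw [h4, mul_assoc]
        exact Dvd.dvd.mul_right (dvd_pow hm2 (by norm_num)) _
    have hmz : (m : ZMod 4) = 3 := by
      rcases zmod4_of_odd hm2 with h | h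
      · exfalso
        apply hm4
        have h1 : ((m - 1 : ℤ) : ZMod 4) = 0 := by
          push_cast
          rw [h, sub_self]
        rw [ZMod.intCast_zmod_eq_zero_iff_dvd] at h1
        push_cast at h1
        omega
      · exact h
    have hr6 : (r : ZMod 4) ^ 6 = 1 := zmod4_pow_six _ (zmod4_of_odd hr)
    have hs6 : (s : ZMod 4) ^ 6 = 1 := zmod4_pow_six _ (zmod4_of_odd hs)
    have hodd : ∀ x y : ℤ, ∀ n k : ℕ, x * r ^ n = m ^ k * y * s ^ n → (2 : ℤ) ∣ x → (2 : ℤ) ∣ y := by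
      intro x y n k h hx
      have h1 : (2 : ℤ) ∣ m ^ k * y * s ^ n := by
        rw [← h]
        exact Dvd.dvd.mul_right hx _
      rw [two_dvd_mul_iff, two_dvd_mul_iff] at h1
      rcases h1 with (h1 | h1) | h1
      · exact absurd (Int.prime_two.dvd_of_dvd_pow h1) hm2
      · exact h1
      · exact absurd (Int.prime_two.dvd_of_dvd_pow h1) hs
    exfalso
    by_cases hc : (2 : ℤ) ∣ W.c₄
    · have hΔW : ¬ (2 : ℤ) ∣ W.Δ := fun h => hW ⟨h, hc⟩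
      have hΔV : ¬ (2 : ℤ) ∣ V.Δ := fun h => hΔW (hodd _ _ 12 6 hΔ h)
      have hcV : (2 : ℤ) ∣ V.c₄ := by
        refine key _ 4 ?_
        rw [h4]
        exact Dvd.dvd.mul_right (Dvd.dvd.mul_left hc _) _
      obtain ⟨t, ht, ht4⟩ := c₆_of_even hc hΔW
      obtain ⟨t', ht', ht4'⟩ := c₆_of_even hcV hΔV
      rw [ht, ht'] at h6
      have h7 : t' * r ^ 6 = m ^ 3 * t * s ^ 6 := by
        have h8 : (8 : ℤ) * (t' * r ^ 6) = 8 * (m ^ 3 * t * s ^ 6) := by linear_combination h6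
        exact mul_left_cancel₀ (by norm_num) h8
      have h8 := congrArg (Int.cast : ℤ → ZMod 4) h7
      push_cast at h8
      rw [hr6, hs6, zmod4_of_emod ht4, zmod4_of_emod ht4', hmz] at h8
      revert h8
      decide
    · have hcV : ¬ (2 : ℤ) ∣ V.c₄ := fun h => hc (hodd _ _ 4 2 h4 h)
      have h8 := congrArg (Int.cast : ℤ → ZMod 4) h6
      push_cast at h8
      rw [hr6, hs6, zmod4_of_emod (c₆_of_odd hc), zmod4_of_emod (c₆_of_odd hcV), hmz] at h8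
      revert h8
      decide

/-- **Ramified twists are additive at two.** -/
theorem additive_two {W V : WeierstrassCurve ℤ} {m : ℤ} (hsq : Squarefree m) (hm4 : m % 4 ≠ 1)
    (hW : W.IsSemistableModel)
    (hV : V.IsIntegralModelOf (quadTwist (W.map (Int.castRingHom ℚ)) (m : ℚ))) :
    (2 : ℤ) ∣ V.Δ ∧ (2 : ℤ) ∣ V.c₄ := by
  obtain ⟨C, hC⟩ := hV
  have hm : ¬ (4 : ℤ) ∣ m := by
    rintro ⟨i, hi⟩
    have h1 := hsq 2 ⟨i, by rw [hi]; ring⟩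
    exact Int.prime_two.not_isUnit h1
  have hW2 : ¬ ((2 : ℤ) ∣ W.Δ ∧ (2 : ℤ) ∣ W.c₄) := fun h =>
    hW 2 Nat.prime_two (by exact_mod_cast h.1) (by exact_mod_cast h.2)
  obtain ⟨q, hq⟩ : ∃ q : ℚ, q = 2 * ((C.u⁻¹ : ℚˣ) : ℚ) := ⟨_, rfl⟩
  have hqd : (q.den : ℚ) ≠ 0 := Nat.cast_ne_zero.mpr q.den_ne_zero
  have hqn : q * q.den = q.num := Rat.mul_den_eq_num q
  have hrs : ¬ ((2 : ℤ) ∣ (q.den : ℤ) ∧ (2 : ℤ) ∣ q.num) := by
    rintro ⟨h1, h2⟩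
    have h3 := q.reduced
    have h4 : 2 ∣ q.den := by exact_mod_cast h1
    have h5 : 2 ∣ q.num.natAbs := Int.natCast_dvd.mp (by exact_mod_cast h2)
    exact Nat.not_coprime_of_dvd_of_dvd (by norm_num) h5 h4 h3
  have e4 : (V.c₄ : ℚ) = q ^ 4 * ((m : ℚ) ^ 2 * W.c₄) := by
    have h1 := congrArg WeierstrassCurve.c₄ hC
    rw [variableChange_c₄, map_c₄, quadTwist_c₄, map_c₄, eq_intCast, eq_intCast] at h1
    rw [← h1, hq]
    ring
  have e6 : (V.c₆ : ℚ) = q ^ 6 * ((m : ℚ) ^ 3 * W.c₆) := by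
    have h1 := congrArg WeierstrassCurve.c₆ hC
    rw [variableChange_c₆, map_c₆, quadTwist_c₆, map_c₆, eq_intCast, eq_intCast] at h1
    rw [← h1, hq]
    ring
  have eΔ : (V.Δ : ℚ) = q ^ 12 * ((m : ℚ) ^ 6 * W.Δ) := by
    have h1 := congrArg WeierstrassCurve.Δ hC
    rw [variableChange_Δ, map_Δ, quadTwist_Δ, map_Δ, eq_intCast, eq_intCast] at h1
    rw [← h1, hq]
    ring
  refine additive_two_aux (r := (q.den : ℤ)) (s := q.num) hm hm4 hW2 hrs ?_ ?_ ?_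
  · have h1 : (V.c₄ : ℚ) * (q.den : ℚ) ^ 4 = (m : ℚ) ^ 2 * W.c₄ * (q.num : ℚ) ^ 4 := by
      rw [e4, ← hqn]
      ring
    exact_mod_cast h1
  · have h1 : (V.c₆ : ℚ) * (q.den : ℚ) ^ 6 = (m : ℚ) ^ 3 * W.c₆ * (q.num : ℚ) ^ 6 := by
      rw [e6, ← hqn]
      ring
    exact_mod_cast h1
  · have h1 : (V.Δ : ℚ) * (q.den : ℚ) ^ 12 = (m : ℚ) ^ 6 * W.Δ * (q.num : ℚ) ^ 12 := by
      rw [eΔ, ← hqn]
      ring
    exact_mod_cast h1

/-! ### Models -/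

/-- At every prime either a locally minimal or a globally minimal equation. -/
theorem LFunction_of_models' {E : WeierstrassCurve ℚ} {a b : ℕ → ℤ} (hE : E.Δ ≠ 0)
    (h : ∀ p : ℕ, p.Prime → ∃ V : WeierstrassCurve ℤ, ((V.IsIntegralModelOf E ∧
      ¬ ((p : ℤ) ^ 12 ∣ V.Δ ∧ (p : ℤ) ^ 4 ∣ V.c₄)) ∨ IsDiscMinimal V E) ∧
        aE V p = a p ∧ bE V p = b p) :
    E.LFunction = ArithmeticFunction.eulerProduct fun v : HeightOneSpectrum (𝓞 ℚ) =>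
      ArithmeticFunction.ofPowerSeries (pr v) (invPS (a (pr v)) (b (pr v))) := by
  rw [LFunction]
  refine congrArg ArithmeticFunction.eulerProduct (funext fun v => ?_)
  obtain ⟨V, hV, ha, hb⟩ := h (pr v) (fact_pr v).out
  have h2 : (E.baseChange (v.adicCompletion ℚ)).localPolynomial (v.adicCompletionIntegers ℚ) =
      1 - Polynomial.C (a (pr v)) * Polynomial.X +
        Polynomial.C (b (pr v)) * Polynomial.X ^ 2 := by
    rcases hV with ⟨hV, hmin⟩ | hV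
    · have hΔ := Δ_ne_zero_of_model hE hV
      have h1 := localPolynomial_map_eq (R := v.adicCompletionIntegers ℚ) hE hV
        (algebraMap ℚ (v.adicCompletion ℚ))
      rw [(padicIso v).localPolynomial_min ((padicIso v).isMinimal_of_not_dvd hmin) hΔ, ha, hb]
        at h1
      exact h1
    · have h1 := localPolynomial_eq_aE hE hV v
      rwa [ha, hb] at h1
  rw [localEulerFactor, (padicIso v).card_residueField, localPowerSeries, h2, invPS]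
  congr 2
  simp only [Polynomial.coe_add, Polynomial.coe_sub, Polynomial.coe_mul,
    Polynomial.coe_C, Polynomial.coe_X, Polynomial.coe_one, Polynomial.coe_pow]

/-- The local data at two of a twist by `m ≢ 1` modulo `4`. -/
theorem twist_two_additive {W : WeierstrassCurve ℤ} {m : ℤ} (hsq : Squarefree m)
    (hm4 : m % 4 ≠ 1) (hW : W.IsSemistableModel) :
    ∃ V : WeierstrassCurve ℤ,
      IsDiscMinimal V (quadTwist (W.map (Int.castRingHom ℚ)) (m : ℚ)) ∧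
        aE V 2 = 0 ∧ bE V 2 = 0 := by
  obtain ⟨V, hV⟩ := exists_isDiscMinimal (quadTwist (W.map (Int.castRingHom ℚ)) (m : ℚ))
  obtain ⟨h1, h2⟩ := additive_two hsq hm4 hW hV.1
  exact ⟨V, hV, if_pos ⟨by exact_mod_cast h1, by exact_mod_cast h2⟩,
    if_pos (by exact_mod_cast h1)⟩

end Fermat.Agent.Cor.KM
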