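import Fermat.Agent.Corollaries.Mathlib.Model
import Fermat.Agent.Corollaries.HW.Hardy
import Fermat.Agent.Corollaries.HW.CountZeros
import Fermat.Agent.Corollaries.HW.RankBound
import Fermat.Agent.Corollaries.HW.StripFinal
import Fermat.Agent.Corollaries.HW.SignChange

/-!
# The zeros of Mathlib's `L`-function of a semistable elliptic curve over `ℚ`

`E` is a semistable elliptic curve over `ℚ` (Mathlib's minimal equations over `ℤ_p` have additive
reduction at no prime) and `L` the entire continuation of Mathlib's `L`-series of `E`: Hardy's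
theorem, the number of zeros, the critical strip, the analytic rank, the signs of the coefficients.
-/

set_option autoImplicit false

noncomputable section

open WeierstrassCurve Complex

namespace Fermat.Agent.Cor.KM

open MinModel

variable {E : WeierstrassCurve ℚ} [E.IsElliptic] {L : ℂ → ℂ}

/-- The continuation of `E.LSeries` is the Hasse-Weil `L`-function of a semistable equation. -/
theorem exists_isHasseWeil_of_eq (hE : Semistable E) (hL : Differentiable ℂ L)
    (h : ∀ s : ℂ, 3 / 2 < s.re → E.LSeries s = L s) :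
    ∃ W : WeierstrassCurve ℤ, W.Δ ≠ 0 ∧ W.IsSemistableModel ∧ IsDiscMinimal W E ∧
      HW.IsHasseWeil W L := by
  have hE0 : E.Δ ≠ 0 := E.isUnit_Δ.ne_zero
  obtain ⟨W, hW⟩ := exists_isDiscMinimal E
  have hs := isSemistableModel hE0 hW hE
  have hΔ := Δ_ne_zero_of_model hE0 hW.1
  obtain ⟨f, ⟨hf, ha⟩, -⟩ := HW.existsUnique_newform_ap hΔ hs
  have hL' := HW.isHasseWeil hΔ hf ha
  have h1 : L = ModularForm.L two_pos f := by
    have a₁ : AnalyticOnNhd ℂ L Set.univ := fun z _ => hL.analyticAt z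
    have a₂ : AnalyticOnNhd ℂ (ModularForm.L two_pos f) Set.univ := fun z _ => hL'.1.analyticAt z
    refine a₁.eq_of_eventuallyEq a₂ (z₀ := 3) ?_
    have hopen : {s : ℂ | 3 / 2 < s.re} ∈ nhds (3 : ℂ) :=
      (isOpen_lt continuous_const Complex.continuous_re).mem_nhds (by norm_num)
    filter_upwards [hopen] with z hz
    rw [← h z hz, LSeries_eq_of_isHasseWeil hE0 hW hs hL' hz]
  exact ⟨W, hΔ, hs, hW, h1 ▸ hL'⟩

/-- **Hardy's theorem for semistable elliptic curves over `ℚ`** (Mathlib's `L`-series): `L` has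
infinitely many zeros with `re s = 1`. -/
theorem hardy_semistable (hE : Semistable E) (hL : Differentiable ℂ L)
    (h : ∀ s : ℂ, 3 / 2 < s.re → E.LSeries s = L s) : {s : ℂ | s.re = 1 ∧ L s = 0}.Infinite := by
  obtain ⟨W, hΔ, hW, -, hHW⟩ := exists_isHasseWeil_of_eq hE hL h
  exact HW.infinite_zeros_critical_line hΔ hW hHW

/-- **The number of zeros** with `0 < re s`, `|im s| ≤ T`, counted with multiplicity, is at most
`C T log T`. -/
theorem count_zeros_semistable (hE : Semistable E) (hL : Differentiable ℂ L)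
    (h : ∀ s : ℂ, 3 / 2 < s.re → E.LSeries s = L s) :
    ∃ C : ℝ, ∀ T : ℝ, 2 ≤ T → {s : ℂ | L s = 0 ∧ 0 < s.re ∧ |s.im| ≤ T}.Finite ∧
      ((∑ᶠ s ∈ {s : ℂ | L s = 0 ∧ 0 < s.re ∧ |s.im| ≤ T}, analyticOrderNatAt L s : ℕ) : ℝ) ≤
        C * (T * Real.log T) := by
  obtain ⟨W, hΔ, hW, -, hHW⟩ := exists_isHasseWeil_of_eq hE hL h
  exact HW.count_zeros_of_semistable hΔ hW hHW

/-- **The critical strip**: simple zeros at `0, -1, -2, …`, all the others have
`1/2 ≤ re s ≤ 3/2`, and they are symmetric with respect to `1`. -/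
theorem zeros_semistable (hE : Semistable E) (hL : Differentiable ℂ L)
    (h : ∀ s : ℂ, 3 / 2 < s.re → E.LSeries s = L s) :
    (∀ n : ℕ, analyticOrderAt L (-(n : ℂ)) = 1) ∧
    (∀ s : ℂ, L s = 0 → (∃ n : ℕ, s = -n) ∨ 1 / 2 ≤ s.re ∧ s.re ≤ 3 / 2) ∧
    (∀ s : ℂ, 0 < s.re → s.re < 2 → (L (2 - s) = 0 ↔ L s = 0)) ∧
    ∀ n : ℕ, ∃ s : ℂ, L s = 0 ∧ s.re = 1 ∧ (n : ℝ) < |s.im| := by
  obtain ⟨W, hΔ, hW, -, hHW⟩ := exists_isHasseWeil_of_eq hE hL h
  have hC := HW.criticalStrip_of_semistable hΔ hW hHW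
  refine ⟨hC.trivial, hC.zero, hC.symm, fun n => ?_⟩
  by_contra hcon
  push Not at hcon
  have hinf := HW.infinite_zeros_critical_line hΔ hW hHW
  obtain ⟨C, hcount⟩ := HW.count_zeros_of_semistable hΔ hW hHW
  refine hinf ((hcount (max 2 n) (le_max_left _ _)).1.subset ?_)
  rintro s ⟨h1, h2⟩
  exact ⟨h2, by rw [h1]; exact one_pos, (hcon s h2 h1).trans (le_max_right _ _)⟩

/-- **The analytic rank `r`** of a semistable elliptic curve over `ℚ` with conductor `N` satisfies
`2^r ≤ N^7`. -/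
theorem two_pow_rank_le (hE : Semistable E) (hL : Differentiable ℂ L)
    (h : ∀ s : ℂ, 3 / 2 < s.re → E.LSeries s = L s) {N : ℕ} (hN : IsConductor E N) :
    2 ^ analyticOrderNatAt L 1 ≤ N ^ 7 := by
  obtain ⟨W, hΔ, hW, hm, hHW⟩ := exists_isHasseWeil_of_eq hE hL h
  rw [hN.eq (isConductor_of_model hΔ hW hm.1)]
  exact HW.two_pow_order_le hΔ hW hHW

theorem infinite_congr_of_ne_zero {p q : ℕ → Prop} (h : ∀ n, n ≠ 0 → (p n → q n))
    (hp : {n | p n}.Infinite) : {n | q n}.Infinite :=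
  (hp.sdiff (Set.finite_singleton 0)).mono fun n hn => h n hn.2 hn.1

/-- **The coefficients of Mathlib's `L`-function** of a semistable elliptic curve over `ℚ` change
sign infinitely often. -/
theorem infinite_signs_semistable (E : WeierstrassCurve ℚ) [E.IsElliptic] (hE : Semistable E) :
    {n : ℕ | 0 < E.LFunction n}.Infinite ∧ {n : ℕ | E.LFunction n < 0}.Infinite := by
  obtain ⟨N, hN, -⟩ := existsUnique_isConductor E
  obtain ⟨L, Λ, w, hL, -, hsum, -⟩ := hasseWeil E hE hN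
  have h : ∀ s : ℂ, 3 / 2 < s.re → E.LSeries s = L s := fun s hs => (hsum s hs).2.1
  obtain ⟨W, hΔ, hW, -, hHW⟩ := exists_isHasseWeil_of_eq hE hL h
  obtain ⟨a, -, -, -, ha, hpos, hneg⟩ := HW.exists_coeff_infinite_signs hΔ hW hHW
  have hterm : ∀ s : ℂ, s ≠ 0 → LSeries.term (fun n => (a n : ℂ)) s =
      fun n : ℕ => (a n : ℂ) / (n : ℂ) ^ s := by
    intro s hs
    ext n
    rcases eq_or_ne n 0 with rfl | hn
    · rw [LSeries.term_zero, Nat.cast_zero, zero_cpow hs, div_zero]
    · rw [LSeries.term_of_ne_zero hn]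
  have hsa : ∀ s : ℂ, 3 / 2 < s.re → HasSum (LSeries.term (fun n => (a n : ℂ)) s) (L s) := by
    intro s hs
    rw [hterm s (fun h0 => by rw [h0] at hs; norm_num at hs)]
    exact ha s hs
  have h2 : (3 / 2 : ℝ) < (2 : ℂ).re := by norm_num
  have habs : ∀ f : ℕ → ℂ, LSeriesSummable f 2 → LSeries.abscissaOfAbsConv f < ⊤ := by
    intro f hf
    refine lt_of_le_of_lt hf.abscissaOfAbsConv_le ?_
    exact EReal.coe_lt_top _
  have heq : ∀ n : ℕ, n ≠ 0 → E.LFunction n = a n := by
    intro n hn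
    have h3 : ((E.LFunction n : ℤ) : ℂ) = (a n : ℂ) := by
      refine LSeries.eq_of_LSeries_eventually_eq (f := fun n => ((E.LFunction n : ℤ) : ℂ))
        (g := fun n => (a n : ℂ)) (habs _ (hsum 2 h2).1) (habs _ (hsa 2 h2).summable) ?_ hn
      filter_upwards [Filter.eventually_gt_atTop (3 / 2 : ℝ)] with x hx
      have hx' : 3 / 2 < ((x : ℝ) : ℂ).re := by rwa [ofReal_re]
      rw [show LSeries (fun n => (a n : ℂ)) x = L x from (hsa x hx').tsum_eq, ← h x hx']
      rfl
    exact_mod_cast h3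
  exact ⟨infinite_congr_of_ne_zero (fun n hn h => by rw [heq n hn]; exact h) hpos,
    infinite_congr_of_ne_zero (fun n hn h => by rw [heq n hn]; exact h) hneg⟩

end Fermat.Agent.Cor.KM

end
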